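import Fermat.Agent.ThreeTorsion.ClassCount
import Mathlib.RingTheory.AdjoinRoot
import Mathlib.Algebra.Polynomial.SpecificDegree
import Mathlib.NumberTheory.NumberField.Basic

/-!
# Quadratic fields and fundamental discriminants

A quadratic field has a discriminant that is fundamental, every fundamental discriminant is the
discriminant of one quadratic field up to isomorphism.
-/

set_option autoImplicit false

noncomputable section

open Module NumberField
open scoped Classical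

namespace FA.ThreeTorsion

/-- `D` is not fundamental at `p`. -/
def DiscBad (p : ℕ) (D : ℤ) : Prop :=
  if p = 2 then D % 16 = 0 ∨ D % 16 = 4 else (p : ℤ) ^ 2 ∣ D

/-- Fundamental at every prime. -/
def DiscGood (D : ℤ) : Prop := (D % 4 = 0 ∨ D % 4 = 1) ∧ ∀ p : ℕ, p.Prime → ¬ DiscBad p D

/-- `D` is a fundamental discriminant. -/
def FundDisc (D : ℤ) : Prop := D ≠ 1 ∧ DiscGood D

theorem FundDisc.not_isSquare {D : ℤ} (h : FundDisc D) : ¬ IsSquare D := by
  rintro ⟨m, rfl⟩
  obtain ⟨h1, -, h2⟩ := h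
  by_cases hm : m.natAbs = 1
  · rcases Int.natAbs_eq m with e | e <;> rw [hm] at e <;> subst e <;> exact h1 (by norm_num)
  obtain ⟨p, hp, k, hk⟩ := Nat.exists_prime_and_dvd hm
  have hpm : (p : ℤ) ∣ m := Int.natCast_dvd.mpr ⟨k, hk⟩
  refine h2 p hp ?_
  have hd : (p : ℤ) ^ 2 ∣ m * m := by rw [pow_two]; exact mul_dvd_mul hpm hpm
  by_cases h : p = 2
  · subst h
    obtain ⟨l, rfl⟩ := hpm
    simp only [DiscBad, if_true]
    rcases Int.even_or_odd l with ⟨j, rfl⟩ | ⟨j, rfl⟩
    · left; push_cast; ring_nf; omega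
    · right; push_cast; ring_nf; omega
  · simp only [DiscBad, if_neg h]
    exact hd

theorem FundDisc.ne_zero {D : ℤ} (h : FundDisc D) : D ≠ 0 := fun e =>
  h.not_isSquare (e ▸ ⟨0, rfl⟩)

/-- A fundamental discriminant is no proper multiple by a square. -/
theorem fund_unique {D E o : ℤ} (hD : FundDisc D) (hE : FundDisc E) (h : 4 * D = o ^ 2 * E) :
    D = E := by
  obtain ⟨-, hD4, hD⟩ := hD
  obtain ⟨-, hE4, hE⟩ := hE
  have hodd : ∀ p : ℕ, p.Prime → p ≠ 2 → ¬ (p : ℤ) ∣ o := by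
    intro p hp h2 hpo
    have h4 : (p : ℤ) ^ 2 ∣ 4 * D := ⟨(o / p) ^ 2 * E, by
      conv_lhs => rw [h, ← Int.mul_ediv_cancel' hpo]
      ring⟩
    refine hD p hp ?_
    rw [DiscBad, if_neg h2]
    have hco : IsCoprime ((p : ℤ) ^ 2) 4 := by
      rw [show (4 : ℤ) = ((2 : ℕ) : ℤ) ^ 2 by norm_num]
      exact (Nat.isCoprime_iff_coprime.mpr ((Nat.coprime_primes hp Nat.prime_two).mpr h2)).pow
    exact hco.dvd_of_dvd_mul_left h4
  have hn : ∀ n : ℕ, o.natAbs = n → D = E := by
    intro n hn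
    have ho2 : o ^ 2 = (n : ℤ) ^ 2 := by rw [← hn, Int.natAbs_sq]
    rw [ho2] at h
    by_cases h0 : n = 0
    · subst h0
      have : D = 0 := by simp at h; exact h
      exact absurd this (fun e => hD 2 Nat.prime_two (by simp [DiscBad, e]))
    obtain ⟨k, hk⟩ : ∃ k, n = 2 ^ k := by
      refine ⟨n.factorization 2, ?_⟩
      by_contra hne
      set m := ordCompl[2] n
      have hm1 : m ≠ 1 := fun e => hne (by
        have := Nat.ordProj_mul_ordCompl_eq_self n 2
        rw [show ordCompl[2] n = m from rfl, e, mul_one] at this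
        exact this.symm)
      obtain ⟨p, hp, hpm⟩ := Nat.exists_prime_and_dvd hm1
      have h2 : p ≠ 2 := fun e =>
        Nat.not_dvd_ordCompl Nat.prime_two h0 (by rw [e] at hpm; exact hpm)
      refine hodd p hp h2 (Int.natCast_dvd.mpr ?_)
      rw [hn]
      exact hpm.trans (Nat.ordCompl_dvd n 2)
    subst hk
    have hb : ∀ X : ℤ, (X % 4 = 0 ∨ X % 4 = 1) → ¬ DiscBad 2 (4 * X) → False := fun X hX hb =>
      hb (by simp only [DiscBad, if_true]; omega)
    match k with
    | 0 =>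
      norm_num at h
      exact (hb D hD4 (h ▸ hE 2 Nat.prime_two)).elim
    | 1 =>
      norm_num at h
      exact h
    | j + 2 =>
      refine (hb ((4 : ℤ) ^ j * E) ?_ ?_).elim
      · rcases Nat.eq_zero_or_pos j with rfl | hj
        · simpa using hE4
        · left
          obtain ⟨i, rfl⟩ : ∃ i, j = i + 1 := ⟨j - 1, by omega⟩
          rw [pow_succ, mul_assoc, mul_left_comm]
          exact Int.mul_emod_right _ _
      · have e4 : ((4 : ℤ) ^ j) = ((2 : ℤ) ^ j) ^ 2 := by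
          rw [← pow_mul, mul_comm, pow_mul]; norm_num
        have hDval : D = 4 * ((4 : ℤ) ^ j * E) := by
          push_cast at h
          refine mul_left_cancel₀ (by norm_num : (4 : ℤ) ≠ 0) ?_
          rw [e4]
          linear_combination h
        rw [← hDval]
        exact hD 2 Nat.prime_two
  exact hn _ rfl

variable {K : Type} [Field K] [NumberField K]

theorem exists_qdata (hK : finrank ℚ K = 2) : Nonempty (QData (𝓞 K)) := by
  have hr : finrank ℤ (𝓞 K) = 2 := by rw [RingOfIntegers.rank, hK]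
  set B := Module.finBasisOfFinrankEq ℤ (𝓞 K) hr
  set u := B.repr 1 0
  set v := B.repr 1 1
  have h1 : (u : 𝓞 K) * B 0 + (v : 𝓞 K) * B 1 = 1 := by
    rw [← zsmul_eq_mul, ← zsmul_eq_mul]
    conv_rhs => rw [← B.sum_repr 1, Fin.sum_univ_two]
  have hg : Int.gcd u v = 1 := by
    obtain ⟨a, ha⟩ := Int.gcd_dvd_left u v
    obtain ⟨b, hb⟩ := Int.gcd_dvd_right u v
    generalize hgg : Int.gcd u v = g at ha hb
    have hu : IsUnit ((algebraMap ℤ (𝓞 K)) (g : ℤ)) := isUnit_iff_exists_inv.mpr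
      ⟨(a : 𝓞 K) * B 0 + (b : 𝓞 K) * B 1, by
        rw [ha, hb] at h1
        push_cast at h1
        rw [eq_intCast]
        push_cast
        linear_combination h1⟩
    have hnu := hu.map (Algebra.norm ℤ)
    rw [Algebra.norm_algebraMap_of_basis B, Fintype.card_fin] at hnu
    simpa [Int.isUnit_iff_natAbs_eq] using (isUnit_pow_iff two_ne_zero).mp hnu
  obtain ⟨s, r, hsr⟩ : ∃ s r : ℤ, u * s - v * r = 1 := by
    refine ⟨Int.gcdA u v, -Int.gcdB u v, ?_⟩
    have := Int.gcd_eq_gcd_ab u v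
    rw [hg] at this
    push_cast at this
    linarith
  have hsr' : (u : 𝓞 K) * s - v * r = 1 := by
    exact_mod_cast congrArg (fun x : ℤ => (x : 𝓞 K)) hsr
  set w : 𝓞 K := (r : 𝓞 K) * B 0 + (s : 𝓞 K) * B 1
  have hli : LinearIndependent ℤ ![(1 : 𝓞 K), w] := by
    rw [LinearIndependent.pair_iff]
    intro x y hxy
    rw [zsmul_eq_mul, zsmul_eq_mul, mul_one] at hxy
    have h : (x * u + y * r) • B 0 + (x * v + y * s) • B 1 = 0 := by
      rw [zsmul_eq_mul, zsmul_eq_mul]
      push_cast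
      linear_combination hxy + (x : 𝓞 K) * h1
    obtain ⟨h0, h1'⟩ := LinearIndependent.pair_iff.mp (B.linearIndependent.comp ![0, 1]
      (by decide) |> fun hl => by
        have e : (B ∘ ![(0 : Fin 2), 1]) = ![B 0, B 1] := by funext i; fin_cases i <;> rfl
        rwa [e] at hl) _ _ h
    constructor
    · linear_combination s * h0 - r * h1' - x * hsr
    · linear_combination u * h1' - v * h0 - y * hsr
  refine ⟨⟨Basis.mk hli fun z _ => ?_, by simp⟩⟩
  set z0 := B.repr z 0
  set z1 := B.repr z 1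
  have hz : (z0 : 𝓞 K) * B 0 + (z1 : 𝓞 K) * B 1 = z := by
    rw [← zsmul_eq_mul, ← zsmul_eq_mul]
    conv_rhs => rw [← B.sum_repr z, Fin.sum_univ_two]
  have hmem : z = (z0 * s - z1 * r) • (1 : 𝓞 K) + (u * z1 - v * z0) • w := by
    rw [zsmul_eq_mul, zsmul_eq_mul, mul_one, ← hz]
    push_cast
    linear_combination ((z0 : 𝓞 K) * s - z1 * r) * h1 -
      ((z0 : 𝓞 K) * B 0 + (z1 : 𝓞 K) * B 1) * hsr'
  rw [hmem]
  exact add_mem (Submodule.smul_mem _ _ (Submodule.subset_span ⟨0, rfl⟩))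
    (Submodule.smul_mem _ _ (Submodule.subset_span ⟨1, rfl⟩))

omit [NumberField K] in
theorem mem_integers {y : K} {a b : ℤ} (h : y * y = (a : K) * y + (b : K)) :
    ∃ Y : 𝓞 K, algebraMap (𝓞 K) K Y = y := by
  refine ⟨⟨y, Polynomial.X ^ 2 - Polynomial.C a * Polynomial.X - Polynomial.C b, ?_, ?_⟩, rfl⟩
  · monicity!
  · simp only [Polynomial.eval₂_sub, Polynomial.eval₂_mul, Polynomial.eval₂_X_pow,
      Polynomial.eval₂_C, Polynomial.eval₂_X]
    simp only [eq_intCast]
    linear_combination h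

theorem fundDisc_of_qdata (Q : QData (𝓞 K)) : FundDisc Q.disc := by
  refine ⟨fun h => Q.not_isSquare_disc (by rw [h]; exact ⟨1, rfl⟩), ?_, ?_⟩
  · rw [QData.disc]
    rcases Int.even_or_odd Q.t with ⟨j, hj⟩ | ⟨j, hj⟩
    · left; rw [hj]; ring_nf; omega
    · right; rw [hj]; ring_nf; omega
  intro p hp hbad
  have hp0 : ((p : ℤ) : K) ≠ 0 := by exact_mod_cast hp.ne_zero
  have hclose : ∀ (z : 𝓞 K) (a b : ℤ), z * z = ((a * p : ℤ) : 𝓞 K) * z + ((b * p ^ 2 : ℤ) : 𝓞 K) →
      (p : ℤ) ∣ Q.oc z := by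
    intro z a b hz
    have hz' := congrArg (algebraMap (𝓞 K) K) hz
    rw [map_mul, map_add, map_mul, map_intCast, map_intCast] at hz'
    obtain ⟨Y, hY⟩ := mem_integers (y := algebraMap (𝓞 K) K z / ((p : ℤ) : K)) (a := a) (b := b)
      (by field_simp; push_cast at hz' ⊢; linear_combination hz')
    have e : z = ((p : ℤ) : 𝓞 K) * Y := RingOfIntegers.coe_injective (by
      rw [map_mul, map_intCast, hY, mul_div_cancel₀ _ hp0])
    rw [e, (Q.mul_coeff _ _).2, Q.rc_intCast, Q.oc_intCast]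
    exact ⟨Q.oc Y, by ring⟩
  by_cases h2 : p = 2
  · subst h2
    simp only [DiscBad, if_true, QData.disc] at hbad
    obtain ⟨j, hj⟩ : (2 : ℤ) ∣ Q.t := by
      rcases Int.even_or_odd Q.t with ⟨j, hj⟩ | ⟨j, hj⟩
      · exact ⟨j, by omega⟩
      · rw [hj] at hbad; ring_nf at hbad; omega
    rw [hj] at hbad
    ring_nf at hbad
    obtain ⟨δ, hδ, M, hM⟩ : ∃ δ : ℤ, (δ = 0 ∨ δ = 1) ∧ ∃ M, j ^ 2 + Q.n - δ = 4 * M := by
      rcases hbad with hb | hb
      · exact ⟨0, Or.inl rfl, (j ^ 2 + Q.n) / 4, by omega⟩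
      · exact ⟨1, Or.inr rfl, (j ^ 2 + Q.n - 1) / 4, by omega⟩
    have hδ2 : δ * δ = δ := by rcases hδ with rfl | rfl <;> norm_num
    have := hclose (Q.omega + ((δ - j : ℤ) : 𝓞 K)) δ M (by
      have hM' := congrArg (fun x : ℤ => (x : 𝓞 K)) hM
      have hj' := congrArg (fun x : ℤ => (x : 𝓞 K)) hj
      have hδ' := congrArg (fun x : ℤ => (x : 𝓞 K)) hδ2
      push_cast at hM' hj' hδ' ⊢
      linear_combination Q.omega_sq + Q.omega * hj' + hM' - hδ')
    rw [show Q.oc (Q.omega + ((δ - j : ℤ) : 𝓞 K)) = 1 from (Q.coeff_of_eq (a := δ - j) (c := 1)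
      (by push_cast; ring)).2] at this
    norm_num at this
  · simp only [DiscBad, if_neg h2] at hbad
    obtain ⟨m, hm⟩ := hbad
    have := hclose Q.sqrtD 0 m (by
      rw [Q.sqrtD_sq, hm]; push_cast; ring)
    rw [show Q.oc Q.sqrtD = 2 from (Q.coeff_of_eq (a := -Q.t) (c := 2)
      (by rw [QData.sqrtD]; push_cast; ring)).2] at this
    have h := Nat.le_of_dvd two_pos ((Int.natCast_dvd_natCast (n := 2)).mp (by exact_mod_cast this))
    have := hp.two_le
    omega

theorem fundDisc_discr (hK : finrank ℚ K = 2) : FundDisc (discr K) := by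
  obtain ⟨Q⟩ := exists_qdata hK
  rw [← Q.disc_eq_discr]
  exact fundDisc_of_qdata Q

section Exists

open Polynomial

/-- `X² - D` over `ℚ`. -/
def sqPoly (D : ℤ) : ℚ[X] := X ^ 2 - C (D : ℚ)

theorem natDegree_sqPoly (D : ℤ) : (sqPoly D).natDegree = 2 := natDegree_X_pow_sub_C

theorem irreducible_sqPoly {D : ℤ} (hD : ¬ IsSquare D) : Irreducible (sqPoly D) := by
  refine irreducible_of_degree_le_three_of_not_isRoot (by rw [natDegree_sqPoly]; simp)
    fun x hx => ?_
  simp only [sqPoly, IsRoot, eval_sub, eval_pow, eval_X, eval_C, sub_eq_zero] at hx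
  refine hD (Rat.isSquare_intCast_iff.mp ?_)
  exact ⟨x, by rw [← hx, pow_two]⟩

theorem exists_sqrt_field {D : ℤ} (hD : FundDisc D) :
    ∃ (L : Type) (_ : Field L) (_ : NumberField L), finrank ℚ L = 2 ∧ discr L = D := by
  have := Fact.mk (irreducible_sqPoly hD.not_isSquare)
  set L := AdjoinRoot (sqPoly D)
  have hfr : finrank ℚ L = 2 := by
    rw [(AdjoinRoot.powerBasis (irreducible_sqPoly hD.not_isSquare).ne_zero).finrank,
      AdjoinRoot.powerBasis_dim, natDegree_sqPoly]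
  have : FiniteDimensional ℚ L := FiniteDimensional.of_finrank_eq_succ hfr
  have hL : NumberField L := { to_charZero := inferInstance, to_finiteDimensional := this }
  refine ⟨L, inferInstance, hL, hfr, ?_⟩
  obtain ⟨Q⟩ := exists_qdata hfr
  set x : L := AdjoinRoot.root (sqPoly D)
  have hx : x * x = ((0 : ℤ) : L) * x + (D : L) := by
    have h : eval₂ (AdjoinRoot.of (sqPoly D)) x (X ^ 2 - C (D : ℚ)) = 0 :=
      AdjoinRoot.eval₂_root (sqPoly D)
    rw [eval₂_sub, eval₂_X_pow, eval₂_C, map_intCast, sub_eq_zero] at h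
    rw [Int.cast_zero, zero_mul, zero_add, ← pow_two]
    exact h
  obtain ⟨Y, hY⟩ := mem_integers hx
  have hY2 : Y * Y = (D : 𝓞 L) := RingOfIntegers.coe_injective (by
    rw [map_mul, map_intCast, hY, hx]; simp)
  obtain ⟨e1, e2⟩ := Q.mul_coeff Y Y
  rw [hY2, Q.oc_intCast] at e2
  rw [hY2, Q.rc_intCast] at e1
  set r := Q.rc Y
  set o := Q.oc Y
  have ho : o ≠ 0 := fun ho0 => hD.not_isSquare ⟨r, by rw [e1, ho0]; ring⟩
  have h2 : 2 * r + Q.t * o = 0 :=
    (mul_eq_zero.mp (by linarith : o * (2 * r + Q.t * o) = 0)).resolve_left ho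
  rw [← Q.disc_eq_discr]
  exact (fund_unique (o := o) hD (fundDisc_of_qdata Q)
    (by rw [QData.disc]; linear_combination 4 * e1 + (2 * r - Q.t * o) * h2)).symm

theorem nonempty_ringEquiv {L : Type} [Field L] [NumberField L] (hK : finrank ℚ K = 2)
    (hL : finrank ℚ L = 2) (h : discr K = discr L) : Nonempty (K ≃+* L) := by
  have hsq := (fundDisc_discr hK).not_isSquare
  have := Fact.mk (irreducible_sqPoly hsq)
  set A := AdjoinRoot (sqPoly (discr K))
  have hA : finrank ℚ A = 2 := by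
    rw [(AdjoinRoot.powerBasis (irreducible_sqPoly hsq).ne_zero).finrank,
      AdjoinRoot.powerBasis_dim, natDegree_sqPoly]
  have hfd : FiniteDimensional ℚ A := FiniteDimensional.of_finrank_eq_succ hA
  have key : ∀ (M : Type) [Field M] [NumberField M], finrank ℚ M = 2 → discr M = discr K →
      Nonempty (A ≃+* M) := by
    intro M _ _ hM hd
    obtain ⟨Q⟩ := exists_qdata hM
    have hs := congrArg (algebraMap (𝓞 M) M) Q.sqrtD_sq
    rw [map_mul, map_intCast, Q.disc_eq_discr, hd] at hs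
    let φ : A →ₐ[ℚ] M := AdjoinRoot.liftAlgHom (sqPoly (discr K)) (Algebra.ofId ℚ M)
      (algebraMap (𝓞 M) M Q.sqrtD) (by
        rw [sqPoly, eval₂_sub, eval₂_X_pow, eval₂_C, map_intCast, pow_two, hs, sub_self])
    have hinj : Function.Injective φ.toLinearMap := φ.toRingHom.injective
    exact ⟨(AlgEquiv.ofBijective φ ⟨φ.toRingHom.injective,
      (LinearMap.injective_iff_surjective_of_finrank_eq_finrank (by rw [hA, hM])).mp hinj⟩
      ).toRingEquiv⟩
  obtain ⟨e⟩ := key K hK rfl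
  obtain ⟨e'⟩ := key L hL h.symm
  exact ⟨e.symm.trans e'⟩

end Exists

end FA.ThreeTorsion
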