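import Fermat.Agent.ThreeTorsion.Sieve
import Mathlib.NumberTheory.Chebyshev

/-!
# The tail of the sieve

In a box of size `N` the forms with a triple root mod `p` number `O (N⁴ / p² + N²)`, so those of
non-zero discriminant divisible by `p²` for some `p ≥ Y` number `O (N⁴ / Y) + o (N⁴)`. Reduction
turns this into `o (X)` classes as `Y → ∞`, and the non-maximal ones are bounded by uniformity.
-/

set_option autoImplicit false

noncomputable section

open FA.Thue FA.DeloneFaddeev FA.CubicFormCount FA.CubicFields Filter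
open scoped Classical Topology Real

namespace FA.ThreeTorsion

/-- The forms with a triple root mod `p` and `p² ∣ disc` for a prime `p ≥ Y`. -/
def tripTail (Y : ℕ) : Set CubicForm :=
  {f | ∃ p : ℕ, p.Prime ∧ Y ≤ p ∧ f ∈ tripleAt p ∧ (p : ℤ) ^ 2 ∣ f.disc}

theorem invariant_tripTail (Y : ℕ) : ∀ f g, Twisted f g → f ∈ tripTail Y → g ∈ tripTail Y := by
  rintro f g h ⟨p, hp, hY, ⟨g', h', hg'⟩, hd⟩
  exact ⟨p, hp, hY, ⟨g', twisted_trans (twisted_symm h) h', hg'⟩, by rwa [twisted_disc h]⟩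

/-- The box. -/
def boxFin (N : ℕ) : Finset CubicForm :=
  ((Finset.Icc (-(N : ℤ)) N ×ˢ Finset.Icc (-(N : ℤ)) N) ×ˢ
    (Finset.Icc (-(N : ℤ)) N ×ˢ Finset.Icc (-(N : ℤ)) N)).image
      fun q => ⟨q.1.1, q.1.2, q.2.1, q.2.2⟩

theorem mem_boxFin {N : ℕ} {f : CubicForm} :
    f ∈ boxFin N ↔ |f.a| ≤ N ∧ |f.b| ≤ N ∧ |f.c| ≤ N ∧ |f.d| ≤ N := by
  simp only [boxFin, Finset.mem_image, Finset.mem_product, Finset.mem_Icc, abs_le]
  constructor
  · rintro ⟨q, ⟨⟨h1, h2⟩, h3, h4⟩, rfl⟩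
    exact ⟨h1, h2, h3, h4⟩
  · rintro ⟨h1, h2, h3, h4⟩
    exact ⟨((f.a, f.b), f.c, f.d), ⟨⟨h1, h2⟩, h3, h4⟩, rfl⟩

/-- The quotients by `p` of the numbers up to `N` in absolute value. -/
def quots (N p : ℕ) : Finset ℤ := Finset.Icc ((-(N : ℤ)) / p) ((N : ℤ) / p)

theorem mem_quots {N p : ℕ} (hp : 0 < p) {x : ℤ} (h : |x| ≤ N) : x / p ∈ quots N p := by
  rw [abs_le] at h
  exact Finset.mem_Icc.mpr ⟨Int.ediv_le_ediv (by exact_mod_cast hp) h.1,
    Int.ediv_le_ediv (by exact_mod_cast hp) h.2⟩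

theorem card_quots {N p : ℕ} (hp : 0 < p) :
    ((quots N p).card : ℝ) ≤ 2 * (N : ℝ) / p + 2 := by
  rw [quots, Int.card_Icc]
  have hp' : (0 : ℤ) < p := by exact_mod_cast hp
  have h1 := Int.emod_add_mul_ediv (-(N : ℤ)) p
  have h2 := Int.emod_add_mul_ediv (N : ℤ) p
  have h3 := Int.emod_nonneg (N : ℤ) hp'.ne'
  have h4 := Int.emod_lt_of_pos (-(N : ℤ)) hp'
  set q1 := (-(N : ℤ)) / p
  set q2 := (N : ℤ) / p
  have hq : (p : ℤ) * (q2 + 1 - q1) ≤ 2 * N + 2 * p := by nlinarith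
  rcases le_or_gt (q2 + 1 - q1) 0 with h | h
  · rw [Int.toNat_of_nonpos h]; push_cast; positivity
  · have hc : (((q2 + 1 - q1).toNat : ℕ) : ℝ) = ((q2 + 1 - q1 : ℤ) : ℝ) := by
      exact_mod_cast Int.toNat_of_nonneg h.le
    rw [hc, div_add' _ _ _ (by exact_mod_cast hp.ne'), le_div_iff₀ (by exact_mod_cast hp),
      mul_comm]
    exact_mod_cast hq

theorem ediv_inj {p : ℕ} (_ : 0 < p) {x y : ℤ} (h : (p : ℤ) ∣ x - y) (e : x / p = y / p) :
    x = y := by
  have h1 := Int.emod_add_mul_ediv x p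
  have h2 := Int.emod_add_mul_ediv y p
  have h3 := Int.emod_eq_emod_iff_emod_sub_eq_zero.mpr (Int.emod_eq_zero_of_dvd h)
  rw [← h1, ← h2, e, h3]

theorem tripleAt_coeffs {p : ℕ} (hp : p.Prime) {f : CubicForm} (hf : f ∈ tripleAt p) :
    ((p : ℤ) ∣ f.a ∧ (p : ℤ) ∣ f.b ∧ (p : ℤ) ∣ f.c) ∨
      ∃ t : ℤ, (p : ℤ) ∣ f.b + 3 * f.a * t ∧ (p : ℤ) ∣ f.c - 3 * f.a * t ^ 2 ∧
        (p : ℤ) ∣ f.d + f.a * t ^ 3 := by
  obtain ⟨o, -, h⟩ := (mem_tripleAt_iff hp f).mp hf
  cases o with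
  | none => left; simpa [TripDvd, colMat, actMat_one] using h
  | some t =>
    right
    obtain ⟨⟨A, hA⟩, ⟨B, hB⟩, ⟨C, hC⟩⟩ := h
    simp [colMat, actMat, CubicForm.act, CubicForm.eval] at hA hB hC
    refine ⟨t, ⟨C, by linear_combination hC⟩, ⟨-B - 2 * t * C, ?_⟩,
      ⟨A + t * B + t ^ 2 * C, ?_⟩⟩
    · linear_combination -hB - 2 * (t : ℤ) * hC
    · linear_combination hA + (t : ℤ) * hB + (t : ℤ) ^ 2 * hC

theorem card_box_tripleAt {p : ℕ} (hp : p.Prime) (h3 : p ≠ 3) {N : ℕ} (hN : 1 ≤ N) :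
    (((boxFin N).filter (· ∈ tripleAt p)).card : ℝ) ≤ 168 * ((N : ℝ) ^ 4 / p ^ 2 + N ^ 2) := by
  set I := Finset.Icc (-(N : ℤ)) N
  set J := quots N p
  set S := (boxFin N).filter (· ∈ tripleAt p)
  set S0 := S.filter fun f => (p : ℤ) ∣ f.a
  set S1 := S.filter fun f => ¬ (p : ℤ) ∣ f.a
  have hP : Prime (p : ℤ) := Nat.prime_iff_prime_int.mp hp
  have hI : (I.card : ℝ) ≤ 3 * N := by
    have : I.card = 2 * N + 1 := by simp [I, Int.card_Icc]; omega
    rw [this]; push_cast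
    have : (1 : ℝ) ≤ N := by exact_mod_cast hN
    linarith
  have hJ : (J.card : ℝ) ≤ 2 * (N : ℝ) / p + 2 := card_quots hp.pos
  have h0 : S0.card ≤ ((J ×ˢ J) ×ˢ (J ×ˢ I)).card := by
    refine Finset.card_le_card_of_injOn (fun f => ((f.a / p, f.b / p), f.c / p, f.d))
      (fun f hf => ?_) ?_
    · obtain ⟨hf, -⟩ := Finset.mem_filter.mp hf
      obtain ⟨hb, -⟩ := Finset.mem_filter.mp hf
      obtain ⟨b1, b2, b3, b4⟩ := mem_boxFin.mp hb
      simp only [Finset.coe_product, Set.mem_prod, Finset.mem_coe]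
      exact ⟨⟨mem_quots hp.pos b1, mem_quots hp.pos b2⟩, mem_quots hp.pos b3,
        Finset.mem_Icc.mpr (abs_le.mp b4)⟩
    · have hd : ∀ f ∈ S0, (p : ℤ) ∣ f.a ∧ (p : ℤ) ∣ f.b ∧ (p : ℤ) ∣ f.c := fun f hf => by
        obtain ⟨hf, ha⟩ := Finset.mem_filter.mp hf
        rcases tripleAt_coeffs hp (Finset.mem_filter.mp hf).2 with h | ⟨t, h1, h2, -⟩
        · exact h
        · exact ⟨ha, (dvd_add_left ((ha.mul_left 3).mul_right t)).mp h1,
            (dvd_sub_left ((ha.mul_left 3).mul_right (t ^ 2))).mp h2⟩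
      intro f hf g hg he
      simp only [Prod.mk.injEq] at he
      obtain ⟨⟨e1, e2⟩, e3, e4⟩ := he
      obtain ⟨f1, f2, f3⟩ := hd f hf
      obtain ⟨g1, g2, g3⟩ := hd g hg
      exact CubicForm.ext (ediv_inj hp.pos (dvd_sub f1 g1) e1) (ediv_inj hp.pos (dvd_sub f2 g2) e2)
        (ediv_inj hp.pos (dvd_sub f3 g3) e3) e4
  have h1 : S1.card ≤ ((I ×ˢ I) ×ˢ (J ×ˢ J)).card := by
    refine Finset.card_le_card_of_injOn (fun f => ((f.a, f.b), f.c / p, f.d / p))
      (fun f hf => ?_) ?_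
    · obtain ⟨hf, -⟩ := Finset.mem_filter.mp hf
      obtain ⟨hb, -⟩ := Finset.mem_filter.mp hf
      obtain ⟨b1, b2, b3, b4⟩ := mem_boxFin.mp hb
      simp only [Finset.coe_product, Set.mem_prod, Finset.mem_coe]
      exact ⟨⟨Finset.mem_Icc.mpr (abs_le.mp b1), Finset.mem_Icc.mpr (abs_le.mp b2)⟩,
        mem_quots hp.pos b3, mem_quots hp.pos b4⟩
    · intro f hf g hg he
      simp only [Prod.mk.injEq] at he
      obtain ⟨⟨e1, e2⟩, e3, e4⟩ := he
      obtain ⟨hf, ha⟩ := Finset.mem_filter.mp hf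
      obtain ⟨hg, hga⟩ := Finset.mem_filter.mp hg
      have hnn : ∀ h : CubicForm, h ∈ S → ¬ (p : ℤ) ∣ h.a →
          ∃ t : ℤ, (p : ℤ) ∣ h.b + 3 * h.a * t ∧ (p : ℤ) ∣ h.c - 3 * h.a * t ^ 2 ∧
            (p : ℤ) ∣ h.d + h.a * t ^ 3 := fun h hh hn =>
        ((tripleAt_coeffs hp (Finset.mem_filter.mp hh).2).resolve_left fun h' => hn h'.1)
      obtain ⟨t, t1, t2, t3⟩ := hnn f hf ha
      obtain ⟨u, u1, u2, u3⟩ := hnn g hg hga
      rw [← e1, ← e2] at u1
      rw [← e1] at u2 u3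
      have htu : (p : ℤ) ∣ t - u := by
        have h : (p : ℤ) ∣ 3 * f.a * (t - u) := by
          rw [show 3 * f.a * (t - u) = f.b + 3 * f.a * t - (f.b + 3 * f.a * u) by ring]
          exact dvd_sub t1 u1
        rcases hP.dvd_or_dvd h with h | h
        · refine absurd ((hP.dvd_or_dvd h).resolve_left fun h => h3 ?_) ha
          exact (Nat.prime_dvd_prime_iff_eq hp Nat.prime_three).mp (by exact_mod_cast h)
        · exact h
      refine CubicForm.ext e1 e2 (ediv_inj hp.pos ?_ e3) (ediv_inj hp.pos ?_ e4)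
      · rw [show f.c - g.c = f.c - 3 * f.a * t ^ 2 - (g.c - 3 * f.a * u ^ 2) +
          3 * f.a * (t + u) * (t - u) by ring]
        exact dvd_add (dvd_sub t2 u2) (htu.mul_left _)
      · rw [show f.d - g.d = f.d + f.a * t ^ 3 - (g.d + f.a * u ^ 3) -
          f.a * (t ^ 2 + t * u + u ^ 2) * (t - u) by ring]
        exact dvd_sub (dvd_sub t3 u3) (htu.mul_left _)
  have hsplit : (S.card : ℝ) = S0.card + S1.card := by
    exact_mod_cast (Finset.card_filter_add_card_filter_not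
      (s := S) fun f : CubicForm => (p : ℤ) ∣ f.a).symm
  rw [hsplit]
  have h0' : (S0.card : ℝ) ≤ J.card * J.card * (J.card * I.card) := by
    exact_mod_cast h0.trans_eq (by simp only [Finset.card_product])
  have h1' : (S1.card : ℝ) ≤ I.card * I.card * (J.card * J.card) := by
    exact_mod_cast h1.trans_eq (by simp only [Finset.card_product])
  set n : ℝ := (N : ℝ)
  have hn : 1 ≤ n := by simp only [n]; exact_mod_cast hN
  have hq : (2 : ℝ) ≤ p := by exact_mod_cast hp.two_le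
  set a := n / p
  have ha : 0 ≤ a := by positivity
  have hJ' : (J.card : ℝ) ≤ 2 * a + 2 := by rw [← mul_div_assoc]; exact hJ
  have hJ2 : (J.card : ℝ) * J.card ≤ 8 * (a ^ 2 + 1) := by
    nlinarith [mul_le_mul hJ' hJ' (Nat.cast_nonneg _) (by positivity), sq_nonneg (a - 1)]
  have hJ3 : (J.card : ℝ) * J.card * J.card ≤ 32 * (a ^ 3 + 1) := by
    nlinarith [mul_le_mul hJ2 hJ' (Nat.cast_nonneg _) (by positivity),
      mul_nonneg (sq_nonneg (a - 1)) (add_nonneg ha zero_le_one)]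
  have b0 : (S0.card : ℝ) ≤ 96 * (a ^ 3 + 1) * n := by
    refine h0'.trans ?_
    rw [show (J.card : ℝ) * J.card * (J.card * I.card) = J.card * J.card * J.card * I.card by ring]
    nlinarith [mul_le_mul hJ3 hI (Nat.cast_nonneg _) (by positivity)]
  have b1 : (S1.card : ℝ) ≤ 72 * (a ^ 2 + 1) * n ^ 2 := by
    refine h1'.trans ?_
    nlinarith [mul_le_mul (mul_le_mul hI hI (Nat.cast_nonneg _) (by positivity)) hJ2 (by positivity)
      (by positivity)]
  have e4 : n ^ 4 / (p : ℝ) ^ 2 = a ^ 2 * n ^ 2 := by simp only [a]; field_simp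
  rw [e4]
  have han : a ≤ n := by
    rw [div_le_iff₀ (by linarith)]; nlinarith
  nlinarith [mul_le_mul_of_nonneg_left han (by positivity : 0 ≤ a ^ 2 * n), hn]

theorem disc_box_le {N : ℕ} {f : CubicForm} (hf : f ∈ boxFin N) :
    |f.disc| ≤ 54 * (N : ℤ) ^ 4 := by
  obtain ⟨h1, h2, h3, h4⟩ := mem_boxFin.mp hf
  rw [CubicForm.disc]
  have m : ∀ x y z w : ℤ, |x| ≤ N → |y| ≤ N → |z| ≤ N → |w| ≤ N → |x * y * z * w| ≤ (N : ℤ) ^ 4 :=
    fun x y z w hx hy hz hw => by
      rw [abs_mul, abs_mul, abs_mul, show (N : ℤ) ^ 4 = N * N * N * N by ring]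
      gcongr
  have t1 := abs_le.mp (m _ _ _ _ h2 h2 h3 h3)
  have t2 := abs_le.mp (m _ _ _ _ h1 h3 h3 h3)
  have t3 := abs_le.mp (m _ _ _ _ h2 h2 h2 h4)
  have t4 := abs_le.mp (m _ _ _ _ h1 h1 h4 h4)
  have t5 := abs_le.mp (m _ _ _ _ h1 h2 h3 h4)
  rw [abs_le]
  constructor <;> linarith

theorem card_box_tripTail {Y : ℕ} (hY : 5 ≤ Y) {N : ℕ} (hN : 1 ≤ N) :
    (((boxFin N).filter fun f => f.disc ≠ 0 ∧ f ∈ tripTail Y).card : ℝ) ≤
      168 * ((N : ℝ) ^ 4 * ((Y : ℝ) - 1)⁻¹ + N ^ 2 * Nat.primeCounting (8 * N ^ 2)) := by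
  set P := (Finset.Ico Y (8 * N ^ 2 + 1)).filter Nat.Prime
  have hsub : ((boxFin N).filter fun f => f.disc ≠ 0 ∧ f ∈ tripTail Y) ⊆
      P.biUnion fun p => (boxFin N).filter (· ∈ tripleAt p) := by
    intro f hf
    obtain ⟨hb, h0, p, hp, hYp, ht, hd⟩ := Finset.mem_filter.mp hf
    have hle := Int.le_of_dvd (abs_pos.mpr h0) ((dvd_abs _ _).mpr hd)
    have hp8 : p ≤ 8 * N ^ 2 := by
      have h54 : ((p : ℤ)) ^ 2 ≤ ((8 * N ^ 2 : ℕ) : ℤ) ^ 2 := by
        push_cast
        nlinarith [disc_box_le hb, pow_nonneg (Int.natCast_nonneg N) 4]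
      exact_mod_cast (pow_le_pow_iff_left₀ (Int.natCast_nonneg p) (Int.natCast_nonneg _)
        two_ne_zero).mp h54
    exact Finset.mem_biUnion.mpr ⟨p, Finset.mem_filter.mpr
      ⟨Finset.mem_Ico.mpr ⟨hYp, by omega⟩, hp⟩, Finset.mem_filter.mpr ⟨hb, ht⟩⟩
  refine (Nat.cast_le.mpr ((Finset.card_le_card hsub).trans Finset.card_biUnion_le)).trans ?_
  push_cast
  refine (Finset.sum_le_sum fun p hp => ?_).trans (le_of_eq_of_le
    (Finset.mul_sum P (fun p : ℕ => (N : ℝ) ^ 4 / (p : ℝ) ^ 2 + (N : ℝ) ^ 2) 168).symm ?_)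
  · obtain ⟨hp1, hp⟩ := Finset.mem_filter.mp hp
    exact card_box_tripleAt hp (by have := (Finset.mem_Ico.mp hp1).1; omega) hN
  refine mul_le_mul_of_nonneg_left ?_ (by norm_num)
  rw [Finset.sum_add_distrib, Finset.sum_const, nsmul_eq_mul]
  refine add_le_add ?_ ?_
  · simp only [div_eq_mul_inv, ← Finset.mul_sum]
    exact mul_le_mul_of_nonneg_left ((Finset.sum_le_sum_of_subset_of_nonneg
      (Finset.filter_subset _ _) fun _ _ _ => by positivity).trans (sum_inv_sq_le (by omega) _))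
      (by positivity)
  · rw [mul_comm]
    refine mul_le_mul_of_nonneg_left (Nat.cast_le.mpr ?_) (by positivity)
    rw [Nat.primeCounting, Nat.primeCounting', Nat.count_eq_card_filter_range]
    refine Finset.card_le_card fun p hp => ?_
    simp only [P, Finset.mem_filter, Finset.mem_Ico, Finset.mem_range] at hp ⊢
    exact ⟨hp.1.2, hp.2⟩

theorem tendsto_primeCounting_div :
    Tendsto (fun x : ℝ => (Nat.primeCounting ⌊x⌋₊ : ℝ) / x) atTop (𝓝 0) := by
  have h := (Real.tendsto_log_atTop.inv_tendsto_atTop).const_mul (Real.log 4 + 1)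
  rw [mul_zero] at h
  refine squeeze_zero' ?_ ?_ h
  · filter_upwards [eventually_ge_atTop 0] with x hx
    positivity
  · filter_upwards [Chebyshev.eventually_primeCounting_le one_pos, eventually_gt_atTop 0]
      with x hx hx0
    rw [div_le_iff₀ hx0]
    refine hx.trans (le_of_eq ?_)
    simp only [Pi.inv_apply]
    ring

theorem tendsto_primeCounting_box (B : ℝ) :
    Tendsto (fun T : ℝ => ((⌈B * T⌉₊ : ℝ) ^ 2 * Nat.primeCounting (8 * ⌈B * T⌉₊ ^ 2)) / T ^ 4)
      atTop (𝓝 0) := by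
  set c := |B| + 1
  have hc : 0 < c := by positivity
  have hx : Tendsto (fun T : ℝ => 8 * c ^ 2 * T ^ 2) atTop atTop :=
    (tendsto_pow_atTop two_ne_zero).const_mul_atTop (by positivity)
  have h := (tendsto_primeCounting_div.comp hx).const_mul (8 * c ^ 4)
  rw [mul_zero] at h
  refine squeeze_zero' (Eventually.of_forall fun T => by positivity) ?_ h
  filter_upwards [eventually_ge_atTop (1 : ℝ)] with T hT
  have hN : (⌈B * T⌉₊ : ℝ) ≤ c * T := by
    refine le_trans ?_ (le_trans (Nat.ceil_lt_add_one (by positivity : 0 ≤ |B| * T)).le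
      (by simp only [c]; linarith))
    exact_mod_cast Nat.ceil_mono (mul_le_mul_of_nonneg_right (le_abs_self B) (by linarith))
  simp only [Function.comp_apply]
  have hT0 : (0 : ℝ) < T := by linarith
  have hmono : (Nat.primeCounting (8 * ⌈B * T⌉₊ ^ 2) : ℝ) ≤
      Nat.primeCounting ⌊8 * c ^ 2 * T ^ 2⌋₊ := by
    refine Nat.cast_le.mpr (Nat.monotone_primeCounting (Nat.le_floor ?_))
    push_cast
    rw [mul_assoc 8, ← mul_pow]
    gcongr
  calc (⌈B * T⌉₊ : ℝ) ^ 2 * Nat.primeCounting (8 * ⌈B * T⌉₊ ^ 2) / T ^ 4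
      ≤ (c * T) ^ 2 * Nat.primeCounting ⌊8 * c ^ 2 * T ^ 2⌋₊ / T ^ 4 := by gcongr
    _ = _ := by field_simp

/-- The tail is negligible. -/
theorem eventually_tripTail (ε : Bool) {η : ℝ} (hη : 0 < η) :
    ∀ᶠ Y : ℕ in atTop, ∀ᶠ T : ℝ in atTop,
      ((classes ε (tripTail Y) (T ^ 4)).ncard : ℝ) ≤ η * T ^ 4 := by
  set Z : ℝ := max 1 (714 / η)
  have hZ : 1 ≤ Z := le_max_left _ _
  have hZb : 714 / Z ≤ η := by
    have h : 714 / η ≤ Z := le_max_right _ _
    rw [div_le_iff₀ hη] at h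
    rw [div_le_iff₀ (by linarith)]
    linarith
  obtain ⟨B, hB⟩ := (isCompact_region ε Z).isBounded.exists_norm_le
  set c := |B| + 1
  have hy : Tendsto (fun Y : ℕ => 168 * c ^ 4 * ((Y : ℝ) - 1)⁻¹) atTop (𝓝 0) := by
    have : Tendsto (fun Y : ℕ => ((Y : ℝ) - 1)) atTop atTop :=
      tendsto_atTop_add_const_right _ _ tendsto_natCast_atTop_atTop
    simpa using this.inv_tendsto_atTop.const_mul (168 * c ^ 4)
  filter_upwards [eventually_ge_atTop 5, hy.eventually_le_const (by linarith : (0 : ℝ) < η / 2)]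
    with Y hY hYη
  have hp := ((tendsto_primeCounting_box B).const_mul 168).eventually_le_const
    (by linarith : (168 : ℝ) * 0 < η / 2)
  filter_upwards [hp, eventually_ge_atTop (1 : ℝ)] with T hTp hT1
  have hT : 0 < T := by linarith
  set N := ⌈B * T⌉₊
  have hfinU := redSet_finite ε one_pos periodic_ones (Q := Set.univ) hT
  have hfin : (redSet ε (tripTail Y) T).Finite :=
    hfinU.subset fun f ⟨_, a2, a3⟩ => ⟨trivial, a2, a3⟩
  obtain ⟨-, -, s2⟩ := classes_sandwich ε (invariant_tripTail Y) hfin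
  have hsub : redSet ε (tripTail Y) T ⊆
      (((boxFin N).filter fun f => f.disc ≠ 0 ∧ f ∈ tripTail Y : Finset CubicForm) : Set CubicForm)
        ∪ cusp ε T Z := by
    intro f hf
    rcases redSet_subset ε (Y := Z) hT hf with h | h
    · refine Or.inl ?_
      obtain ⟨hq, hS⟩ := h
      have hnorm := hB _ hS
      have hbox : ∀ i, |toVec f i| ≤ ((N : ℤ) : ℝ) := fun i => by
        have h1 := (norm_le_pi_norm (fun j => toVec f j / T) i).trans hnorm
        rw [Real.norm_eq_abs, abs_div, abs_of_pos hT, div_le_iff₀ hT] at h1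
        push_cast
        exact h1.trans (Nat.le_ceil _)
      have hd : f.disc ≠ 0 := by
        obtain ⟨-, -, t, ht⟩ := hf
        intro h0
        have e := sgn_disc_eq ht.1
        rw [h0, Int.cast_zero, mul_zero] at e
        have := kst_pos ε
        have : 0 < t 0 ^ 2 + t 1 ^ 2 := by rcases ht.2.1 with h | h <;> positivity
        have := ht.2.2.1
        exact absurd e.symm (by positivity)
      refine Finset.mem_coe.mpr (Finset.mem_filter.mpr ⟨mem_boxFin.mpr ⟨?_, ?_, ?_, ?_⟩, hd, hq⟩)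
      · exact (Int.cast_le (R := ℝ)).mp (by rw [Int.cast_abs]; simpa [toVec] using hbox 0)
      · exact (Int.cast_le (R := ℝ)).mp (by rw [Int.cast_abs]; simpa [toVec] using hbox 1)
      · exact (Int.cast_le (R := ℝ)).mp (by rw [Int.cast_abs]; simpa [toVec] using hbox 2)
      · exact (Int.cast_le (R := ℝ)).mp (by rw [Int.cast_abs]; simpa [toVec] using hbox 3)
    · exact Or.inr h
  obtain ⟨c1, c2⟩ := cusp_bound ε hT.le hZ
  have hT4 : (0 : ℝ) < T ^ 4 := by positivity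
  have key : (2 : ℝ) * (classes ε (tripTail Y) (T ^ 4)).ncard ≤
      ((boxFin N).filter fun f => f.disc ≠ 0 ∧ f ∈ tripTail Y).card + (cusp ε T Z).ncard := by
    have h := s2.trans ((Set.ncard_le_ncard hsub ((Finset.finite_toSet _).union c1)).trans
      (Set.ncard_union_le _ _))
    rw [Set.ncard_coe_finset] at h
    exact_mod_cast h
  have hcusp : ((cusp ε T Z).ncard : ℝ) ≤ η * T ^ 4 :=
    c2.trans (le_of_eq_of_le (by ring) (mul_le_mul_of_nonneg_right hZb hT4.le))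
  rcases Nat.eq_zero_or_pos N with hN0 | hN0
  · have he : ((boxFin N).filter fun f => f.disc ≠ 0 ∧ f ∈ tripTail Y) = ∅ := by
      refine Finset.filter_eq_empty_iff.mpr fun f hf h => h.1 ?_
      have := disc_box_le hf
      rw [hN0] at this
      simpa using this
    rw [he] at key
    simp only [Finset.card_empty, Nat.cast_zero, zero_add] at key
    nlinarith
  have hb := card_box_tripTail hY hN0
  have hNc : (N : ℝ) ≤ c * T := by
    refine le_trans ?_ (le_trans (Nat.ceil_lt_add_one (by positivity : 0 ≤ |B| * T)).le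
      (by simp only [c]; linarith))
    exact_mod_cast Nat.ceil_mono (mul_le_mul_of_nonneg_right (le_abs_self B) hT.le)
  have hY1 : 0 ≤ ((Y : ℝ) - 1)⁻¹ := inv_nonneg.mpr (by
    have : (5 : ℝ) ≤ Y := by exact_mod_cast hY
    linarith)
  have a1 : 168 * ((N : ℝ) ^ 4 * ((Y : ℝ) - 1)⁻¹) ≤ η / 2 * T ^ 4 := by
    refine le_trans ?_ (mul_le_mul_of_nonneg_right hYη hT4.le)
    rw [show 168 * c ^ 4 * ((Y : ℝ) - 1)⁻¹ * T ^ 4 = 168 * ((c * T) ^ 4 * ((Y : ℝ) - 1)⁻¹) by ring]
    gcongr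
  have a2 : 168 * ((N : ℝ) ^ 2 * Nat.primeCounting (8 * N ^ 2)) ≤ η / 2 * T ^ 4 := by
    have h := hTp
    rw [← mul_div_assoc, div_le_iff₀ hT4] at h
    exact h
  linarith

/-- The sieve leaves `o (X)` classes. -/
theorem sieve_tail (ε : Bool) {η : ℝ} (hη : 0 < η) :
    ∀ᶠ Y : ℕ in atTop, ∀ᶠ X : ℝ in atTop,
      ((classes ε (goodSet (sievePrimes Y)) X).ncard : ℝ) ≤
        (classes ε fundForms X).ncard + η * X := by
  obtain ⟨C, hC, hb⟩ := exists_badAt_bound ε
  have hy : Tendsto (fun Y : ℕ => C * ((Y : ℝ) - 1)⁻¹) atTop (𝓝 0) := by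
    have : Tendsto (fun Y : ℕ => ((Y : ℝ) - 1)) atTop atTop :=
      tendsto_atTop_add_const_right _ _ tendsto_natCast_atTop_atTop
    simpa using this.inv_tendsto_atTop.const_mul C
  filter_upwards [eventually_tripTail ε (half_pos hη), eventually_ge_atTop 5,
    hy.eventually_le_const (half_pos hη)] with Y hT hY hYη
  have hT' := (tendsto_rpow_atTop (y := (1 / 4 : ℝ)) (by norm_num)).eventually hT
  filter_upwards [hT', eventually_ge_atTop (0 : ℝ)] with X hX hX0
  rw [show (X ^ (1 / 4 : ℝ)) ^ 4 = X by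
    rw [← Real.rpow_natCast, ← Real.rpow_mul hX0]; norm_num] at hX
  set N := ⌈C * X⌉₊
  set P := (Finset.Ico Y (N + 1)).filter Nat.Prime
  have hsub : classes ε (goodSet (sievePrimes Y)) X ⊆ classes ε fundForms X ∪
      (classes ε (tripTail Y) X ∪ ⋃ p ∈ P, classes ε (badAt p) X) := by
    rintro c ⟨f, hf, h⟩
    by_cases hm : f ∈ fundForms
    · exact Or.inl ⟨f, hm, h⟩
    refine Or.inr ?_
    rw [mem_fundForms] at hm
    push Not at hm
    obtain ⟨p, hp, h3, hbad⟩ := hm hf.1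
    have hpY : Y ≤ p := by
      by_contra hlt
      exact hf.2 p (mem_sievePrimes.mpr ⟨h3, by omega, hp⟩) hbad
    rcases hbad with hbad | htr
    · have hne : classSet f ∈ classes ε (badAt p) X := ⟨f, hbad, h.1, h.2.1, h.2.2.1, rfl⟩
      have h1 : (1 : ℝ) ≤ (classes ε (badAt p) X).ncard := by
        exact_mod_cast (Set.ncard_pos (classes_finite _ _ _)).mpr ⟨_, hne⟩
      have h2 := h1.trans (hb p hp X hX0)
      rw [mul_div_assoc', le_div_iff₀ (by have := hp.pos; positivity), one_mul] at h2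
      have hpN : p ≤ N := by
        have : (p : ℝ) ≤ (N : ℝ) := le_trans (le_trans (le_self_pow₀
          (by exact_mod_cast hp.one_lt.le) two_ne_zero) h2) (Nat.le_ceil _)
        exact_mod_cast this
      refine Or.inr (Set.mem_iUnion₂.mpr ⟨p, Finset.mem_filter.mpr
        ⟨Finset.mem_Ico.mpr ⟨hpY, by omega⟩, hp⟩, ?_⟩)
      rw [h.2.2.2]
      exact hne
    · refine Or.inl ⟨f, ⟨p, hp, hpY, htr, ?_⟩, h⟩
      exact (sharpBad_iff_odd hp (by omega) h3 f).mp (Or.inr htr)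
  have hfin : ∀ p ∈ P, (classes ε (badAt p) X).Finite := fun p _ => classes_finite _ _ _
  refine (Nat.cast_le.mpr ((Set.ncard_le_ncard hsub ((classes_finite _ _ _).union
    ((classes_finite _ _ _).union (P.finite_toSet.biUnion hfin)))).trans
    ((Set.ncard_union_le _ _).trans (Nat.add_le_add_left ((Set.ncard_union_le _ _).trans
      (Nat.add_le_add_left (Finset.set_ncard_biUnion_le P _) _)) _)))).trans ?_
  push_cast
  have hsum : ∑ p ∈ P, ((classes ε (badAt p) X).ncard : ℝ) ≤ η / 2 * X := by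
    calc ∑ p ∈ P, ((classes ε (badAt p) X).ncard : ℝ) ≤ ∑ p ∈ P, C * X * ((p : ℝ) ^ 2)⁻¹ :=
          Finset.sum_le_sum fun p hp => (hb p (Finset.mem_filter.mp hp).2 X hX0).trans
            (le_of_eq (by rw [div_eq_mul_inv, mul_assoc]))
      _ ≤ C * X * ((Y : ℝ) - 1)⁻¹ := by
          rw [← Finset.mul_sum]
          exact mul_le_mul_of_nonneg_left ((Finset.sum_le_sum_of_subset_of_nonneg
            (Finset.filter_subset _ _) fun _ _ _ => by positivity).trans
              (sum_inv_sq_le (by omega) _)) (by positivity)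
      _ ≤ η / 2 * X := by rw [mul_right_comm]; gcongr
  linarith

/-- **The count of classes of fundamental reduced discriminant.** -/
theorem tendsto_fundForms (ε : Bool) :
    Tendsto (fun X : ℝ => ((classes ε fundForms X).ncard : ℝ) / X) atTop
      (𝓝 (4 / π ^ 4 * mainConst ε)) := by
  rw [Metric.tendsto_atTop']
  intro η hη
  have hd := tendsto_goodSet_density.mul_const (mainConst ε)
  obtain ⟨Y, hY1, hY2⟩ :=
    ((hd.eventually (Metric.ball_mem_nhds _ (by linarith : (0 : ℝ) < η / 3))).and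
    (sieve_tail ε (by linarith : (0 : ℝ) < η / 3))).exists
  have hY1' : dist (density (sharpModulus (sievePrimes Y)) (goodSet (sievePrimes Y)) * mainConst ε)
      (4 / π ^ 4 * mainConst ε) < η / 3 := hY1
  rw [Real.dist_eq, abs_lt] at hY1'
  obtain ⟨h0, hper, -⟩ := goodSet_facts (sievePrimes Y) fun p hp =>
    ⟨(mem_sievePrimes.mp hp).2.2, (mem_sievePrimes.mp hp).1⟩
  have ht := tendsto_classes ε h0 (invariant_goodSet _) hper
  have key : ∀ᶠ X : ℝ in atTop, dist (((classes ε fundForms X).ncard : ℝ) / X)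
      (4 / π ^ 4 * mainConst ε) < η := by
    filter_upwards [ht.eventually (Metric.ball_mem_nhds _ (by linarith : (0 : ℝ) < η / 3)),
      hY2, eventually_gt_atTop (0 : ℝ)] with X hX hs hX0
    have hX' : dist (((classes ε (goodSet (sievePrimes Y)) X).ncard : ℝ) / X)
        (density (sharpModulus (sievePrimes Y)) (goodSet (sievePrimes Y)) * mainConst ε) < η / 3 :=
      hX
    rw [Real.dist_eq, abs_lt] at hX'
    have u : ((classes ε fundForms X).ncard : ℝ) / X ≤
        ((classes ε (goodSet (sievePrimes Y)) X).ncard : ℝ) / X := by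
      gcongr
      · exact classes_finite _ _ _
      · rintro c ⟨f, hf, h⟩
        exact ⟨f, fundForms_subset _ (fun p hp =>
          ⟨(mem_sievePrimes.mp hp).2.2, (mem_sievePrimes.mp hp).1⟩) hf, h⟩
    have l : ((classes ε (goodSet (sievePrimes Y)) X).ncard : ℝ) / X ≤
        ((classes ε fundForms X).ncard : ℝ) / X + η / 3 := by
      rw [div_add' _ _ _ hX0.ne']
      gcongr
    rw [Real.dist_eq, abs_lt]
    constructor <;> linarith
  obtain ⟨X₀, h⟩ := eventually_atTop.mp key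
  exact ⟨X₀, fun X hX => h X hX.le⟩

end FA.ThreeTorsion
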