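import Fermat.Agent.ThreeTorsion.Fields
import Fermat.Agent.CubicFields.Sieve
import Mathlib.Data.Nat.Periodic

/-!
# The number of fundamental discriminants

For either sign `s` the `k ≤ X` with `s k` fundamental at every prime number `~ 3 X / π²`.
-/

set_option autoImplicit false

noncomputable section

open Filter
open scoped Classical Topology Real

namespace FA.ThreeTorsion

/-- The condition at `2`. -/
def goodTwo (s : ℤ) (k : ℕ) : Prop :=
  ((s * k) % 4 = 0 ∨ (s * k) % 4 = 1) ∧ (s * k) % 16 ≠ 0 ∧ (s * k) % 16 ≠ 4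

/-- Good at `2` and at the odd primes of `S`. -/
def goodAt (s : ℤ) (S : Finset ℕ) (k : ℕ) : Prop :=
  goodTwo s k ∧ ∀ p ∈ S, ¬ p ^ 2 ∣ k

/-- The `k ≤ N` with `s k` fundamental at every prime. -/
def goodUpTo (s : ℤ) (N : ℕ) : Finset ℕ :=
  (Finset.Icc 1 N).filter fun k : ℕ => DiscGood (s * (k : ℤ))

theorem dvd_sq_iff {s : ℤ} (hs : s = 1 ∨ s = -1) (p k : ℕ) :
    (p : ℤ) ^ 2 ∣ s * k ↔ p ^ 2 ∣ k := by
  rcases hs with rfl | rfl
  · rw [one_mul]; exact_mod_cast Iff.rfl
  · rw [neg_one_mul, dvd_neg]; exact_mod_cast Iff.rfl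

theorem discGood_iff {s : ℤ} (hs : s = 1 ∨ s = -1) (k : ℕ) :
    DiscGood (s * k) ↔ goodTwo s k ∧ ∀ p : ℕ, p.Prime → p ≠ 2 → ¬ p ^ 2 ∣ k := by
  constructor
  · rintro ⟨h4, h⟩
    have h2 := h 2 Nat.prime_two
    simp only [DiscBad, if_true, not_or] at h2
    refine ⟨⟨h4, h2⟩, fun p hp hp2 hd => h p hp ?_⟩
    rw [DiscBad, if_neg hp2]
    exact (dvd_sq_iff hs p k).mpr hd
  · rintro ⟨⟨h4, h2⟩, h⟩
    refine ⟨h4, fun p hp hb => ?_⟩
    by_cases hp2 : p = 2
    · subst hp2
      simp only [DiscBad, if_true] at hb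
      omega
    · rw [DiscBad, if_neg hp2] at hb
      exact h p hp hp2 ((dvd_sq_iff hs p k).mp hb)

theorem card_inter_periodic {m n : ℕ} (hm : 0 < m) (hn : 0 < n) (hmn : m.Coprime n)
    {P R : ℕ → Prop} (hP : Function.Periodic P m) (hR : Function.Periodic R n) :
    ((Finset.range (m * n)).filter fun k => P k ∧ R k).card =
      ((Finset.range m).filter P).card * ((Finset.range n).filter R).card := by
  have eP : ∀ k, P (k % m) = P k := fun k => hP.map_mod_nat k
  have eR : ∀ k, R (k % n) = R k := fun k => hR.map_mod_nat k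
  rw [← Finset.card_product]
  refine Finset.card_bij (fun k _ => (k % m, k % n)) ?_ ?_ ?_
  · intro k hk
    obtain ⟨-, h1, h2⟩ := Finset.mem_filter.mp hk
    simp only [Finset.mem_product, Finset.mem_filter, Finset.mem_range]
    exact ⟨⟨Nat.mod_lt _ hm, (eP k).mpr h1⟩, ⟨Nat.mod_lt _ hn, (eR k).mpr h2⟩⟩
  · intro a ha b hb he
    simp only [Prod.mk.injEq] at he
    have h : a ≡ b [MOD m * n] := (Nat.modEq_and_modEq_iff_modEq_mul hmn).mp ⟨he.1, he.2⟩
    exact Nat.ModEq.eq_of_lt_of_lt h (Finset.mem_range.mp (Finset.mem_filter.mp ha).1)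
      (Finset.mem_range.mp (Finset.mem_filter.mp hb).1)
  · rintro ⟨a, b⟩ hab
    simp only [Finset.mem_product, Finset.mem_filter, Finset.mem_range] at hab
    obtain ⟨⟨ha, hPa⟩, hb, hRb⟩ := hab
    obtain ⟨c, hc1, hc2⟩ := Nat.chineseRemainder hmn a b
    have e1 : (c % (m * n)) % m = a := by
      rw [Nat.mod_mul_right_mod, hc1, Nat.mod_eq_of_lt ha]
    have e2 : (c % (m * n)) % n = b := by
      rw [Nat.mod_mul_left_mod, hc2, Nat.mod_eq_of_lt hb]
    refine ⟨c % (m * n), Finset.mem_filter.mpr ⟨Finset.mem_range.mpr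
      (Nat.mod_lt _ (Nat.mul_pos hm hn)), ?_, ?_⟩, by simp [e1, e2]⟩
    · rw [← eP, e1]; exact hPa
    · rw [← eR, e2]; exact hRb

/-- The modulus. -/
def fieldModulus (S : Finset ℕ) : ℕ := 16 * ∏ p ∈ S, p ^ 2

theorem periodic_sq (p : ℕ) : Function.Periodic (fun k => ¬ p ^ 2 ∣ k) (p ^ 2) := fun k => by
  simp [Nat.dvd_add_self_right]

theorem card_sq {p : ℕ} (hp : 0 < p) :
    ((Finset.range (p ^ 2)).filter fun k => ¬ p ^ 2 ∣ k).card = p ^ 2 - 1 := by
  have : ((Finset.range (p ^ 2)).filter fun k => ¬ p ^ 2 ∣ k) = (Finset.range (p ^ 2)).erase 0 := by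
    ext k
    simp only [Finset.mem_filter, Finset.mem_range, Finset.mem_erase]
    constructor
    · rintro ⟨h, hd⟩
      exact ⟨fun e => hd (e ▸ dvd_zero _), h⟩
    · rintro ⟨h0, h⟩
      exact ⟨h, fun hd => absurd (Nat.le_of_dvd (Nat.pos_of_ne_zero h0) hd) (by omega)⟩
  rw [this, Finset.card_erase_of_mem (Finset.mem_range.mpr (pow_pos hp 2)), Finset.card_range]

theorem goodTwo_base {s : ℤ} (hs : s = 1 ∨ s = -1) :
    Function.Periodic (goodTwo s) 16 ∧ ((Finset.range 16).filter (goodTwo s)).card = 6 := by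
  constructor
  · intro k
    rcases hs with rfl | rfl <;> simp only [goodTwo, eq_iff_iff] <;> push_cast <;> omega
  · rcases hs with rfl | rfl
    · have : (Finset.range 16).filter (goodTwo 1) = {1, 5, 8, 9, 12, 13} := by
        ext k
        simp only [Finset.mem_filter, Finset.mem_range, goodTwo, Finset.mem_insert,
          Finset.mem_singleton]
        omega
      rw [this]; rfl
    · have : (Finset.range 16).filter (goodTwo (-1)) = {3, 4, 7, 8, 11, 15} := by
        ext k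
        simp only [Finset.mem_filter, Finset.mem_range, goodTwo, Finset.mem_insert,
          Finset.mem_singleton]
        omega
      rw [this]; rfl

theorem goodAt_facts {s : ℤ} (hs : s = 1 ∨ s = -1) (S : Finset ℕ)
    (hS : ∀ p ∈ S, p.Prime ∧ p ≠ 2) :
    0 < fieldModulus S ∧ Function.Periodic (goodAt s S) (fieldModulus S) ∧
      ((((Finset.range (fieldModulus S)).filter (goodAt s S)).card : ℝ)) =
        3 / 8 * (fieldModulus S : ℝ) * ∏ p ∈ S, (1 - ((p : ℝ) ^ 2)⁻¹) := by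
  induction S using Finset.induction_on with
  | empty =>
    have h : goodAt s ∅ = goodTwo s := by funext k; simp [goodAt]
    rw [h]
    simp only [fieldModulus, Finset.prod_empty, mul_one]
    refine ⟨by norm_num, (goodTwo_base hs).1, ?_⟩
    rw [(goodTwo_base hs).2]
    norm_num
  | insert p S hpS ih =>
    obtain ⟨h0, hper, hc⟩ := ih fun q hq => hS q (Finset.mem_insert_of_mem hq)
    obtain ⟨hp, hp2⟩ := hS p (Finset.mem_insert_self p S)
    have hset : goodAt s (insert p S) = fun k => (¬ p ^ 2 ∣ k) ∧ goodAt s S k := by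
      funext k
      simp only [goodAt, Finset.forall_mem_insert, eq_iff_iff]
      tauto
    have hmod : fieldModulus (insert p S) = p ^ 2 * fieldModulus S := by
      rw [fieldModulus, fieldModulus, Finset.prod_insert hpS, mul_left_comm]
    have hpp : 0 < p ^ 2 := pow_pos hp.pos 2
    have hcop : (p ^ 2).Coprime (fieldModulus S) := by
      refine Nat.Coprime.mul_right ?_ (Nat.Coprime.prod_right fun q hq => Nat.Coprime.pow 2 2
        ((Nat.coprime_primes hp (hS q (Finset.mem_insert_of_mem hq)).1).mpr fun h => hpS (h ▸ hq)))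
      exact Nat.Coprime.pow 2 4 ((Nat.coprime_primes hp Nat.prime_two).mpr hp2)
    refine ⟨by rw [hmod]; positivity, ?_, ?_⟩
    · rw [hmod, hset]
      intro k
      have a1 := (periodic_sq p).nat_mul (fieldModulus S) k
      have a2 := hper.nat_mul (p ^ 2) k
      rw [mul_comm] at a1
      simp only [Nat.cast_id] at a1 a2
      simp only [eq_iff_iff] at a1 a2 ⊢
      rw [a1, a2]
    · have e : ((Finset.range (fieldModulus (insert p S))).filter (goodAt s (insert p S))).card =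
          (p ^ 2 - 1) * ((Finset.range (fieldModulus S)).filter (goodAt s S)).card := by
        rw [← card_sq hp.pos, hmod, hset]
        convert card_inter_periodic hpp h0 hcop (periodic_sq p) hper using 2 <;> congr!
      rw [e, hmod, Finset.prod_insert hpS]
      push_cast [Nat.cast_sub (Nat.one_le_iff_ne_zero.mpr hpp.ne')]
      rw [hc]
      have : (p : ℝ) ≠ 0 := by exact_mod_cast hp.ne_zero
      field_simp

theorem count_periodic {m : ℕ} (hm : 0 < m) {P : ℕ → Prop} (hP : Function.Periodic P m) (N : ℕ) :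
    |(((Finset.Icc 1 N).filter P).card : ℝ) -
      ((Finset.range m).filter P).card * ((N : ℝ) / m)| ≤ m := by
  set c := ((Finset.range m).filter P).card
  have hcm : c ≤ m := (Finset.card_filter_le _ _).trans (Finset.card_range m).le
  have hblock : ∀ q, ((Finset.Ico 1 (1 + q * m)).filter P).card = q * c := by
    intro q
    induction q with
    | zero => simp
    | succ q ih =>
      rw [← Finset.Ico_union_Ico_eq_Ico (show 1 ≤ 1 + q * m by omega)
        (show 1 + q * m ≤ 1 + (q + 1) * m by rw [add_one_mul]; omega), Finset.filter_union,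
        Finset.card_union_of_disjoint (Finset.disjoint_filter_filter
          (Finset.Ico_disjoint_Ico_consecutive _ _ _)), ih,
        show 1 + (q + 1) * m = 1 + q * m + m by ring,
        Nat.filter_Ico_card_eq_of_periodic _ _ _ hP, Nat.count_eq_card_filter_range]
      ring
  have hq1 : N / m * m ≤ N := Nat.div_mul_le_self N m
  have hq2 : N < (N / m + 1) * m := by
    rw [add_one_mul]; exact Nat.lt_div_mul_add hm
  have lo : N / m * c ≤ ((Finset.Icc 1 N).filter P).card := by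
    rw [← hblock]
    refine Finset.card_le_card (Finset.filter_subset_filter _ fun x hx => ?_)
    simp only [Finset.mem_Ico, Finset.mem_Icc] at hx ⊢
    omega
  have hi : ((Finset.Icc 1 N).filter P).card ≤ (N / m + 1) * c := by
    rw [← hblock]
    refine Finset.card_le_card (Finset.filter_subset_filter _ fun x hx => ?_)
    simp only [Finset.mem_Ico, Finset.mem_Icc] at hx ⊢
    omega
  have hm' : (0 : ℝ) < m := by exact_mod_cast hm
  have l' : ((N / m : ℕ) : ℝ) * c ≤ (((Finset.Icc 1 N).filter P).card : ℝ) := by exact_mod_cast lo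
  have h' : (((Finset.Icc 1 N).filter P).card : ℝ) ≤ (((N / m : ℕ) : ℝ) + 1) * c := by
    exact_mod_cast hi
  have b1 : ((N / m : ℕ) : ℝ) ≤ (N : ℝ) / m := by
    rw [le_div_iff₀ hm']; exact_mod_cast hq1
  have b2 : (N : ℝ) / m ≤ ((N / m : ℕ) : ℝ) + 1 := by
    rw [div_le_iff₀ hm']; exact_mod_cast hq2.le
  have hc : (c : ℝ) ≤ m := by exact_mod_cast hcm
  have hc0 : (0 : ℝ) ≤ c := Nat.cast_nonneg c
  rw [abs_le]
  constructor <;> nlinarith

/-- The odd primes below `Y`. -/
def oddPrimes (Y : ℕ) : Finset ℕ := Y.primesBelow.erase 2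

theorem mem_oddPrimes {Y p : ℕ} : p ∈ oddPrimes Y ↔ p ≠ 2 ∧ p < Y ∧ p.Prime := by
  simp [oddPrimes, Nat.mem_primesBelow]

theorem goodUpTo_sieve {s : ℤ} (hs : s = 1 ∨ s = -1) {Y : ℕ} (hY : 3 ≤ Y) (N : ℕ) :
    (goodUpTo s N).card ≤ ((Finset.Icc 1 N).filter (goodAt s (oddPrimes Y))).card ∧
      (((Finset.Icc 1 N).filter (goodAt s (oddPrimes Y))).card : ℝ) ≤
        (goodUpTo s N).card + N * ((Y : ℝ) - 1)⁻¹ := by
  constructor
  · refine Finset.card_le_card fun k hk => ?_
    obtain ⟨hk, hg⟩ := Finset.mem_filter.mp hk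
    obtain ⟨h2, h⟩ := (discGood_iff hs k).mp hg
    exact Finset.mem_filter.mpr
      ⟨hk, h2, fun p hp => h p (mem_oddPrimes.mp hp).2.2 (mem_oddPrimes.mp hp).1⟩
  set P := (Finset.Ico Y (N + 1)).filter Nat.Prime
  have hsub : (Finset.Icc 1 N).filter (goodAt s (oddPrimes Y)) ⊆
      goodUpTo s N ∪ P.biUnion fun p => (Finset.Ioc 0 N).filter (p ^ 2 ∣ ·) := by
    intro k hk
    obtain ⟨hkN, h2, h⟩ := Finset.mem_filter.mp hk
    by_cases hg : DiscGood (s * k)
    · exact Finset.mem_union_left _ (Finset.mem_filter.mpr ⟨hkN, hg⟩)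
    rw [discGood_iff hs] at hg
    push Not at hg
    obtain ⟨p, hp, hp2, hd⟩ := hg h2
    have hpY : Y ≤ p := by
      by_contra hlt
      exact h p (mem_oddPrimes.mpr ⟨hp2, by omega, hp⟩) hd
    rw [Finset.mem_Icc] at hkN
    have hpk : p ≤ k := (Nat.le_self_pow two_ne_zero p).trans (Nat.le_of_dvd hkN.1 hd)
    exact Finset.mem_union_right _ (Finset.mem_biUnion.mpr ⟨p, Finset.mem_filter.mpr
      ⟨Finset.mem_Ico.mpr ⟨hpY, by omega⟩, hp⟩, Finset.mem_filter.mpr
      ⟨Finset.mem_Ioc.mpr ⟨hkN.1, hkN.2⟩, hd⟩⟩)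
  refine (Nat.cast_le.mpr ((Finset.card_le_card hsub).trans ((Finset.card_union_le _ _).trans
    (Nat.add_le_add_left Finset.card_biUnion_le _)))).trans ?_
  push_cast
  refine add_le_add le_rfl ?_
  calc ∑ p ∈ P, (((Finset.Ioc 0 N).filter (p ^ 2 ∣ ·)).card : ℝ)
      ≤ ∑ p ∈ P, (N : ℝ) * ((p : ℝ) ^ 2)⁻¹ := by
        refine Finset.sum_le_sum fun p _ => ?_
        rw [Nat.Ioc_filter_dvd_card_eq_div, ← div_eq_mul_inv]
        exact Nat.cast_div_le.trans (by push_cast; rfl)
    _ ≤ _ := by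
        rw [← Finset.mul_sum]
        exact mul_le_mul_of_nonneg_left ((Finset.sum_le_sum_of_subset_of_nonneg
          (Finset.filter_subset _ _) fun _ _ _ => by positivity).trans
          (FA.CubicFields.sum_inv_sq_le (by omega) _)) (by positivity)

theorem tendsto_oddProduct :
    Tendsto (fun Y : ℕ => 3 / 8 * ∏ p ∈ oddPrimes Y, (1 - ((p : ℝ) ^ 2)⁻¹)) atTop
      (𝓝 (3 / π ^ 2)) := by
  have h2 : (riemannZeta ((2 : ℕ) : ℂ)).re = π ^ 2 / 6 := by
    rw [Nat.cast_ofNat, riemannZeta_two]; norm_cast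
  have h := (FA.CubicFields.tendsto_eulerFactor (le_refl 2)).mul_const (1 / 2 : ℝ)
  rw [h2, show (π ^ 2 / 6)⁻¹ * (1 / 2 : ℝ) = 3 / π ^ 2 by field_simp; ring] at h
  refine h.congr' ?_
  filter_upwards [eventually_ge_atTop 3] with Y hY
  have h3 : 2 ∈ Y.primesBelow := Nat.mem_primesBelow.mpr ⟨by omega, Nat.prime_two⟩
  rw [oddPrimes, ← Finset.mul_prod_erase _ _ h3]
  norm_num
  ring

/-- **Fundamental discriminants** have density `3 / π²` for either sign. -/
theorem tendsto_goodUpTo {s : ℤ} (hs : s = 1 ∨ s = -1) :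
    Tendsto (fun X : ℝ => ((goodUpTo s ⌊X⌋₊).card : ℝ) / X) atTop (𝓝 (3 / π ^ 2)) := by
  have hN : Tendsto (fun N : ℕ => ((goodUpTo s N).card : ℝ) / N) atTop (𝓝 (3 / π ^ 2)) := by
    rw [Metric.tendsto_atTop]
    intro η hη
    have hy : Tendsto (fun Y : ℕ => ((Y : ℝ) - 1)⁻¹) atTop (𝓝 0) :=
      (tendsto_atTop_add_const_right _ _ tendsto_natCast_atTop_atTop : Tendsto
        (fun Y : ℕ => ((Y : ℝ) - 1)) atTop atTop).inv_tendsto_atTop
    obtain ⟨Y, hY, hY1, hY2⟩ := ((eventually_ge_atTop 3).and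
      ((tendsto_oddProduct.eventually (Metric.ball_mem_nhds _ (by linarith : (0 : ℝ) < η / 3))).and
      (hy.eventually_le_const (by linarith : (0 : ℝ) < η / 3)))).exists
    have hY1' : dist (3 / 8 * ∏ p ∈ oddPrimes Y, (1 - ((p : ℝ) ^ 2)⁻¹)) (3 / π ^ 2) < η / 3 := hY1
    rw [Real.dist_eq, abs_lt] at hY1'
    obtain ⟨hm, hper, hc⟩ := goodAt_facts hs (oddPrimes Y) fun p hp =>
      ⟨(mem_oddPrimes.mp hp).2.2, (mem_oddPrimes.mp hp).1⟩
    set m := fieldModulus (oddPrimes Y)
    set δ := 3 / 8 * ∏ p ∈ oddPrimes Y, (1 - ((p : ℝ) ^ 2)⁻¹)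
    obtain ⟨N₀, hN₀⟩ := exists_nat_gt (3 * (m : ℝ) / η)
    refine ⟨max 1 N₀, fun N hN => ?_⟩
    have hN1 : (1 : ℝ) ≤ N := by exact_mod_cast (le_max_left _ _).trans hN
    have hNm : 3 * (m : ℝ) / η < N :=
      hN₀.trans_le (by exact_mod_cast (le_max_right _ _).trans hN)
    rw [div_lt_iff₀ hη] at hNm
    obtain ⟨s1, s2⟩ := goodUpTo_sieve hs hY N
    have s1' : ((goodUpTo s N).card : ℝ) ≤
        ((Finset.Icc 1 N).filter (goodAt s (oddPrimes Y))).card := by exact_mod_cast s1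
    have hcnt := count_periodic hm hper N
    have e : (((Finset.range m).filter (goodAt s (oddPrimes Y))).card : ℝ) * ((N : ℝ) / m) =
        δ * N := by
      rw [hc]
      have : (m : ℝ) ≠ 0 := by exact_mod_cast hm.ne'
      simp only [δ]
      field_simp
    rw [e, abs_le] at hcnt
    have hinv : (N : ℝ) * ((Y : ℝ) - 1)⁻¹ ≤ N * (η / 3) :=
      mul_le_mul_of_nonneg_left hY2 (by linarith)
    have hprod : (δ - 3 / π ^ 2) * N < η / 3 * N ∧ -(η / 3) * N < (δ - 3 / π ^ 2) * N :=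
      ⟨mul_lt_mul_of_pos_right hY1'.2 (by linarith), mul_lt_mul_of_pos_right hY1'.1 (by linarith)⟩
    rw [Real.dist_eq, abs_lt, lt_sub_iff_add_lt, sub_lt_iff_lt_add, lt_div_iff₀ (by linarith),
      div_lt_iff₀ (by linarith)]
    constructor <;> nlinarith [hprod.1, hprod.2]
  have h := (hN.comp (tendsto_nat_floor_atTop (α := ℝ))).mul (tendsto_nat_floor_div_atTop (R := ℝ))
  rw [mul_one] at h
  refine h.congr' ?_
  filter_upwards [eventually_ge_atTop (1 : ℝ)] with X hX
  have : (⌊X⌋₊ : ℝ) ≠ 0 := by exact_mod_cast (Nat.floor_pos.mpr hX).ne'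
  simp only [Function.comp_apply]
  field_simp

end FA.ThreeTorsion
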