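import Fermat.Agent.ThreeTorsion.Tail
import Fermat.Agent.ThreeTorsion.FieldCount
import Mathlib.GroupTheory.Perm.Cycle.Type

/-!
# The average three-torsion of class groups of quadratic fields

A complete system of the quadratic fields with `0 < s d ≤ X` is indexed by the fundamental `s k`;
the classes of forms of discriminant `-27 d` add up to the count of fundamental forms.
-/

set_option autoImplicit false

noncomputable section

open FA.Thue FA.DeloneFaddeev FA.CubicFormCount Module NumberField Filter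
open scoped Classical Topology Real

namespace FA.ThreeTorsion

/-- The sign of the form discriminants. -/
def formSign (s : ℤ) : Bool := decide (s < 0)

theorem sgn_formSign {s : ℤ} (hs : s = 1 ∨ s = -1) : sgn (formSign s) = -(s : ℝ) := by
  rcases hs with rfl | rfl <;> simp [formSign, sgn]

theorem disc_ne_zero_of_anisotropic {f : CubicForm} (hf : f.Anisotropic) : f.disc ≠ 0 := by
  intro h0
  have ha : (f.a : ℚ) ≠ 0 := Int.cast_ne_zero.mpr hf.a_ne_zero
  obtain ⟨x, hx, -⟩ := exists_double_root (F := ℚ) (by norm_num) (by norm_num)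
    (a := f.a) (b := f.b) (c := f.c) (d := f.d) (fun h => ha h.1)
    (by exact_mod_cast h0)
  have h : ((f.eval x.num (x.den : ℤ) : ℤ) : ℚ) = 0 := by
    have hxn : (x.num : ℚ) = x * x.den := (Rat.mul_den_eq_num x).symm
    simp only [CubicForm.eval, Int.cast_id]
    push_cast
    rw [hxn]
    linear_combination (x.den : ℚ) ^ 3 * hx
  exact x.den_nz (by exact_mod_cast (hf _ _ (Int.cast_eq_zero.mp h)).2)

theorem triClasses_finite (D : ℤ) : (triClasses D).Finite := by
  rcases lt_trichotomy D 0 with h | h | h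
  · refine (classes_finite true Set.univ (-27 * D : ℤ)).subset ?_
    rintro c ⟨g, hg, ha, rfl⟩
    refine ⟨tri g, trivial, ha, ?_, ?_, rfl⟩ <;> simp only [sgn, if_true, one_mul, disc_tri, hg]
    · exact_mod_cast (by linarith : (0 : ℤ) < -27 * D)
    · exact le_rfl
  · refine Set.Finite.subset Set.finite_empty ?_
    rintro c ⟨g, hg, ha, rfl⟩
    subst h
    have hd : (tri g).disc = 0 := by rw [disc_tri, hg, mul_zero]
    exact absurd hd (disc_ne_zero_of_anisotropic ha)
  · refine (classes_finite false Set.univ (27 * D : ℤ)).subset ?_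
    rintro c ⟨g, hg, ha, rfl⟩
    refine ⟨tri g, trivial, ha, ?_, ?_, rfl⟩ <;>
      simp only [sgn, Bool.false_eq_true, if_false, disc_tri, hg] <;> push_cast
    · have : (0 : ℝ) < D := by exact_mod_cast h
      linarith
    · linarith

theorem classes_fundForms {s : ℤ} (hs : s = 1 ∨ s = -1) (X : ℝ) :
    classes (formSign s) fundForms (27 * X) =
      ⋃ k ∈ goodUpTo s ⌊X⌋₊, triClasses (s * k) := by
  ext c
  simp only [Set.mem_iUnion, exists_prop]
  constructor
  · rintro ⟨f, ⟨g, rfl, hg⟩, ha, h0, h1, rfl⟩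
    rw [sgn_formSign hs, disc_tri] at h0 h1
    push_cast at h0 h1
    have hk : 0 < s * redDisc g := by
      have : (0 : ℝ) < ((s * redDisc g : ℤ) : ℝ) := by push_cast; linarith
      exact_mod_cast this
    obtain ⟨k, hk'⟩ : ∃ k : ℕ, s * redDisc g = k := ⟨(s * redDisc g).toNat, by omega⟩
    have hkX : (k : ℝ) ≤ X := by
      have : ((k : ℤ) : ℝ) ≤ X := by rw [← hk']; push_cast; linarith
      exact_mod_cast this
    have hD : s * k = redDisc g := by
      rw [← hk', ← mul_assoc]
      rcases hs with rfl | rfl <;> simp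
    refine ⟨k, Finset.mem_filter.mpr ⟨Finset.mem_Icc.mpr ⟨by omega, Nat.le_floor hkX⟩,
      by rw [hD]; exact hg⟩, g, hD.symm, ha, rfl⟩
  · rintro ⟨k, hk, g, hg, ha, rfl⟩
    obtain ⟨hk, hgood⟩ := Finset.mem_filter.mp hk
    rw [Finset.mem_Icc] at hk
    have hkX : (k : ℝ) ≤ X := Nat.cast_le.mpr hk.2 |>.trans (Nat.floor_le (le_of_not_gt fun hX => by
      rw [Nat.floor_of_nonpos hX.le] at hk; omega))
    have hk1 : (1 : ℝ) ≤ k := by exact_mod_cast hk.1
    have e : sgn (formSign s) * ((tri g).disc : ℝ) = 27 * k := by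
      rw [sgn_formSign hs, disc_tri, hg]
      rcases hs with rfl | rfl <;> push_cast <;> ring
    exact ⟨tri g, ⟨g, rfl, hg ▸ hgood⟩, ha, by rw [e]; linarith, by rw [e]; linarith, rfl⟩

theorem triClasses_disjoint {D E : ℤ} (h : D ≠ E) : Disjoint (triClasses D) (triClasses E) := by
  rw [Set.disjoint_left]
  rintro c ⟨g, hg, -, rfl⟩ ⟨g', hg', -, e⟩
  have := twisted_disc (twisted_of_classSet e)
  rw [disc_tri, disc_tri, hg, hg'] at this
  exact h (by linarith)

theorem ncard_fundForms {s : ℤ} (hs : s = 1 ∨ s = -1) (X : ℝ) :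
    (classes (formSign s) fundForms (27 * X)).ncard =
      ∑ k ∈ goodUpTo s ⌊X⌋₊, (triClasses (s * k)).ncard := by
  rw [classes_fundForms hs]
  refine (Set.Finite.ncard_biUnion (goodUpTo s ⌊X⌋₊).finite_toSet
    (fun k _ => triClasses_finite _) (fun k _ l _ hkl => triClasses_disjoint ?_)).trans
    (finsum_mem_coe_finset _ _)
  intro h
  rcases hs with rfl | rfl <;> exact hkl (by omega)

/-- The indices of the fields. -/
def fieldIdx (s : ℤ) (X : ℝ) : Finset ℕ := (goodUpTo s ⌊X⌋₊).filter fun k : ℕ => s * (k : ℤ) ≠ 1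

/-- A complete irredundant system of the quadratic fields with `0 < s d ≤ X`. -/
def IsSystem (s : ℤ) (X : ℝ) {n : ℕ} (F : Fin n → Type) (hF : ∀ i, Field (F i))
    (hN : ∀ i, letI := hF i; NumberField (F i)) : Prop :=
  letI := hF
  letI := hN
  (∀ i, finrank ℚ (F i) = 2 ∧ 0 < s * discr (F i) ∧ ((s * discr (F i) : ℤ) : ℝ) ≤ X) ∧
    (∀ i j, Nonempty (F i ≃+* F j) → i = j) ∧
    ∀ (L : Type) [Field L] [NumberField L], finrank ℚ L = 2 → 0 < s * discr L →
      ((s * discr L : ℤ) : ℝ) ≤ X → ∃ i, Nonempty (F i ≃+* L)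

theorem mem_fieldIdx {s : ℤ} (_ : s = 1 ∨ s = -1) {X : ℝ} {k : ℕ} (hk : k ∈ fieldIdx s X) :
    FundDisc (s * k) ∧ 1 ≤ k ∧ (k : ℝ) ≤ X := by
  obtain ⟨hk, hne⟩ := Finset.mem_filter.mp hk
  obtain ⟨hk, hg⟩ := Finset.mem_filter.mp hk
  rw [Finset.mem_Icc] at hk
  refine ⟨⟨hne, hg⟩, hk.1, Nat.cast_le.mpr hk.2 |>.trans (Nat.floor_le (le_of_not_gt fun hX => ?_))⟩
  rw [Nat.floor_of_nonpos hX.le] at hk; omega

theorem fund_mem_fieldIdx {s : ℤ} (hs : s = 1 ∨ s = -1) {X : ℝ} {D : ℤ} (hD : FundDisc D)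
    (h0 : 0 < s * D) (hX : ((s * D : ℤ) : ℝ) ≤ X) :
    (s * D).toNat ∈ fieldIdx s X ∧ s * ((s * D).toNat : ℤ) = D := by
  have e : s * ((s * D).toNat : ℤ) = D := by
    rw [Int.toNat_of_nonneg h0.le, ← mul_assoc]
    rcases hs with rfl | rfl <;> simp
  refine ⟨Finset.mem_filter.mpr ⟨Finset.mem_filter.mpr ⟨Finset.mem_Icc.mpr ⟨by omega,
    Nat.le_floor ?_⟩, by rw [e]; exact hD.2⟩, by rw [e]; exact hD.1⟩, e⟩
  have : (((s * D).toNat : ℤ) : ℝ) ≤ X := by rw [Int.toNat_of_nonneg h0.le]; exact hX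
  exact_mod_cast this

/-- The fields as a system, with the sum of `#Cl[3]` read off the classes. -/
theorem exists_system {s : ℤ} (hs : s = 1 ∨ s = -1) (X : ℝ) :
    ∃ (F : Fin (fieldIdx s X).card → Type) (hF : ∀ i, Field (F i))
      (hN : ∀ i, letI := hF i; NumberField (F i)), IsSystem s X F hF hN ∧
      ∃ φ : Fin (fieldIdx s X).card ≃ {k // k ∈ fieldIdx s X},
        ∀ i, letI := hF i; letI := hN i;
          finrank ℚ (F i) = 2 ∧ discr (F i) = s * ((φ i : ℕ) : ℤ) := by
  set φ : Fin (fieldIdx s X).card ≃ {k // k ∈ fieldIdx s X} :=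
    (fieldIdx s X).equivFin.symm
  choose F hF hN hd hdisc using fun i => exists_sqrt_field (mem_fieldIdx hs (φ i).2).1
  refine ⟨F, hF, hN, ⟨fun i => ?_, fun i j ⟨e⟩ => ?_, fun L _ _ hL h0 h1 => ?_⟩, φ,
    fun i => ⟨hd i, hdisc i⟩⟩
  · obtain ⟨-, h1, h2⟩ := mem_fieldIdx hs (φ i).2
    rw [hdisc i, ← mul_assoc]
    rcases hs with rfl | rfl <;> norm_num <;> exact ⟨hd i, by omega, h2⟩
  · refine φ.injective (Subtype.ext ?_)
    have h := discr_eq_discr_of_ringEquiv (F i) e
    rw [hdisc i, hdisc j] at h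
    rcases hs with rfl | rfl <;> omega
  · obtain ⟨hm, he⟩ := fund_mem_fieldIdx hs (fundDisc_discr hL) h0 h1
    refine ⟨φ.symm ⟨_, hm⟩, nonempty_ringEquiv (hd _) hL ?_⟩
    rw [hdisc, φ.apply_symm_apply]
    exact he

theorem count_field {s : ℤ} (hs : s = 1 ∨ s = -1) {L : Type} [Field L] [NumberField L]
    (hL : finrank ℚ L = 2) {k : ℕ} (hd : discr L = s * k) (hk : 1 ≤ k) (h3 : s * (k : ℤ) ≠ -3) :
    (if s = 1 then 3 else 1) * cl3Card L = 2 * (triClasses (s * k)).ncard + 1 := by
  obtain ⟨Q⟩ := exists_qdata hL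
  have hQ : Q.disc = s * k := by rw [Q.disc_eq_discr, hd]
  have h := Q.class_count hL (by rw [hQ]; exact h3)
  rw [hQ] at h
  rw [h]
  rcases hs with rfl | rfl
  · rw [if_pos rfl, if_pos (by omega)]
  · rw [if_neg (by norm_num), if_neg (by omega)]

theorem sum_bound {s : ℤ} (hs : s = 1 ∨ s = -1) :
    ∃ C : ℝ, ∀ (X : ℝ) (F : Fin (fieldIdx s X).card → Type) (hF : ∀ i, Field (F i))
      (hN : ∀ i, letI := hF i; NumberField (F i))
      (φ : Fin (fieldIdx s X).card ≃ {k // k ∈ fieldIdx s X}),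
      (∀ i, letI := hF i; letI := hN i;
          finrank ℚ (F i) = 2 ∧ discr (F i) = s * ((φ i : ℕ) : ℤ)) →
      letI := hF
      letI := hN
      |(if s = 1 then (3 : ℝ) else 1) * ∑ i, (cl3Card (F i) : ℝ) -
          (2 * (classes (formSign s) fundForms (27 * X)).ncard + (fieldIdx s X).card)| ≤ C := by
  obtain ⟨L3, hF3, hN3, hd3, hdisc3⟩ := exists_sqrt_field (D := -3)
    ⟨by norm_num, Or.inr (by norm_num), fun p hp hb => by
      by_cases h2 : p = 2
      · subst h2; simp [DiscBad] at hb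
      · rw [DiscBad, if_neg h2, dvd_neg] at hb
        have h := Nat.le_of_dvd (n := 3) (by norm_num)
          (Int.natCast_dvd_natCast.mp (by push_cast; exact hb))
        nlinarith [hp.two_le, (show 3 ≤ p by have := hp.two_le; omega)]⟩
  set u : ℕ := if s = 1 then 3 else 1
  refine ⟨u * cl3Card L3 + 2 * (triClasses (-3)).ncard + 2 * (triClasses 1).ncard + 1,
    fun X F hF hN φ hφ => ?_⟩
  letI := hF
  letI := hN
  set G := goodUpTo s ⌊X⌋₊
  rw [ncard_fundForms hs, ← Finset.sum_filter_add_sum_filter_not G (fun k : ℕ => s * (k : ℤ) ≠ 1)]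
  have hrest : ∑ k ∈ G.filter (fun k : ℕ => ¬ s * (k : ℤ) ≠ 1), (triClasses (s * k)).ncard ≤
      (triClasses 1).ncard := by
    have hsub : G.filter (fun k : ℕ => ¬ s * (k : ℤ) ≠ 1) ⊆ {1} := fun k hk => by
      have h := (Finset.mem_filter.mp hk).2
      rw [not_not] at h
      rcases hs with rfl | rfl <;> simp at h ⊢ <;> omega
    calc ∑ k ∈ G.filter (fun k : ℕ => ¬ s * (k : ℤ) ≠ 1), (triClasses (s * k)).ncard
        = ∑ k ∈ G.filter (fun k : ℕ => ¬ s * (k : ℤ) ≠ 1), (triClasses 1).ncard :=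
          Finset.sum_congr rfl fun k hk => by rw [not_not.mp (Finset.mem_filter.mp hk).2]
      _ ≤ 1 * (triClasses 1).ncard := by
          rw [Finset.sum_const, smul_eq_mul]
          exact Nat.mul_le_mul_right _ ((Finset.card_le_card hsub).trans (by simp))
      _ = _ := one_mul _
  have hI : G.filter (fun k : ℕ => s * (k : ℤ) ≠ 1) = (fieldIdx s X) := rfl
  rw [hI]
  obtain ⟨R, hR0⟩ : ∃ R : ℕ → ℕ, ∀ i, R (φ i) = cl3Card (F i) := by
    refine ⟨fun k => if h : k ∈ fieldIdx s X then cl3Card (F (φ.symm ⟨k, h⟩)) else 0,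
      fun i => ?_⟩
    beta_reduce
    rw [dif_pos (φ i).2, Subtype.coe_eta, φ.symm_apply_apply]
  have hsum : ∑ i, (cl3Card (F i) : ℝ) = ∑ k ∈ fieldIdx s X, (R k : ℝ) := by
    rw [← Finset.sum_coe_sort (fieldIdx s X)]
    exact Fintype.sum_equiv φ _ _ fun i => by rw [hR0 i]
  have hterm : ∀ k ∈ fieldIdx s X, |(u : ℝ) * R k - (2 * ((triClasses (s * k)).ncard : ℝ) + 1)| ≤
      if s * (k : ℤ) = -3 then (u * cl3Card L3 + 2 * (triClasses (-3)).ncard + 1 : ℝ) else 0 := by
    intro k hk
    obtain ⟨i, hi⟩ := φ.surjective ⟨k, hk⟩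
    have e : k = (φ i : ℕ) := by rw [hi]
    obtain ⟨hfi, hdi⟩ := hφ i
    rw [← e] at hdi
    rw [e, hR0 i, ← e]
    split_ifs with h
    · obtain ⟨ψ⟩ := nonempty_ringEquiv hfi hd3 (by rw [hdi, h, hdisc3])
      have : cl3Card (F i) = cl3Card L3 := by
        let E := ClassGroup.mulEquiv (RingOfIntegers.mapRingEquiv ψ)
        exact Nat.card_congr (E.toEquiv.subtypeEquiv fun c => by
          show c ^ 3 = 1 ↔ E c ^ 3 = 1
          rw [← map_pow, map_eq_one_iff _ E.injective])
      rw [this, h, abs_le]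
      have h1 : (0 : ℝ) ≤ (u : ℝ) * cl3Card L3 := by positivity
      have h2 : (0 : ℝ) ≤ ((triClasses (-3)).ncard : ℝ) := by positivity
      constructor <;> linarith
    · have hc := count_field hs hfi hdi (mem_fieldIdx hs hk).2.1 h
      have : (u : ℝ) * cl3Card (F i) = 2 * ((triClasses (s * k)).ncard : ℝ) + 1 := by
        exact_mod_cast hc
      rw [this, sub_self, abs_zero]
  have hC0 : (0 : ℝ) ≤ u * cl3Card L3 + 2 * (triClasses (-3)).ncard + 1 := by positivity
  have hone : ∑ k ∈ fieldIdx s X, (if s * (k : ℤ) = -3 then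
      (u * cl3Card L3 + 2 * (triClasses (-3)).ncard + 1 : ℝ) else 0) ≤
      u * cl3Card L3 + 2 * (triClasses (-3)).ncard + 1 := by
    rw [← Finset.sum_filter, Finset.sum_const, nsmul_eq_mul]
    refine mul_le_of_le_one_left hC0 ?_
    exact_mod_cast Finset.card_le_one.mpr fun a ha b hb => by
      have h1 := (Finset.mem_filter.mp ha).2
      have h2 := (Finset.mem_filter.mp hb).2
      rcases hs with rfl | rfl <;> omega
  have habs := (Finset.abs_sum_le_sum_abs _ _).trans ((Finset.sum_le_sum hterm).trans hone)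
  rw [Finset.sum_sub_distrib, ← Finset.mul_sum, Finset.sum_add_distrib, ← Finset.mul_sum,
    Finset.sum_const, nsmul_one, ← hsum] at habs
  have hu : (u : ℝ) = if s = 1 then 3 else 1 := by simp only [u]; split_ifs <;> simp
  rw [← hu]
  have hrest' : ((∑ k ∈ G.filter (fun k : ℕ => ¬ s * (k : ℤ) ≠ 1),
      (triClasses (s * k)).ncard : ℕ) : ℝ) ≤ (triClasses 1).ncard := by exact_mod_cast hrest
  have hr0 : (0 : ℝ) ≤ ((∑ k ∈ G.filter (fun k : ℕ => ¬ s * (k : ℤ) ≠ 1),
      (triClasses (s * k)).ncard : ℕ) : ℝ) := Nat.cast_nonneg _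
  push_cast at hrest' hr0 habs ⊢
  rw [abs_le] at habs ⊢
  constructor <;> linarith

theorem tendsto_fieldIdx {s : ℤ} (hs : s = 1 ∨ s = -1) :
    Tendsto (fun X : ℝ => ((fieldIdx s X).card : ℝ) / X) atTop (𝓝 (3 / π ^ 2)) := by
  have h1 := tendsto_goodUpTo hs
  have h2 : Tendsto (fun X : ℝ => (1 : ℝ) / X) atTop (𝓝 0) :=
    tendsto_const_nhds.div_atTop tendsto_id
  have h12 := h1.sub h2
  rw [sub_zero] at h12
  refine tendsto_of_tendsto_of_tendsto_of_le_of_le' h12 h1 ?_ ?_ <;>
    filter_upwards [eventually_gt_atTop (0 : ℝ)] with X hX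
  · rw [← sub_div]
    gcongr
    have hsub : ((goodUpTo s ⌊X⌋₊).filter fun k : ℕ => ¬ s * (k : ℤ) ≠ 1) ⊆ {1} := fun k hk => by
      have h := (Finset.mem_filter.mp hk).2
      rw [not_not] at h
      rcases hs with rfl | rfl <;> simp at h ⊢ <;> omega
    have h := Finset.card_filter_add_card_filter_not (s := goodUpTo s ⌊X⌋₊)
      (fun k : ℕ => s * (k : ℤ) ≠ 1)
    have h' := Finset.card_le_card hsub
    rw [Finset.card_singleton] at h'
    have : (goodUpTo s ⌊X⌋₊).card ≤ (fieldIdx s X).card + 1 := by rw [fieldIdx]; omega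
    have := (Nat.cast_le (α := ℝ)).mpr this
    push_cast at this
    linarith
  · gcongr
    exact Finset.filter_subset _ _

theorem one_le_cl3 (L : Type) [Field L] [NumberField L] :
    1 + 2 * (if classNumber L % 3 = 0 then 1 else 0) ≤ cl3Card L := by
  have : Finite {c : ClassGroup (𝓞 L) // c ^ 3 = 1} := Subtype.finite
  split_ifs with h
  · rw [classNumber, ← Nat.card_eq_fintype_card] at h
    have := Fact.mk Nat.prime_three
    obtain ⟨c, hc⟩ := exists_prime_orderOf_dvd_card' 3 (Nat.dvd_of_mod_eq_zero h)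
    have hpow : c ^ 3 = 1 := by rw [← hc]; exact pow_orderOf_eq_one c
    let f : Fin 3 → {c : ClassGroup (𝓞 L) // c ^ 3 = 1} := fun j =>
      ⟨c ^ (j : ℕ), by rw [← pow_mul, mul_comm, pow_mul, hpow, one_pow]⟩
    have hf : Function.Injective f := fun i j e => Fin.ext
      (pow_injOn_Iio_orderOf (by rw [hc]; exact i.isLt) (by rw [hc]; exact j.isLt)
        (congrArg Subtype.val e))
    have := Nat.card_le_card_of_injective f hf
    rw [Nat.card_fin] at this
    simpa [cl3Card] using this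
  · have : Nonempty {c : ClassGroup (𝓞 L) // c ^ 3 = 1} := ⟨⟨1, one_pow 3⟩⟩
    show 1 + 2 * 0 ≤ cl3Card L
    exact Nat.card_pos (α := {c : ClassGroup (𝓞 L) // c ^ 3 = 1})

/-- The mean of `#Cl[3]` and the proportion of class numbers prime to `3`. -/
theorem exists_average {s : ℤ} (hs : s = 1 ∨ s = -1) :
    ∃ (n : ℝ → ℕ) (F : ∀ X, Fin (n X) → Type) (hF : ∀ X i, Field (F X i))
      (hN : ∀ X i, letI := hF X i; NumberField (F X i)),
      (∀ X, IsSystem s X (F X) (hF X) (hN X)) ∧
      Tendsto (fun X : ℝ => (n X : ℝ) / X) atTop (𝓝 (3 / π ^ 2)) ∧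
      Tendsto (fun X : ℝ => (∑ i, letI := hF X i; letI := hN X i; (cl3Card (F X i) : ℝ)) / n X)
        atTop (𝓝 (if s = 1 then 4 / 3 else 2)) ∧
      ∀ η : ℝ, 0 < η → ∀ᶠ X : ℝ in atTop,
        ((3 - if s = 1 then 4 / 3 else 2) / 2 - η) * n X ≤
          ((Finset.univ.filter fun i => letI := hF X i; letI := hN X i;
            classNumber (F X i) % 3 ≠ 0).card : ℝ) := by
  choose F hF hN hsys φ hφ using fun X => exists_system hs X
  refine ⟨fun X => (fieldIdx s X).card, F, hF, hN, hsys, tendsto_fieldIdx hs, ?_⟩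
  obtain ⟨C, hC⟩ := sum_bound hs
  set u : ℝ := if s = 1 then 3 else 1
  have hu : 0 < u := by simp only [u]; split_ifs <;> norm_num
  set A : ℝ → ℝ := fun X => ∑ i, (letI := hF X i; letI := hN X i; (cl3Card (F X i) : ℝ))
  set m : ℝ := if s = 1 then 4 / 3 else 2
  have hkey : Tendsto (fun X => A X / X) atTop (𝓝 (m * (3 / π ^ 2))) := by
    have h1 := (tendsto_fundForms (formSign s)).comp
      (tendsto_id.const_mul_atTop (by norm_num : (0 : ℝ) < 27) : Tendsto (fun X : ℝ => 27 * X) _ _)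
    have hmain : Tendsto (fun X : ℝ =>
        (2 * ((classes (formSign s) fundForms (27 * X)).ncard : ℝ) + (fieldIdx s X).card) / X)
        atTop (𝓝 (54 * (4 / π ^ 4 * mainConst (formSign s)) + 3 / π ^ 2)) := by
      refine ((h1.const_mul 54).add (tendsto_fieldIdx hs)).congr' ?_
      filter_upwards [eventually_gt_atTop (0 : ℝ)] with X hX
      simp only [Function.comp_apply]
      field_simp
      ring
    have herr : Tendsto (fun X : ℝ => (u * A X -
        (2 * ((classes (formSign s) fundForms (27 * X)).ncard : ℝ) + (fieldIdx s X).card)) / X)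
        atTop (𝓝 0) := by
      refine squeeze_zero_norm' ?_ ((tendsto_const_nhds (x := C)).div_atTop tendsto_id)
      filter_upwards [eventually_gt_atTop (0 : ℝ)] with X hX
      rw [Real.norm_eq_abs, abs_div, abs_of_pos hX]
      exact div_le_div_of_nonneg_right (hC X (F X) (hF X) (hN X) (φ X) (hφ X)) hX.le
    have h := (hmain.add herr).div_const u
    rw [add_zero] at h
    have hval : (54 * (4 / π ^ 4 * mainConst (formSign s)) + 3 / π ^ 2) / u = m * (3 / π ^ 2) := by
      rcases hs with rfl | rfl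
      · rw [show formSign 1 = false by decide, mainConst_false]
        simp only [u, m, if_true]
        field_simp
        ring
      · rw [show formSign (-1) = true by decide, mainConst_true]
        simp only [u, m]
        norm_num
        field_simp
        ring
    rw [hval] at h
    refine h.congr fun X => ?_
    field_simp
    ring
  have hn := tendsto_fieldIdx hs
  have hmean : Tendsto (fun X => A X / ((fieldIdx s X).card : ℝ)) atTop (𝓝 m) := by
    have h := hkey.div hn (by positivity)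
    rw [mul_div_assoc, div_self (by positivity), mul_one] at h
    refine h.congr' ?_
    filter_upwards [eventually_gt_atTop (0 : ℝ)] with X hX
    exact div_div_div_cancel_right₀ hX.ne' _ _
  refine ⟨hmean, fun η hη => ?_⟩
  filter_upwards [hmean.eventually_le_const (show m < m + 2 * η by linarith),
    hn.eventually_const_lt (show (0 : ℝ) < 3 / π ^ 2 by positivity)] with X hX hX0
  have hpos : (0 : ℝ) < (fieldIdx s X).card := by
    rcases Nat.eq_zero_or_pos (fieldIdx s X).card with h | h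
    · rw [h] at hX0; simp at hX0
    · exact_mod_cast h
  rw [div_le_iff₀ hpos] at hX
  set p : Fin (fieldIdx s X).card → Prop := fun i =>
    letI := hF X i; letI := hN X i; classNumber (F X i) % 3 ≠ 0
  have hle : ∀ i, (3 : ℝ) - 2 * (if p i then 1 else 0) ≤
      (letI := hF X i; letI := hN X i; (cl3Card (F X i) : ℝ)) := by
    intro i
    letI := hF X i; letI := hN X i
    have h := one_le_cl3 (F X i)
    by_cases hp : p i
    · rw [if_pos hp]
      norm_num
      omega
    · rw [if_pos (not_not.mp hp)] at h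
      rw [if_neg hp]
      norm_num
      omega
  have hsum := Finset.sum_le_sum fun i (_ : i ∈ Finset.univ) => hle i
  rw [Finset.sum_sub_distrib, ← Finset.mul_sum, Finset.sum_boole, Finset.sum_const,
    Finset.card_univ, Fintype.card_fin, nsmul_eq_mul] at hsum
  show _ ≤ ((Finset.univ.filter p).card : ℝ)
  nlinarith

end FA.ThreeTorsion
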