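import Fermat.Agent.ThreeTorsion.Pairs
import Mathlib.NumberTheory.NumberField.ClassNumber
import Mathlib.NumberTheory.NumberField.Units.DirichletTheorem
import Mathlib.NumberTheory.NumberField.Discriminant.Basic
import Mathlib.LinearAlgebra.Matrix.Trace
import Mathlib.RingTheory.Trace.Basic

/-!
# Counting classes of triple forms

For a quadratic field of discriminant `D ≠ -3` the classes under `GL₂ (ℤ)` of forms
`(a, 3b, 3c, d)` of discriminant `-27 D` without rational zero number `(u h₃ - 1) / 2`, with `h₃`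
the number of classes killed by `3` and `u` the number of units modulo cubes, which is `1` for
`D < 0` and `3` for `D > 0`.
-/

set_option autoImplicit false

noncomputable section

open FA.Thue FA.DeloneFaddeev FA.CubicFormCount Module NumberField
open scoped nonZeroDivisors Classical

namespace FA.ThreeTorsion

variable (K : Type) [Field K] [NumberField K]

/-- The number of ideal classes killed by `3`. -/
def cl3Card : ℕ := Nat.card {c : ClassGroup (𝓞 K) // c ^ 3 = 1}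

/-- The classes of forms of reduced discriminant `D` without rational zero. -/
def triClasses (D : ℤ) : Set (Set CubicForm) :=
  {c | ∃ g, redDisc g = D ∧ (tri g).Anisotropic ∧ c = classSet (tri g)}

theorem cube_witness {G : Type} [CommGroup G] {a b v : G} (h : a ^ 4 = v ^ 3 * b ^ 4) :
    (a * b⁻¹ * v⁻¹) ^ 3 = a⁻¹ * b := by
  have h1 := congrArg Additive.ofMul h
  apply Additive.ofMul.injective
  simp only [ofMul_mul, ofMul_pow, ofMul_inv] at h1 ⊢
  rw [← sub_eq_zero] at h1 ⊢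
  rw [← h1]
  abel

/-- The units modulo cubes. -/
abbrev UnitCubes := (𝓞 K)ˣ ⧸ (powMonoidHom 3 : (𝓞 K)ˣ →* (𝓞 K)ˣ).range

namespace QData

variable {K} (Q : QData (𝓞 K))

theorem disc_eq_discr : Q.disc = NumberField.discr K := by
  have tr : ∀ x : 𝓞 K, Algebra.trace ℤ (𝓞 K) x = 2 * Q.rc x + Q.t * Q.oc x := by
    intro x
    rw [Algebra.trace_eq_matrix_trace Q.b, Matrix.trace, Fin.sum_univ_two]
    simp only [Matrix.diag, Algebra.leftMulMatrix_eq_repr_mul, Q.h0, mul_one]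
    change Q.rc x + Q.oc (x * Q.omega) = _
    rw [(Q.mul_coeff x Q.omega).2, Q.rc_omega, Q.oc_omega]
    ring
  rw [← NumberField.discr_eq_discr K Q.b, Algebra.discr_def, Matrix.det_fin_two]
  simp only [Algebra.traceMatrix_apply, Algebra.traceForm_apply, tr, Q.h0, one_mul, mul_one,
    show Q.b 1 = Q.omega from rfl]
  rw [show Q.rc (1 : 𝓞 K) = 1 by simpa using Q.rc_intCast 1, Q.oc_one, Q.rc_omega, Q.oc_omega,
    show Q.rc (Q.omega * Q.omega) = Q.n from rfl, show Q.oc (Q.omega * Q.omega) = Q.t from rfl,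
    disc]
  ring

omit [NumberField K] in
theorem not_isSquare_disc : ¬ IsSquare Q.disc := by
  rintro ⟨m, hm⟩
  have h : (Q.sqrtD - (m : 𝓞 K)) * (Q.sqrtD + (m : 𝓞 K)) = 0 := by
    have := Q.sqrtD_sq
    rw [hm] at this
    push_cast at this
    linear_combination this
  rcases mul_eq_zero.mp h with h | h
  · have e : Q.sqrtD - (m : 𝓞 K) = ((-Q.t - m : ℤ) : 𝓞 K) + ((2 : ℤ) : 𝓞 K) * Q.omega := by
      rw [sqrtD]; push_cast; ring
    have := (Q.coeff_of_eq e).2
    rw [h, Q.oc_zero] at this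
    omega
  · have e : Q.sqrtD + (m : 𝓞 K) = ((-Q.t + m : ℤ) : 𝓞 K) + ((2 : ℤ) : 𝓞 K) * Q.omega := by
      rw [sqrtD]; push_cast; ring
    have := (Q.coeff_of_eq e).2
    rw [h, Q.oc_zero] at this
    omega

omit [NumberField K] in
theorem nrm_sqrtD : Q.nrm Q.sqrtD = -Q.disc := by
  have e : Q.sqrtD = ((-Q.t : ℤ) : 𝓞 K) + ((2 : ℤ) : 𝓞 K) * Q.omega := by
    rw [sqrtD]; push_cast; ring
  obtain ⟨h1, h2⟩ := Q.coeff_of_eq e
  rw [nrm, h1, h2, disc]
  ring

theorem exists_pair_of_class {c : ClassGroup (𝓞 K)} (hc : c ^ 3 = 1) :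
    ∃ z, Q.IsPair z ∧ ∃ h : z.1 ∈ (Ideal (𝓞 K))⁰, ClassGroup.mk0 ⟨z.1, h⟩ = c := by
  obtain ⟨⟨I, hI⟩, rfl⟩ := ClassGroup.mk0_surjective c
  rw [← map_pow, SubmonoidClass.mk_pow, ClassGroup.mk0_eq_one_iff] at hc
  obtain ⟨⟨δ, hδ⟩⟩ := hc
  rw [Ideal.submodule_span_eq] at hδ
  have hI0 := mem_nonZeroDivisors_iff_ne_zero.mp hI
  have hδ0 : δ ≠ 0 := fun h => pow_ne_zero 3 hI0 (by rw [hδ, h]; simp)
  rcases lt_or_gt_of_ne (Q.nrm_ne_zero hδ0) with hneg | hpos
  · have hD : 0 < Q.disc := by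
      have := Q.four_mul_nrm δ
      by_contra hc
      nlinarith [sq_nonneg (2 * Q.rc δ + Q.t * Q.oc δ), sq_nonneg (Q.oc δ)]
    have hw : Q.sqrtD ≠ 0 := fun h => by
      have := Q.nrm_sqrtD
      rw [h] at this
      have h0 : Q.nrm (0 : 𝓞 K) = 0 := by simpa using Q.nrm_intCast 0
      omega
    have hmem : Ideal.span {Q.sqrtD} * I ∈ (Ideal (𝓞 K))⁰ :=
      mem_nonZeroDivisors_of_ne_zero (mul_ne_zero (by simpa using hw) hI0)
    refine ⟨(Ideal.span {Q.sqrtD} * I, Q.sqrtD ^ 3 * δ),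
      ⟨mul_ne_zero (pow_ne_zero _ hw) hδ0, ?_, ?_⟩, hmem, ?_⟩
    · rw [mul_pow, hδ, Ideal.span_singleton_pow, Ideal.span_singleton_mul_span_singleton]
    · show 0 < Q.nrm (Q.sqrtD ^ 3 * δ)
      rw [Q.nrm_mul, Q.nrm_pow, Q.nrm_sqrtD]
      exact mul_pos_of_neg_of_neg (Odd.pow_neg (by decide) (by omega)) hneg
    · exact ClassGroup.mk0_eq_mk0_iff.mpr ⟨1, Q.sqrtD, one_ne_zero, hw, by simp⟩
  · exact ⟨(I, δ), ⟨hδ0, hδ, hpos⟩, hI, rfl⟩

/-- The pairs. -/
abbrev Pr := {z : Ideal (𝓞 K) × 𝓞 K // Q.IsPair z}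

/-- Equivalence of pairs. -/
def prSetoid : Setoid Q.Pr where
  r y z := PairRel y.1 z.1
  iseqv := ⟨fun y => pairRel_refl y.1, pairRel_symm, pairRel_trans⟩

omit [NumberField K] in
theorem pr_ne {z : Ideal (𝓞 K) × 𝓞 K} (hz : Q.IsPair z) : z.1 ∈ (Ideal (𝓞 K))⁰ :=
  mem_nonZeroDivisors_of_ne_zero fun h => hz.1 (by
    have := hz.2.1
    rw [h, zero_pow three_ne_zero] at this
    exact Ideal.span_singleton_eq_bot.mp this.symm)

theorem isPair_unit {z : Ideal (𝓞 K) × 𝓞 K} (hz : Q.IsPair z) (u : (𝓞 K)ˣ) :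
    Q.IsPair (z.1, (u : 𝓞 K) ^ 4 * z.2) := by
  refine ⟨mul_ne_zero (pow_ne_zero _ u.ne_zero) hz.1, ?_, ?_⟩
  · show z.1 ^ 3 = _
    rw [hz.2.1, Ideal.span_singleton_mul_left_unit (u.isUnit.pow 4)]
  · show 0 < Q.nrm ((u : 𝓞 K) ^ 4 * z.2)
    rw [Q.nrm_mul, Q.nrm_pow]
    exact mul_pos (Even.pow_pos (by decide) (Q.nrm_ne_zero u.ne_zero)) hz.2.2

theorem card_pairs :
    Nat.card (Quotient Q.prSetoid) = cl3Card K * Nat.card (UnitCubes K) := by
  choose z hz hmem hcl using fun c : {c : ClassGroup (𝓞 K) // c ^ 3 = 1} =>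
    Q.exists_pair_of_class c.2
  set Φ : {c : ClassGroup (𝓞 K) // c ^ 3 = 1} × UnitCubes K → Quotient Q.prSetoid :=
    fun x => Quotient.mk _ ⟨_, Q.isPair_unit (hz x.1) x.2.out⟩
  rw [cl3Card, ← Nat.card_prod]
  symm
  refine Nat.card_eq_of_bijective Φ ⟨?_, ?_⟩
  · rintro ⟨c, u⟩ ⟨c', u'⟩ he
    obtain ⟨κ, μ, hκ, hμ, hI, hδ⟩ := Quotient.exact he
    simp only at hI hδ
    have hc : c = c' := Subtype.ext (by
      rw [← hcl c, ← hcl c']
      exact ClassGroup.mk0_eq_mk0_iff.mpr ⟨μ, κ, hμ, hκ, hI⟩)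
    subst hc
    have hI' : Ideal.span {μ} = Ideal.span {κ} :=
      mul_right_cancel₀ (mem_nonZeroDivisors_iff_ne_zero.mp (hmem c)) hI
    obtain ⟨v, hv⟩ := Ideal.span_singleton_eq_span_singleton.mp hI'
    have e : (u.out : 𝓞 K) ^ 4 = (v : 𝓞 K) ^ 3 * (u'.out : 𝓞 K) ^ 4 := by
      refine mul_left_cancel₀ (mul_ne_zero (pow_ne_zero 3 hμ) (hz c).1) ?_
      rw [← hv] at hδ
      linear_combination hδ
    have e' : u.out ^ 4 = v ^ 3 * u'.out ^ 4 := Units.ext (by push_cast; exact e)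
    have : u = u' := by
      rw [← QuotientGroup.out_eq' u, ← QuotientGroup.out_eq' u', QuotientGroup.eq,
        MonoidHom.mem_range]
      exact ⟨u.out * u'.out⁻¹ * v⁻¹, cube_witness e'⟩
    rw [this]
  · intro q
    induction q using Quotient.inductionOn with
    | _ y =>
      obtain ⟨⟨J, ε⟩, hy⟩ := y
      have hJ := Q.pr_ne hy
      have hc3 : ClassGroup.mk0 ⟨J, hJ⟩ ^ 3 = 1 := by
        rw [← map_pow, SubmonoidClass.mk_pow, ClassGroup.mk0_eq_one_iff]
        exact ⟨⟨ε, hy.2.1⟩⟩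
      set c : {c : ClassGroup (𝓞 K) // c ^ 3 = 1} := ⟨_, hc3⟩
      obtain ⟨μ, κ, hμ, hκ, hI⟩ := ClassGroup.mk0_eq_mk0_iff.mp (hcl c)
      have hass : Ideal.span {μ ^ 3 * (z c).2} = Ideal.span {κ ^ 3 * ε} := by
        simp only [← Ideal.span_singleton_mul_span_singleton, ← Ideal.span_singleton_pow,
          ← (hz c).2.1, ← hy.2.1, ← mul_pow]
        exact congrArg (· ^ 3) hI
      obtain ⟨u, hu⟩ := Ideal.span_singleton_eq_span_singleton.mp hass
      obtain ⟨⟨_, s, rfl⟩, hs⟩ := QuotientGroup.mk_out_eq_mul (powMonoidHom 3).range u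
      refine ⟨(c, (u : UnitCubes K)), Quotient.sound ⟨κ, μ * ((u * s ^ 4)⁻¹ : (𝓞 K)ˣ), hκ,
        mul_ne_zero hμ (Units.ne_zero _), ?_, ?_⟩⟩
      · show Ideal.span {μ * (((u * s ^ 4)⁻¹ : (𝓞 K)ˣ) : 𝓞 K)} * (z c).1 = _
        rw [Ideal.span_singleton_mul_right_unit (Units.isUnit _)]
        exact hI
      · show (μ * (((u * s ^ 4)⁻¹ : (𝓞 K)ˣ) : 𝓞 K)) ^ 3 *
          ((((u : UnitCubes K).out : (𝓞 K)ˣ) : 𝓞 K) ^ 4 * (z c).2) = κ ^ 3 * ε
        rw [hs, ← hu]
        have e : ((u * s ^ 4)⁻¹) ^ 3 * (u * (powMonoidHom 3) s) ^ 4 = u := by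
          rw [powMonoidHom_apply, inv_pow, inv_mul_eq_iff_eq_mul, mul_pow, mul_pow, ← pow_mul,
            ← pow_mul, mul_right_comm, ← pow_succ]
        have e' := congrArg (fun x : (𝓞 K)ˣ => (x : 𝓞 K)) e
        push_cast at e' ⊢
        linear_combination μ ^ 3 * (z c).2 * e'

theorem two_mul_card_triClasses :
    2 * (triClasses Q.disc).ncard + 1 = cl3Card K * Nat.card (UnitCubes K) ∨
      Nat.card (UnitCubes K) = 0 := by
  by_cases hU : Nat.card (UnitCubes K) = 0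
  · exact Or.inr hU
  refine Or.inl ?_
  have hsq := Q.not_isSquare_disc
  have hfin : Finite (Quotient Q.prSetoid) := Nat.finite_of_card_ne_zero (by
    rw [Q.card_pairs]
    have : Nonempty {c : ClassGroup (𝓞 K) // c ^ 3 = 1} := ⟨⟨1, one_pow 3⟩⟩
    exact mul_ne_zero Nat.card_pos.ne' hU)
  letI := Fintype.ofFinite (Quotient Q.prSetoid)
  rw [← Q.card_pairs, Nat.card_eq_fintype_card]
  have htop : Q.IsPair ((⊤ : Ideal (𝓞 K)), (1 : 𝓞 K)) :=
    ⟨one_ne_zero, by simp [Ideal.span_singleton_one, ← Ideal.one_eq_top],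
      by rw [show Q.nrm (1 : 𝓞 K) = 1 by simpa using Q.nrm_intCast 1]; exact one_pos⟩
  set o : Quotient Q.prSetoid := Quotient.mk _ ⟨_, htop⟩
  choose f hf hrel using fun x : Quotient Q.prSetoid => Q.psi_surj hsq x.out.2
  have hanis : ∀ x, (tri (f x)).Anisotropic ↔ x ≠ o := by
    intro x
    rw [← not_iff_not, ← Q.trivial_iff hsq (hf x), not_not]
    constructor
    · intro h
      rw [← Quotient.out_eq x]
      exact Quotient.sound (pairRel_trans (hrel x) h)
    · intro h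
      exact pairRel_trans (pairRel_symm (hrel x)) (@Quotient.exact _ Q.prSetoid x.out ⟨_, htop⟩
        (by rw [Quotient.out_eq, h]))
  set π : ∀ g, redDisc g = Q.disc → Quotient Q.prSetoid := fun g h =>
    Quotient.mk _ ⟨_, Q.isPair_psi hsq h⟩
  have hπ : ∀ x, π (f x) (hf x) = x := fun x => by
    conv_rhs => rw [← Quotient.out_eq x]
    exact Quotient.sound (pairRel_symm (hrel x))
  have hmir : ∀ g (h : redDisc g = Q.disc), redDisc (mirror g) = Q.disc :=
    fun g h => (redDisc_mirror g).trans h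
  have hanisM : ∀ g, (tri g).Anisotropic → (tri (mirror g)).Anisotropic := fun g h =>
    twisted_anisotropic (twisted_mirror g) h
  have hset : triClasses Q.disc = ((Finset.univ.erase o).image fun x => classSet (tri (f x)) :
      Finset (Set CubicForm)) := by
    ext C
    simp only [Finset.coe_image, Set.mem_image, Finset.mem_coe, Finset.mem_erase, ne_eq,
      Finset.mem_univ, and_true, triClasses, Set.mem_ofPred_eq]
    constructor
    · rintro ⟨g, hg, hA, rfl⟩
      have e := Q.psi_inj hsq hg (hf (π g hg)) (Quotient.exact (hπ (π g hg)).symm :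
        PairRel (Q.psi g) (Q.psi (f (π g hg))))
      exact ⟨π g hg, (hanis _).mp (twisted_anisotropic (twisted_of_triEquiv e) hA),
        (classSet_eq (twisted_of_triEquiv e)).symm⟩
    · rintro ⟨x, hx, rfl⟩
      exact ⟨f x, hf x, (hanis x).mpr hx, rfl⟩
  rw [hset, Set.ncard_coe_finset]
  have hfib : ∀ C ∈ (Finset.univ.erase o).image (fun x => classSet (tri (f x))),
      ((Finset.univ.erase o).filter fun x => classSet (tri (f x)) = C).card = 2 := by
    intro C hC
    obtain ⟨x, hx, rfl⟩ := Finset.mem_image.mp hC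
    have hxo : x ≠ o := (Finset.mem_erase.mp hx).1
    have hA := (hanis x).mpr hxo
    set y := π (mirror (f x)) (hmir _ (hf x))
    have hyf : TriEquiv (mirror (f x)) (f y) := Q.psi_inj hsq (hmir _ (hf x)) (hf y)
      (Quotient.exact (hπ y).symm : PairRel (Q.psi (mirror (f x))) (Q.psi (f y)))
    have hyx : y ≠ x := fun h => by
      have hm : PairRel (Q.psi (mirror (f x))) (Q.psi (f x)) :=
        (Quotient.exact (h.trans (hπ x).symm) :
          PairRel (Q.psi (mirror (f x))) (Q.psi (f x)))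
      exact (Q.trivial_iff hsq (hf x)).mp (Q.mirror_trivial hsq (hf x) (pairRel_symm hm)) hA
    rw [Finset.card_eq_two]
    refine ⟨x, y, hyx.symm, ?_⟩
    ext z
    simp only [Finset.mem_filter, Finset.mem_erase, ne_eq, Finset.mem_univ, and_true,
      Finset.mem_insert, Finset.mem_singleton]
    constructor
    · rintro ⟨-, hC'⟩
      obtain ⟨g', hg', he⟩ := twisted_tri (twisted_of_classSet hC'.symm)
      obtain rfl := tri_injective hg'
      rcases he with he | he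
      · left
        rw [← hπ z, ← hπ x]
        exact Quotient.sound (pairRel_symm (Q.psi_move hsq (hf x) he))
      · right
        rw [← hπ z]
        exact Quotient.sound (pairRel_symm (Q.psi_move hsq (hmir _ (hf x)) he))
    · rintro (rfl | rfl)
      · exact ⟨hxo, rfl⟩
      · refine ⟨(hanis y).mp (twisted_anisotropic (twisted_of_triEquiv hyf) (hanisM _ hA)), ?_⟩
        exact (classSet_eq (twisted_trans (twisted_mirror _) (twisted_of_triEquiv hyf))).symm
  have hsum := Finset.card_eq_sum_card_image (fun x => classSet (tri (f x))) (Finset.univ.erase o)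
  rw [Finset.sum_const_nat hfib] at hsum
  rw [mul_comm, ← hsum, Finset.card_erase_of_mem (Finset.mem_univ o), Finset.card_univ]
  have : 0 < Fintype.card (Quotient Q.prSetoid) := Fintype.card_pos_iff.mpr ⟨o⟩
  omega

omit [NumberField K] in
theorem cube_torsion (hD : Q.disc ≠ -3) {ζ : (𝓞 K)ˣ} (hζ : IsOfFinOrder ζ) :
    ∃ v, v ^ 3 = ζ := by
  have h3 : ∀ v : (𝓞 K)ˣ, v ^ 3 = 1 → v = 1 := by
    intro v hv
    by_contra h1
    have e : ((v : 𝓞 K)) ^ 3 = 1 := by simpa using congrArg (fun x : (𝓞 K)ˣ => (x : 𝓞 K)) hv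
    have h2 : (v : 𝓞 K) * v + v + 1 = 0 :=
      (mul_eq_zero.mp (by linear_combination e : ((v : 𝓞 K) - 1) *
        ((v : 𝓞 K) * v + v + 1) = 0)).resolve_left (sub_ne_zero.mpr fun h => h1 (Units.ext h))
    set r := Q.rc (v : 𝓞 K)
    set o := Q.oc (v : 𝓞 K)
    have hz : (v : 𝓞 K) * v + v + 1 =
        ((r * r + Q.n * (o * o) + r + 1 : ℤ) : 𝓞 K) +
          ((r * o + o * r + Q.t * (o * o) + o : ℤ) : 𝓞 K) * Q.omega := by
      conv_lhs => rw [Q.expand (v : 𝓞 K)]
      push_cast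
      linear_combination (o : 𝓞 K) ^ 2 * Q.omega_sq
    obtain ⟨ha, hb⟩ := Q.coeff_of_eq hz
    rw [h2, Q.oc_zero] at hb
    rw [h2, show Q.rc (0 : 𝓞 K) = 0 by simpa using Q.rc_intCast 0] at ha
    rcases mul_eq_zero.mp (by linarith [hb] : o * (2 * r + Q.t * o + 1) = 0) with ho | ho
    · rw [ho] at ha
      nlinarith [sq_nonneg (2 * r + 1)]
    · have hk : Q.disc * o ^ 2 = -3 := by
        rw [disc]; linear_combination (Q.t * o - 2 * r - 1) * ho - 4 * ha
      have ho1 : o ^ 2 = 1 := by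
        have hd : (o ^ 2) ∣ 3 := ⟨-Q.disc, by linarith⟩
        have hle := Int.le_of_dvd (by norm_num) hd
        have h0 : o ≠ 0 := fun h => by simp [h] at hk
        have hb1 : -1 ≤ o ∧ o ≤ 1 := by constructor <;> nlinarith
        rcases (show o = -1 ∨ o = 1 by omega) with h | h <;> simp [h]
      rw [ho1, mul_one] at hk
      exact hD hk
  have hco : Nat.Coprime (orderOf ζ) 3 := by
    rw [Nat.coprime_comm, Nat.Prime.coprime_iff_not_dvd Nat.prime_three]
    rintro ⟨m, hm⟩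
    have hpos := hζ.orderOf_pos
    have := h3 (ζ ^ m) (by rw [← pow_mul, mul_comm, ← hm, pow_orderOf_eq_one])
    have hle := Nat.le_of_dvd (by omega) (orderOf_dvd_of_pow_eq_one this)
    omega
  obtain ⟨m, hm⟩ := exists_pow_eq_self_of_coprime hco.symm
  exact ⟨ζ ^ m, by rw [← pow_mul, mul_comm, pow_mul, hm]⟩

theorem rank_eq (hK : finrank ℚ K = 2) :
    Units.rank K = if 0 < Q.disc then 1 else 0 := by
  have h1 := InfinitePlace.card_add_two_mul_card_eq_rank K
  have h2 := InfinitePlace.card_eq_nrRealPlaces_add_nrComplexPlaces K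
  have h3 := NumberField.sign_discr K
  rw [hK] at h1
  have hne : Q.disc ≠ 0 := fun h => Q.not_isSquare_disc (by rw [h]; exact ⟨0, rfl⟩)
  rw [← Q.disc_eq_discr] at h3
  rw [Units.rank, h2]
  have hc : InfinitePlace.nrComplexPlaces K = 0 ∨ InfinitePlace.nrComplexPlaces K = 1 := by omega
  rcases hc with hc | hc <;> rw [hc] at h1 h3 ⊢
  · rw [pow_zero, Int.sign_eq_one_iff_pos] at h3
    rw [if_pos h3]
    omega
  · rw [pow_one, Int.sign_eq_neg_one_iff_neg] at h3
    rw [if_neg (by omega)]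
    omega

theorem card_unitCubes (hK : finrank ℚ K = 2) (hD : Q.disc ≠ -3) :
    Nat.card (UnitCubes K) = if 0 < Q.disc then 3 else 1 := by
  have hr := Q.rank_eq hK
  have htor : ∀ ζ : Units.torsion K, ∃ v : (𝓞 K)ˣ, v ^ 3 = (ζ : (𝓞 K)ˣ) := fun ζ =>
    Q.cube_torsion hD ((CommGroup.mem_torsion _).mp ζ.2)
  suffices Nat.card (UnitCubes K) = 3 ^ Units.rank K by
    rw [this, hr]; split_ifs <;> simp
  set S := (powMonoidHom 3 : (𝓞 K)ˣ →* (𝓞 K)ˣ).range
  set P : (Fin (Units.rank K) → ℤ) → (𝓞 K)ˣ := fun e => ∏ i, Units.fundSystem K i ^ e i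
  have hPadd : ∀ e e', P (e + e') = P e * P e' := fun e e' => by
    simp only [P, Pi.add_apply, zpow_add, Finset.prod_mul_distrib]
  have hP3 : ∀ e, P (fun i => 3 * e i) = P e ^ 3 := fun e => by
    rw [← zpow_natCast (P e) 3]
    simp only [P, ← Finset.prod_zpow, ← zpow_mul]
    exact Finset.prod_congr rfl fun i _ => by rw [mul_comm]; rfl
  set F : (Fin (Units.rank K) → Fin 3) → UnitCubes K :=
    fun k => QuotientGroup.mk (P fun i => ((k i : ℕ) : ℤ))
  rw [← Nat.card_eq_of_bijective F ⟨?_, ?_⟩, Nat.card_fun, Nat.card_fin, Nat.card_fin]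
  · intro k k' h
    obtain ⟨v, hv⟩ := QuotientGroup.eq.mp h
    obtain ⟨⟨ζ, e⟩, hve, -⟩ := Units.exist_unique_eq_mul_prod K v
    rw [powMonoidHom_apply, hve] at hv
    simp only at hv
    have huniq := Units.exist_unique_eq_mul_prod K (P fun i => ((k' i : ℕ) : ℤ))
    have h1 : P (fun i => ((k' i : ℕ) : ℤ)) =
        ((1 : Units.torsion K) : (𝓞 K)ˣ) * P (fun i => ((k' i : ℕ) : ℤ)) := by simp
    have h2 : P (fun i => ((k' i : ℕ) : ℤ)) =
        ((ζ ^ 3 : Units.torsion K) : (𝓞 K)ˣ) * P (fun i => ((k i : ℕ) : ℤ) + 3 * e i) := by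
      rw [show (fun i => ((k i : ℕ) : ℤ) + 3 * e i) =
        (fun i => ((k i : ℕ) : ℤ)) + fun i => 3 * e i from rfl, hPadd, hP3, SubgroupClass.coe_pow,
        mul_left_comm, ← mul_pow]
      exact (eq_inv_mul_iff_mul_eq.mp hv).symm
    have := huniq.unique (y₁ := (1, fun i => ((k' i : ℕ) : ℤ)))
      (y₂ := (ζ ^ 3, fun i => ((k i : ℕ) : ℤ) + 3 * e i)) h1 h2
    funext i
    have hi := congrFun (congrArg Prod.snd this) i
    simp only at hi
    have := (k i).isLt
    have := (k' i).isLt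
    exact Fin.ext (by omega)
  · intro q
    obtain ⟨u, rfl⟩ := QuotientGroup.mk_surjective q
    obtain ⟨⟨ζ, e⟩, hu, -⟩ := Units.exist_unique_eq_mul_prod K u
    obtain ⟨v, hv⟩ := htor ζ
    refine ⟨fun i => ⟨(e i % 3).toNat, by omega⟩, ?_⟩
    refine QuotientGroup.eq.mpr ⟨v * P (fun i => e i / 3), ?_⟩
    rw [powMonoidHom_apply, eq_inv_mul_iff_mul_eq, mul_pow, hv, ← hP3, mul_left_comm, ← hPadd, hu]
    simp only
    congr 1
    refine congrArg P (funext fun i => ?_)
    simp only [Pi.add_apply]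
    omega

theorem class_count (hK : finrank ℚ K = 2) (hD : Q.disc ≠ -3) :
    2 * (triClasses Q.disc).ncard + 1 = (if 0 < Q.disc then 3 else 1) * cl3Card K := by
  have hu := Q.card_unitCubes hK hD
  rcases Q.two_mul_card_triClasses with h | h
  · rw [h, hu, mul_comm]
  · rw [hu] at h; split_ifs at h

end QData

end FA.ThreeTorsion
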