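import Fermat.Agent.DeloneFaddeev.Classify

/-!
# Binary cubic forms with middle coefficients divisible by three

`(a, b, c, d)` stands for the form `a X³ + 3 b X² Y + 3 c X Y² + d Y³`, whose discriminant is
`-27` times the reduced discriminant.
-/

set_option autoImplicit false

noncomputable section

open FA.Thue FA.DeloneFaddeev

namespace FA.ThreeTorsion

variable {R : Type*} [CommRing R]

/-- The reduced discriminant. -/
def rDisc (a b c d : R) : R :=
  -3 * b ^ 2 * c ^ 2 + 4 * a * c ^ 3 + 4 * b ^ 3 * d + a ^ 2 * d ^ 2 - 6 * a * b * c * d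

/-- The first coefficient of the cubic covariant. -/
def cov0 (a b c d : R) : R := 2 * b ^ 3 - 3 * a * b * c + a ^ 2 * d

/-- The second coefficient of the cubic covariant. -/
def cov1 (a b c d : R) : R := b ^ 2 * c - 2 * a * c ^ 2 + a * b * d

theorem cast_rDisc (a b c d : ℤ) :
    ((rDisc a b c d : ℤ) : R) = rDisc (a : R) (b : R) (c : R) (d : R) := by
  simp [rDisc]

theorem cast_cov0 (a b c d : ℤ) :
    ((cov0 a b c d : ℤ) : R) = cov0 (a : R) (b : R) (c : R) (d : R) := by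
  simp [cov0]

theorem cast_cov1 (a b c d : ℤ) :
    ((cov1 a b c d : ℤ) : R) = cov1 (a : R) (b : R) (c : R) (d : R) := by
  simp [cov1]

theorem rDisc_diff (A B α β γ ε : R) :
    rDisc (A * α ^ 3 - B * γ ^ 3) (A * (α ^ 2 * β) - B * (γ ^ 2 * ε))
      (A * (α * β ^ 2) - B * (γ * ε ^ 2)) (A * β ^ 3 - B * ε ^ 3) =
      (A * B) ^ 2 * (α * ε - β * γ) ^ 6 := by
  simp only [rDisc]; ring

theorem cov0_diff (A B α β γ ε : R) :
    cov0 (A * α ^ 3 - B * γ ^ 3) (A * (α ^ 2 * β) - B * (γ ^ 2 * ε))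
      (A * (α * β ^ 2) - B * (γ * ε ^ 2)) (A * β ^ 3 - B * ε ^ 3) =
      -(A * B) * (α * ε - β * γ) ^ 3 * (A * α ^ 3 + B * γ ^ 3) := by
  simp only [cov0]; ring

theorem cov1_diff (A B α β γ ε : R) :
    cov1 (A * α ^ 3 - B * γ ^ 3) (A * (α ^ 2 * β) - B * (γ ^ 2 * ε))
      (A * (α * β ^ 2) - B * (γ * ε ^ 2)) (A * β ^ 3 - B * ε ^ 3) =
      -(A * B) * (α * ε - β * γ) ^ 3 * (A * (α ^ 2 * β) + B * (γ ^ 2 * ε)) := by
  simp only [cov1]; ring

/-- The reduced discriminant of a triple form. -/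
def redDisc (g : CubicForm) : ℤ := rDisc g.a g.b g.c g.d

/-- The cubic form of a triple form. -/
def tri (g : CubicForm) : CubicForm := ⟨g.a, 3 * g.b, 3 * g.c, g.d⟩

theorem tri_injective : Function.Injective tri := fun g h e => by
  simp only [tri, CubicForm.mk.injEq] at e
  ext <;> linarith [e.1, e.2.1, e.2.2.1, e.2.2.2]

theorem disc_tri (g : CubicForm) : (tri g).disc = -27 * redDisc g := by
  simp only [tri, CubicForm.disc, redDisc, rDisc]; ring

/-- The Hessian coefficient `b² - a c`. -/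
def hessP (g : CubicForm) : ℤ := g.b ^ 2 - g.a * g.c

/-- The Hessian coefficient `a d - b c`. -/
def hessQ (g : CubicForm) : ℤ := g.a * g.d - g.b * g.c

/-- The Hessian coefficient `c² - b d`. -/
def hessR (g : CubicForm) : ℤ := g.c ^ 2 - g.b * g.d

theorem redDisc_eq_hess (g : CubicForm) :
    redDisc g = hessQ g ^ 2 - 4 * hessP g * hessR g := by
  simp only [redDisc, rDisc, hessP, hessQ, hessR]; ring

theorem hessP_ne_zero {g : CubicForm} (h : ¬ IsSquare (redDisc g)) : hessP g ≠ 0 :=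
  fun h0 => h ⟨hessQ g, by rw [redDisc_eq_hess, h0]; ring⟩

/-- The coefficients of the cubic covariant. -/
def cubCov (g : CubicForm) : CubicForm :=
  ⟨cov0 g.a g.b g.c g.d, cov1 g.a g.b g.c g.d, -cov1 g.d g.c g.b g.a, -cov0 g.d g.c g.b g.a⟩

/-- The mirror image. -/
def mirror (g : CubicForm) : CubicForm := ⟨g.a, -g.b, g.c, -g.d⟩

theorem redDisc_mirror (g : CubicForm) : redDisc (mirror g) = redDisc g := by
  simp only [redDisc, rDisc, mirror]; ring

theorem mirror_mirror (g : CubicForm) : mirror (mirror g) = g := by ext <;> simp [mirror]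

/-- The action of a matrix on triple forms. -/
def triMove (g : CubicForm) (p q r s : ℤ) : CubicForm where
  a := p ^ 3 * g.a + 3 * p ^ 2 * r * g.b + 3 * p * r ^ 2 * g.c + r ^ 3 * g.d
  b := p ^ 2 * q * g.a + (p ^ 2 * s + 2 * p * q * r) * g.b +
    (q * r ^ 2 + 2 * p * r * s) * g.c + r ^ 2 * s * g.d
  c := p * q ^ 2 * g.a + (q ^ 2 * r + 2 * p * q * s) * g.b +
    (p * s ^ 2 + 2 * q * r * s) * g.c + r * s ^ 2 * g.d
  d := q ^ 3 * g.a + 3 * q ^ 2 * s * g.b + 3 * q * s ^ 2 * g.c + s ^ 3 * g.d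

theorem tri_triMove (g : CubicForm) (p q r s : ℤ) :
    tri (triMove g p q r s) = (tri g).act p q r s := by
  ext <;> simp [tri, triMove, CubicForm.act, CubicForm.eval] <;> ring

theorem redDisc_triMove (g : CubicForm) (p q r s : ℤ) :
    redDisc (triMove g p q r s) = (p * s - q * r) ^ 6 * redDisc g := by
  have h := CubicForm.disc_act (tri g) p q r s
  rw [← tri_triMove, disc_tri, disc_tri] at h
  linarith

/-- Equivalence under `SL₂ (ℤ)`. -/
def TriEquiv (g h : CubicForm) : Prop :=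
  ∃ p q r s : ℤ, p * s - q * r = 1 ∧ h = triMove g p q r s

theorem twisted_tri {g : CubicForm} {f : CubicForm} (h : Twisted (tri g) f) :
    ∃ g', f = tri g' ∧ (TriEquiv g g' ∨ TriEquiv (mirror g) g') := by
  obtain ⟨M, hM, rfl⟩ := h
  rcases Int.isUnit_iff.mp hM with h1 | h1 <;> rw [Matrix.det_fin_two] at h1
  · refine ⟨triMove g (M 0 0) (M 0 1) (M 1 0) (M 1 1), ?_, Or.inl ⟨_, _, _, _, h1, rfl⟩⟩
    rw [tri_triMove, Matrix.det_fin_two, h1, scale_one]
    rfl
  · refine ⟨triMove (mirror g) (-M 0 0) (-M 0 1) (M 1 0) (M 1 1), ?_,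
      Or.inr ⟨_, _, _, _, by linarith, rfl⟩⟩
    rw [tri_triMove, Matrix.det_fin_two, h1]
    ext <;> simp [tri, mirror, actMat, scale, CubicForm.act, CubicForm.eval] <;> ring

theorem twisted_of_triEquiv {g h : CubicForm} (e : TriEquiv g h) : Twisted (tri g) (tri h) := by
  obtain ⟨p, q, r, s, h1, rfl⟩ := e
  refine ⟨!![p, q; r, s], ?_, ?_⟩
  · rw [Matrix.det_fin_two]; simp [h1]
  · rw [tri_triMove, Matrix.det_fin_two]
    simp [h1, scale_one, actMat]

theorem twisted_mirror (g : CubicForm) : Twisted (tri g) (tri (mirror g)) := by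
  refine ⟨!![-1, 0; 0, 1], ?_, ?_⟩
  · rw [Matrix.det_fin_two]; simp
  · ext <;> simp [tri, mirror, actMat, scale, CubicForm.act, CubicForm.eval, Matrix.det_fin_two]

end FA.ThreeTorsion
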