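import Fermat.Agent.ThreeTorsion.Ring
import Fermat.Agent.ThreeTorsion.Triple
import Mathlib.Tactic.LinearCombination

/-!
# Triple forms and their cubes

For a triple form `g` of reduced discriminant `D` the elements `q₀, …, q₃` of the quadratic ring
satisfy `q₀ q₂ = q₁²`, `q₁ q₃ = q₂²`, `q₀ q₃ = q₁ q₂`; conversely a pair `α, β` and `δ` dividing
all cubic monomials, with `N δ = det (α, β) ³`, gives back such a form.
-/

set_option autoImplicit false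

noncomputable section

open FA.Thue

namespace FA.ThreeTorsion

namespace QData

variable {O : Type} [CommRing O] (Q : QData O)

/-- The element with `2 x = e + f √D`. -/
def elemOf (e f : ℤ) : O := ((e - Q.t * f) / 2 : ℤ) + (f : O) * Q.omega

theorem two_mul_elemOf {e f : ℤ} (h : 2 ∣ e - Q.t * f) :
    2 * Q.elemOf e f = (e : O) + (f : O) * Q.sqrtD := by
  obtain ⟨k, hk⟩ := h
  rw [elemOf, hk, Int.mul_ediv_cancel_left _ two_ne_zero, sqrtD, show e = 2 * k + Q.t * f by omega]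
  push_cast
  ring

theorem oc_elemOf (e f : ℤ) : Q.oc (Q.elemOf e f) = f :=
  (Q.coeff_of_eq (rfl : Q.elemOf e f = _)).2

theorem rc_elemOf (e f : ℤ) : Q.rc (Q.elemOf e f) = (e - Q.t * f) / 2 :=
  (Q.coeff_of_eq (rfl : Q.elemOf e f = _)).1

theorem elemOf_self (x : O) : Q.elemOf (2 * Q.rc x + Q.t * Q.oc x) (Q.oc x) = x := by
  rw [elemOf, add_sub_cancel_right, Int.mul_ediv_cancel_left _ two_ne_zero]
  exact (Q.expand x).symm

theorem sub_conj (x : O) : x - Q.conj x = (Q.oc x : O) * Q.sqrtD := by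
  rw [conj_apply, sqrtD]
  conv_lhs => arg 1; rw [Q.expand x]
  push_cast
  ring

theorem add_conj (x : O) : x + Q.conj x = ((2 * Q.rc x + Q.t * Q.oc x : ℤ) : O) := by
  rw [conj_apply]
  conv_lhs => arg 1; rw [Q.expand x]
  push_cast
  ring

theorem four_mul_nrm (x : O) :
    4 * Q.nrm x = (2 * Q.rc x + Q.t * Q.oc x) ^ 2 - Q.disc * Q.oc x ^ 2 := by
  simp only [nrm, disc]; ring

variable (g : CubicForm)

/-- The element `q₀`. -/
def q0 : O := Q.elemOf (cubCov g).a g.a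

/-- The element `q₁`. -/
def q1 : O := Q.elemOf (cubCov g).b g.b

/-- The element `q₂`. -/
def q2 : O := Q.elemOf (cubCov g).c g.c

/-- The element `q₃`. -/
def q3 : O := Q.elemOf (cubCov g).d g.d

variable {g}

theorem parity (hD : redDisc g = Q.disc) :
    2 ∣ (cubCov g).a - Q.t * g.a ∧ 2 ∣ (cubCov g).b - Q.t * g.b ∧
      2 ∣ (cubCov g).c - Q.t * g.c ∧ 2 ∣ (cubCov g).d - Q.t * g.d ∧ 2 ∣ Q.t - hessQ g := by
  have h2 : ∀ x : ℤ, 2 ∣ x ↔ (x : ZMod 2) = 0 := fun x =>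
    (ZMod.intCast_zmod_eq_zero_iff_dvd x 2).symm
  have e : ∀ x : ZMod 2, x ^ 2 = x := by decide
  have h4 : ∀ x : ZMod 2, 4 * x = 0 := by decide
  have ht : (Q.t : ZMod 2) = (g.a : ZMod 2) * g.d - g.b * g.c := by
    have hc := congrArg (fun x : ℤ => (x : ZMod 2)) hD
    simp only [redDisc_eq_hess, disc, hessQ] at hc
    push_cast at hc
    rw [e, e, mul_assoc (4 : ZMod 2), h4, h4] at hc
    simpa using hc.symm
  simp only [h2, cubCov, cov0, cov1, hessQ]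
  push_cast
  simp only [ht]
  generalize (g.a : ZMod 2) = a
  generalize (g.b : ZMod 2) = b
  generalize (g.c : ZMod 2) = c
  generalize (g.d : ZMod 2) = d
  revert a b c d
  decide

theorem oc_q0 : Q.oc (Q.q0 g) = g.a := Q.oc_elemOf _ _

theorem oc_q1 : Q.oc (Q.q1 g) = g.b := Q.oc_elemOf _ _

theorem oc_q2 : Q.oc (Q.q2 g) = g.c := Q.oc_elemOf _ _

theorem oc_q3 : Q.oc (Q.q3 g) = g.d := Q.oc_elemOf _ _

section

variable (hD : redDisc g = Q.disc)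

include hD

theorem two_q0 : 2 * Q.q0 g = ((cubCov g).a : O) + (g.a : O) * Q.sqrtD :=
  Q.two_mul_elemOf (Q.parity hD).1

theorem two_q1 : 2 * Q.q1 g = ((cubCov g).b : O) + (g.b : O) * Q.sqrtD :=
  Q.two_mul_elemOf (Q.parity hD).2.1

theorem two_q2 : 2 * Q.q2 g = ((cubCov g).c : O) + (g.c : O) * Q.sqrtD :=
  Q.two_mul_elemOf (Q.parity hD).2.2.1

theorem two_q3 : 2 * Q.q3 g = ((cubCov g).d : O) + (g.d : O) * Q.sqrtD :=
  Q.two_mul_elemOf (Q.parity hD).2.2.2.1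

theorem sqrtD_sq' : Q.sqrtD * Q.sqrtD = rDisc (g.a : O) (g.b : O) (g.c : O) (g.d : O) := by
  rw [Q.sqrtD_sq, ← hD, redDisc, cast_rDisc]

theorem nrm_q0 : Q.nrm (Q.q0 g) = hessP g ^ 3 := by
  have h := Q.four_mul_nrm (Q.q0 g)
  obtain ⟨k, hk⟩ := (Q.parity hD).1
  rw [Q.oc_q0, show Q.rc (Q.q0 g) = _ from Q.rc_elemOf _ _, hk,
    Int.mul_ediv_cancel_left _ two_ne_zero, ← hk, ← hD] at h
  simp only [cubCov, cov0, redDisc, rDisc] at h
  simp only [hessP]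
  linarith

theorem det2_q01 : Q.det2 (Q.q0 g) (Q.q1 g) = hessP g ^ 2 := by
  obtain ⟨k, hk⟩ := (Q.parity hD).1
  obtain ⟨l, hl⟩ := (Q.parity hD).2.1
  rw [det2, Q.oc_q0, Q.oc_q1, show Q.rc (Q.q0 g) = _ from Q.rc_elemOf _ _,
    show Q.rc (Q.q1 g) = _ from Q.rc_elemOf _ _, hk, hl,
    Int.mul_ediv_cancel_left _ two_ne_zero, Int.mul_ediv_cancel_left _ two_ne_zero]
  simp only [cubCov, cov0, cov1] at hk hl
  simp only [hessP]
  refine mul_left_cancel₀ (two_ne_zero (α := ℤ)) ?_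
  linear_combination (-g.b) * hk + g.a * hl

omit hD in
theorem two_ne (Q : QData O) : (2 : O) ≠ 0 := by
  have := Q.charZero
  exact two_ne_zero

variable [IsDomain O]

theorem q0_q2 : Q.q0 g * Q.q2 g = Q.q1 g * Q.q1 g := by
  refine mul_left_cancel₀ (mul_ne_zero Q.two_ne Q.two_ne) ?_
  rw [mul_mul_mul_comm, mul_mul_mul_comm (2 : O) 2, Q.two_q0 hD, Q.two_q2 hD, Q.two_q1 hD]
  simp only [cubCov, Int.cast_neg, cast_cov0, cast_cov1]
  have h := Q.sqrtD_sq' hD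
  simp only [cov0, cov1, rDisc] at h ⊢
  linear_combination ((g.a : O) * g.c - (g.b : O) * g.b) * h

theorem q1_q3 : Q.q1 g * Q.q3 g = Q.q2 g * Q.q2 g := by
  refine mul_left_cancel₀ (mul_ne_zero Q.two_ne Q.two_ne) ?_
  rw [mul_mul_mul_comm, mul_mul_mul_comm (2 : O) 2, Q.two_q1 hD, Q.two_q2 hD, Q.two_q3 hD]
  simp only [cubCov, Int.cast_neg, cast_cov0, cast_cov1]
  have h := Q.sqrtD_sq' hD
  simp only [cov0, cov1, rDisc] at h ⊢
  linear_combination ((g.b : O) * g.d - (g.c : O) * g.c) * h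

theorem q0_q3 : Q.q0 g * Q.q3 g = Q.q1 g * Q.q2 g := by
  refine mul_left_cancel₀ (mul_ne_zero Q.two_ne Q.two_ne) ?_
  rw [mul_mul_mul_comm, mul_mul_mul_comm (2 : O) 2, Q.two_q0 hD, Q.two_q3 hD, Q.two_q1 hD,
    Q.two_q2 hD]
  simp only [cubCov, Int.cast_neg, cast_cov0, cast_cov1]
  have h := Q.sqrtD_sq' hD
  simp only [cov0, cov1, rDisc] at h ⊢
  linear_combination ((g.a : O) * g.d - (g.b : O) * g.c) * h

theorem omega_q0 :
    Q.omega * Q.q0 g = (((Q.t + hessQ g) / 2 : ℤ) : O) * Q.q0 g + (hessP g : O) * Q.q1 g := by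
  obtain ⟨k, hk⟩ := (Q.parity hD).2.2.2.2
  rw [show Q.t + hessQ g = 2 * (hessQ g + k) by omega, Int.mul_ediv_cancel_left _ two_ne_zero]
  refine mul_left_cancel₀ (mul_ne_zero Q.two_ne Q.two_ne) ?_
  have hk' := congrArg (fun x : ℤ => (x : O)) hk
  have hw : 2 * Q.omega = (Q.t : O) + Q.sqrtD := by rw [sqrtD]; ring
  have H0 := Q.two_q0 hD
  have H1 := Q.two_q1 hD
  simp only [cubCov, cast_cov0, cast_cov1, hessP, hessQ] at hk' H0 H1 ⊢
  push_cast at hk' ⊢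
  have h := Q.sqrtD_sq' hD
  simp only [cov0, cov1, rDisc] at h H0 H1 ⊢
  linear_combination (g.a : O) * h +
    (2 * (g.b : O) ^ 3 - 3 * g.a * g.b * g.c + g.a ^ 2 * g.d + g.a * Q.sqrtD) * hk' +
    2 * Q.q0 g * hw + ((Q.t : O) + Q.sqrtD - 2 * (g.a * g.d - g.b * g.c) - 2 * (k : O)) * H0 -
    2 * ((g.b : O) ^ 2 - g.a * g.c) * H1

theorem omega_q1 :
    Q.omega * Q.q1 g = ((-hessR g : ℤ) : O) * Q.q0 g +
      (((Q.t - hessQ g) / 2 : ℤ) : O) * Q.q1 g := by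
  obtain ⟨k, hk⟩ := (Q.parity hD).2.2.2.2
  rw [hk, Int.mul_ediv_cancel_left _ two_ne_zero]
  refine mul_left_cancel₀ (mul_ne_zero Q.two_ne Q.two_ne) ?_
  have hk' := congrArg (fun x : ℤ => (x : O)) hk
  have hw : 2 * Q.omega = (Q.t : O) + Q.sqrtD := by rw [sqrtD]; ring
  have H0 := Q.two_q0 hD
  have H1 := Q.two_q1 hD
  simp only [cubCov, cast_cov0, cast_cov1, hessR, hessQ] at hk' H0 H1 ⊢
  push_cast at hk' ⊢
  have h := Q.sqrtD_sq' hD
  simp only [cov0, cov1, rDisc] at h H0 H1 ⊢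
  linear_combination (g.b : O) * h +
    ((g.b : O) ^ 2 * g.c - 2 * g.a * g.c ^ 2 + g.a * g.b * g.d + g.b * Q.sqrtD) * hk' +
    2 * Q.q1 g * hw + ((Q.t : O) + Q.sqrtD - 2 * (k : O)) * H1 +
    2 * ((g.c : O) ^ 2 - g.b * g.d) * H0

theorem omega_mem_q0 : Q.omega * Q.q0 g ∈ pairSpan (Q.q0 g) (Q.q1 g) :=
  mem_pairSpan.mpr ⟨_, _, (Q.omega_q0 hD).symm⟩

theorem omega_mem_q1 : Q.omega * Q.q1 g ∈ pairSpan (Q.q0 g) (Q.q1 g) :=
  mem_pairSpan.mpr ⟨_, _, (Q.omega_q1 hD).symm⟩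

end

/-- The frame of a cube: `δ` times `x₀, …, x₃` are the monomials of `α, β`. -/
def Frame (α β δ : O) (x : Fin 4 → O) : Prop :=
  δ * x 0 = α ^ 3 ∧ δ * x 1 = α ^ 2 * β ∧ δ * x 2 = α * β ^ 2 ∧ δ * x 3 = β ^ 3 ∧
    Q.det2 α β ≠ 0 ∧ Q.nrm δ = Q.det2 α β ^ 3

/-- The triple form read off a frame. -/
def formOf (x : Fin 4 → O) : CubicForm := ⟨Q.oc (x 0), Q.oc (x 1), Q.oc (x 2), Q.oc (x 3)⟩

theorem frame_q (hD : redDisc g = Q.disc) [IsDomain O] (hP : hessP g ≠ 0) :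
    Q.Frame (Q.q0 g) (Q.q1 g) (Q.q0 g ^ 2) ![Q.q0 g, Q.q1 g, Q.q2 g, Q.q3 g] := by
  refine ⟨?_, ?_, ?_, ?_, by rw [Q.det2_q01 hD]; exact pow_ne_zero _ hP, ?_⟩
  · simp; ring
  · simp
  · show Q.q0 g ^ 2 * Q.q2 g = _
    linear_combination (Q.q0 g) * Q.q0_q2 hD
  · show Q.q0 g ^ 2 * Q.q3 g = _
    linear_combination (Q.q0 g) * Q.q0_q3 hD + (Q.q1 g) * Q.q0_q2 hD
  · rw [Q.nrm_pow, Q.nrm_q0 hD, Q.det2_q01 hD]; ring

theorem frame_eq [IsDomain O] (hsq : ¬ IsSquare Q.disc) {α β δ : O} {x : Fin 4 → O}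
    (h : Q.Frame α β δ x) :
    redDisc (Q.formOf x) = Q.disc ∧
      x = ![Q.q0 (Q.formOf x), Q.q1 (Q.formOf x), Q.q2 (Q.formOf x), Q.q3 (Q.formOf x)] := by
  have hc := Q.charZero
  obtain ⟨h0, h1, h2, h3, hd, hN⟩ := h
  set k := Q.det2 α β
  set γ := Q.conj α
  set ε := Q.conj β
  set δ' := Q.conj δ
  set w := Q.sqrtD
  have hdd : δ' * δ = (k : O) ^ 3 := by
    rw [mul_comm, ← Q.nrm_eq, hN]; push_cast; rfl
  have hs : α * ε - β * γ = -(k : O) * w := by rw [mul_comm β γ]; exact Q.cross_eq α β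
  have hw : w ^ 2 = (Q.disc : O) := by rw [pow_two]; exact Q.sqrtD_sq
  have hw0 : w ≠ 0 := fun h0 => hsq ⟨0, by
    have : (Q.disc : O) = ((0 : ℤ) : O) := by rw [← hw, h0]; simp
    simpa using Q.intCast_inj this⟩
  have hk : (k : O) ^ 3 ≠ 0 := pow_ne_zero _ (by exact_mod_cast hd)
  have key : ∀ (y m : O), δ * y = m →
      δ' * m - δ * Q.conj m = (k : O) ^ 3 * w * (Q.oc y : O) ∧
      δ' * m + δ * Q.conj m = (k : O) ^ 3 * ((2 * Q.rc y + Q.t * Q.oc y : ℤ) : O) := by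
    intro y m e
    rw [← e, map_mul, ← Q.add_conj y, mul_assoc _ w, mul_comm w, ← Q.sub_conj y, ← hdd]
    constructor <;> ring
  obtain ⟨f0, g0⟩ := key _ _ h0
  obtain ⟨f1, g1⟩ := key _ _ h1
  obtain ⟨f2, g2⟩ := key _ _ h2
  obtain ⟨f3, g3⟩ := key _ _ h3
  simp only [map_pow, map_mul] at f0 f1 f2 f3 g0 g1 g2 g3
  set u := (k : O) ^ 3 * w
  set E : Fin 4 → ℤ := fun i => 2 * Q.rc (x i) + Q.t * Q.oc (x i)
  set F := Q.formOf x
  have hu : u ≠ 0 := mul_ne_zero hk hw0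
  have hr := rDisc_diff δ' δ α β γ ε
  have hr' := cov0_diff δ' δ α β γ ε
  have hr1 := cov1_diff δ' δ α β γ ε
  have hr3 := cov0_diff δ' δ β α ε γ
  have hr2 := cov1_diff δ' δ β α ε γ
  rw [show β ^ 2 * α = α * β ^ 2 by ring, show β * α ^ 2 = α ^ 2 * β by ring,
    show ε ^ 2 * γ = γ * ε ^ 2 by ring, show ε * γ ^ 2 = γ ^ 2 * ε by ring] at hr2 hr3
  rw [f0, f1, f2, f3, hdd, hs] at hr hr' hr1
  rw [f0, f1, f2, f3, hdd, show β * γ - α * ε = (k : O) * w by rw [← neg_sub, hs]; ring] at hr2 hr3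
  rw [g0] at hr'
  rw [g1] at hr1
  rw [g2] at hr2
  rw [g3] at hr3
  have hdisc : redDisc F = Q.disc := by
    have e : u ^ 4 * ((redDisc F : ℤ) : O) = u ^ 4 * (Q.disc : O) := by
      rw [redDisc, cast_rDisc, ← hw]
      simp only [F, formOf]
      simp only [rDisc, u] at hr ⊢
      linear_combination hr
    exact Q.intCast_inj (mul_left_cancel₀ (pow_ne_zero _ hu) e)
  refine ⟨hdisc, ?_⟩
  have c0 : (cubCov F).a = E 0 := by
    refine Q.intCast_inj (mul_left_cancel₀ (pow_ne_zero 3 hu) ?_)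
    simp only [cubCov, cast_cov0]
    simp only [F, formOf, E]
    simp only [cov0, u] at hr' ⊢
    linear_combination hr'
  have c1 : (cubCov F).b = E 1 := by
    refine Q.intCast_inj (mul_left_cancel₀ (pow_ne_zero 3 hu) ?_)
    simp only [cubCov, cast_cov1]
    simp only [F, formOf, E]
    simp only [cov1, u] at hr1 ⊢
    linear_combination hr1
  have c2 : (cubCov F).c = E 2 := by
    refine Q.intCast_inj (mul_left_cancel₀ (pow_ne_zero 3 hu) ?_)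
    simp only [cubCov, Int.cast_neg, cast_cov1]
    simp only [F, formOf, E]
    simp only [cov1, u] at hr2 ⊢
    linear_combination -hr2
  have c3 : (cubCov F).d = E 3 := by
    refine Q.intCast_inj (mul_left_cancel₀ (pow_ne_zero 3 hu) ?_)
    simp only [cubCov, Int.cast_neg, cast_cov0]
    simp only [F, formOf, E]
    simp only [cov0, u] at hr3 ⊢
    linear_combination -hr3
  funext i
  fin_cases i
  · show x 0 = Q.q0 F; rw [q0, c0]; exact (Q.elemOf_self (x 0)).symm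
  · show x 1 = Q.q1 F; rw [q1, c1]; exact (Q.elemOf_self (x 1)).symm
  · show x 2 = Q.q2 F; rw [q2, c2]; exact (Q.elemOf_self (x 2)).symm
  · show x 3 = Q.q3 F; rw [q3, c3]; exact (Q.elemOf_self (x 3)).symm

end QData

end FA.ThreeTorsion
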