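import Fermat.Agent.CubicFields.Local
import Fermat.Agent.ThreeTorsion.Triple
import Mathlib.Algebra.Field.ZMod
import Mathlib.Tactic.LinearCombination
import Mathlib.Tactic.FieldSimp

/-!
# Discriminants that are not fundamental

For `p ≠ 3` the discriminant of a form is not fundamental at `p` exactly when the form is
non-maximal at `p` or has a triple root mod `p`: `2 p⁶ - p⁴` residues modulo `p²`. At `3` the
reduced discriminant decides, on residues modulo `27`.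
-/

set_option autoImplicit false

noncomputable section

open FA.Thue FA.DeloneFaddeev FA.CubicFormCount FA.CubicFields
open scoped Classical

namespace FA.ThreeTorsion

/-- `p` divides `a`, `b` and `c`. -/
def TripDvd (p : ℤ) (f : CubicForm) : Prop := p ∣ f.a ∧ p ∣ f.b ∧ p ∣ f.c

/-- The forms with a triple root mod `p`. -/
def tripleAt (p : ℕ) : Set CubicForm := {f | ∃ g, Twisted f g ∧ TripDvd (p : ℤ) g}

/-- Non-maximal at `p` or a triple root mod `p`. -/
def sharpBad (p : ℕ) : Set CubicForm := badAt p ∪ tripleAt p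

/-- The condition at the point `(1, 0)`. -/
def DblAt (p : ℤ) (f : CubicForm) : Prop := p ∣ f.a ∧ p ∣ f.b ∧ (p ^ 2 ∣ f.a ∨ p ∣ f.c)

theorem scale_iff {p k : ℤ} (hk : IsUnit k) (f : CubicForm) :
    TripDvd p (scale k f) ↔ TripDvd p f := by
  simp [TripDvd, scale, hk.dvd_mul_left]

theorem tripDvd_congr {p : ℤ} {f g : CubicForm} (h : FormCongr p f g) (hf : TripDvd p f) :
    TripDvd p g :=
  ⟨(dvd_sub_right hf.1).mp h.1, (dvd_sub_right hf.2.1).mp h.2.1,
    (dvd_sub_right hf.2.2).mp h.2.2.1⟩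

theorem periodic_sharpBad (p : ℕ) : PeriodicSet (p ^ 2) (sharpBad p) := by
  intro v w h hv
  rcases hv with hv | ⟨g, ⟨M, hM, rfl⟩, hg⟩
  · exact Or.inl (periodic_badAt p v w h hv)
  · have hc : FormCongr (p : ℤ) (mkForm v) (mkForm w) := by
      have h' : ∀ i, ((p : ℤ)) ∣ v i - w i := fun i =>
        (dvd_pow_self (p : ℤ) two_ne_zero).trans (by simpa using h i)
      exact ⟨h' 0, h' 1, h' 2, h' 3⟩
    exact Or.inr ⟨_, ⟨M, hM, rfl⟩,
      (scale_iff hM _).mpr (tripDvd_congr (formCongr_actMat hc M) ((scale_iff hM _).mp hg))⟩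

theorem invariant_sharpBad (p : ℕ) : ∀ f g, Twisted f g → f ∈ sharpBad p → g ∈ sharpBad p := by
  rintro f g h (hf | ⟨g', h', hg'⟩)
  · exact Or.inl (invariant_badAt p f g h hf)
  · exact Or.inr ⟨g', twisted_trans (twisted_symm h) h', hg'⟩

theorem tripDvd_move {p : ℤ} {h : CubicForm} {N : Matrix (Fin 2) (Fin 2) ℤ} (h10 : p ∣ N 1 0)
    (hh : TripDvd p h) : TripDvd p (actMat h N) := by
  obtain ⟨k, hk⟩ := h10
  obtain ⟨⟨A, hA⟩, ⟨B, hB⟩, ⟨C, hC⟩⟩ := hh
  simp only [TripDvd, actMat, CubicForm.act, CubicForm.eval, Int.cast_id, hA, hB, hC, hk]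
  refine ⟨⟨A * N 0 0 ^ 3 + p * B * N 0 0 ^ 2 * k + C * N 0 0 * (p * k) ^ 2 +
      h.d * p ^ 2 * k ^ 3, by ring⟩,
    ⟨3 * A * N 0 0 ^ 2 * N 0 1 + B * (N 0 0 ^ 2 * N 1 1 + 2 * N 0 0 * N 0 1 * (p * k)) +
      C * (N 0 1 * (p * k) ^ 2 + 2 * N 0 0 * (p * k) * N 1 1) + 3 * h.d * p * k ^ 2 * N 1 1,
      by ring⟩,
    ⟨3 * A * N 0 0 * N 0 1 ^ 2 + B * (N 0 1 ^ 2 * (p * k) + 2 * N 0 0 * N 0 1 * N 1 1) +
      C * (N 0 0 * N 1 1 ^ 2 + 2 * N 0 1 * (p * k) * N 1 1) + 3 * h.d * k * N 1 1 ^ 2, by ring⟩⟩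

theorem mem_tripleAt_iff {p : ℕ} (hp : p.Prime) (f : CubicForm) :
    f ∈ tripleAt p ↔
      ∃ o ∈ Finset.insertNone (Finset.range p), TripDvd (p : ℤ) (actMat f (colMat o)) := by
  constructor
  · rintro ⟨g, ⟨M, hM, rfl⟩, hg⟩
    obtain ⟨o, ho, hdvd⟩ := exists_point hp (M := M)
    refine ⟨o, ho, ?_⟩
    set N := (colMat o).adjugate * M
    have hN : IsUnit N.det := by
      rw [Matrix.det_mul, Matrix.det_adjugate, det_colMat]
      simpa using hM
    have he : actMat f M = actMat (actMat f (colMat o)) N := by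
      rw [actMat_mul, ← Matrix.mul_assoc, Matrix.mul_adjugate, det_colMat, one_smul, Matrix.one_mul]
    have h1 := (scale_iff hM _).mp hg
    rw [he] at h1
    have h2 := tripDvd_move (N := N.adjugate)
      (by rw [Matrix.adjugate_fin_two]; simpa using hdvd) h1
    rw [actMat_mul, Matrix.mul_adjugate] at h2
    rcases Int.isUnit_iff.mp hN with h | h <;> rw [h] at h2
    · simpa [actMat_one] using h2
    · rw [show actMat (actMat f (colMat o)) ((-1 : ℤ) • (1 : Matrix (Fin 2) (Fin 2) ℤ)) =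
        scale (-1) (actMat f (colMat o)) by
          ext <;> simp [actMat, scale, CubicForm.act, CubicForm.eval]] at h2
      exact (scale_iff (Int.isUnit_iff.mpr (Or.inr rfl)) _).mp h2
  · rintro ⟨o, -, h⟩
    refine ⟨_, ⟨colMat o, by rw [det_colMat]; exact isUnit_one, rfl⟩, ?_⟩
    rw [det_colMat, scale_one]
    exact h

theorem mem_sharpBad_iff {p : ℕ} (hp : p.Prime) (f : CubicForm) :
    f ∈ sharpBad p ↔
      ∃ o ∈ Finset.insertNone (Finset.range p), DblAt (p : ℤ) (actMat f (colMat o)) := by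
  rw [sharpBad, Set.mem_union, mem_badAt_iff hp, mem_tripleAt_iff hp]
  constructor
  · rintro ((h | ⟨o, ho, h⟩) | ⟨o, ho, h⟩)
    · refine ⟨none, by simp, ?_⟩
      simp only [colMat, actMat_one]
      exact ⟨h.1, h.2.1, Or.inr h.2.2.1⟩
    · exact ⟨o, ho, (dvd_pow_self _ two_ne_zero).trans h.1, h.2, Or.inl h.1⟩
    · exact ⟨o, ho, h.1, h.2.1, Or.inr h.2.2⟩
  · rintro ⟨o, ho, h1, h2, h3 | h3⟩
    · exact Or.inl (Or.inr ⟨o, ho, h3, h2⟩)
    · exact Or.inr ⟨o, ho, h1, h2, h3⟩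

theorem card_moved {q : ℕ} (hq : 0 < q) {P : CubicForm → Prop}
    (hP : ∀ f g, FormCongr (q : ℤ) f g → P f → P g) (o : Option ℕ) :
    (residues q {f | P (actMat f (colMat o))}).card = (residues q {f | P f}).card := by
  have hq' : (0 : ℤ) < q := by exact_mod_cast hq
  let red : CubicForm → (Fin 4 → ℤ) := fun f i => coeffs f i % q
  have hred : ∀ f, FormCongr (q : ℤ) (mkForm (red f)) f := fun f => by
    refine ⟨?_, ?_, ?_, ?_⟩ <;> exact dvd_sub_comm.mp Int.dvd_self_sub_emod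
  have hmem : ∀ f i, red f i ∈ Finset.Ico (0 : ℤ) q := fun f i =>
    Finset.mem_Ico.mpr ⟨Int.emod_nonneg _ hq'.ne', Int.emod_lt_of_pos _ hq'⟩
  have hinv : ∀ (v : Fin 4 → ℤ), (∀ i, v i ∈ Finset.Ico (0 : ℤ) q) →
      ∀ M : Matrix (Fin 2) (Fin 2) ℤ, M.det = 1 →
        red (actMat (mkForm (red (actMat (mkForm v) M))) M.adjugate) = v := by
    intro v hv M hM
    have h := formCongr_actMat (hred (actMat (mkForm v) M)) M.adjugate
    rw [actMat_adjugate hM] at h
    funext i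
    have hi : (q : ℤ) ∣
        coeffs (actMat (mkForm (red (actMat (mkForm v) M))) M.adjugate) i - v i := by
      fin_cases i <;> [exact h.1; exact h.2.1; exact h.2.2.1; exact h.2.2.2]
    have hb := Finset.mem_Ico.mp (hv i)
    show _ % (q : ℤ) = _
    rw [← Int.emod_eq_of_lt hb.1 hb.2]
    exact (Int.ModEq.symm (Int.modEq_of_dvd hi))
  refine Finset.card_bij' (fun v _ => red (actMat (mkForm v) (colMat o)))
    (fun v _ => red (actMat (mkForm v) (colMat o).adjugate)) ?_ ?_ ?_ ?_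
  · intro v hv
    exact mem_residues.mpr ⟨hmem _, hP _ _ (hred _).symm (mem_residues.mp hv).2⟩
  · intro v hv
    have hc := formCongr_actMat (hred (actMat (mkForm v) (colMat o).adjugate)) (colMat o)
    rw [actMat_mul, Matrix.adjugate_mul, det_colMat, one_smul, actMat_one] at hc
    exact mem_residues.mpr ⟨hmem _, hP _ _ hc.symm (mem_residues.mp hv).2⟩
  · intro v hv
    exact hinv v (mem_residues.mp hv).1 _ (det_colMat o)
  · intro v hv
    have h : (colMat o).adjugate.adjugate = colMat o := by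
      rw [Matrix.adjugate_adjugate _ (by simp), det_colMat]; simp
    have := hinv v (mem_residues.mp hv).1 (colMat o).adjugate (by
      rw [Matrix.det_adjugate, det_colMat]; simp)
    rwa [h] at this

/-- A triple root that is not a point of non-maximality. -/
def StrictTrip (p : ℤ) (f : CubicForm) : Prop := TripDvd p f ∧ ¬ p ^ 2 ∣ f.a ∧ ¬ p ∣ f.d

theorem strictTrip_congr {p : ℤ} {f g : CubicForm} (h : FormCongr (p ^ 2) f g)
    (hf : StrictTrip p f) : StrictTrip p g := by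
  obtain ⟨h1, h2, h3⟩ := hf
  refine ⟨tripDvd_congr (h.of_dvd (dvd_pow_self p two_ne_zero)) h1, fun e => h2 ?_, fun e => h3 ?_⟩
  · exact (dvd_sub_left e).mp h.1
  · exact (dvd_sub_left e).mp ((dvd_pow_self p two_ne_zero).trans h.2.2.2)

theorem card_strictTrip {p : ℕ} (hp : p.Prime) :
    (residues (p ^ 2) {f | StrictTrip (p : ℤ) f}).card = (p - 1) * p * p * (p ^ 2 - p) := by
  set I := Finset.Ico (0 : ℤ) (p ^ 2 : ℕ)
  set K := multiples p
  have e : residues (p ^ 2) {f | StrictTrip (p : ℤ) f} =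
      Fintype.piFinset ![K.erase 0, K, K, I \ K] := by
    ext v
    simp only [mem_residues, Fintype.mem_piFinset, Fin.forall_fin_succ, Set.mem_ofPred_eq,
      StrictTrip, TripDvd, mkForm]
    simp [K, I, mem_multiples hp.pos]
    constructor
    · rintro ⟨⟨ha, hb, hc, hd⟩, ⟨h1, h2, h3⟩, h4, h5⟩
      exact ⟨⟨fun h => h4 (by rw [h]; exact dvd_zero _), ha, h1⟩, ⟨hb, h2⟩, ⟨hc, h3⟩, hd,
        fun _ _ => h5⟩
    · rintro ⟨⟨hne, ha, h1⟩, ⟨hb, h2⟩, ⟨hc, h3⟩, hd, h5⟩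
      refine ⟨⟨ha, hb, hc, hd⟩, ⟨h1, h2, h3⟩, fun h => hne ?_, h5 hd.1 hd.2⟩
      exact Int.eq_zero_of_abs_lt_dvd h (by rw [abs_lt]; constructor <;> nlinarith [ha.1, ha.2])
  have hKI : K ⊆ I := fun x hx => ((mem_multiples hp.pos).mp hx).1
  have h0 : (0 : ℤ) ∈ K := (mem_multiples hp.pos).mpr
    ⟨Finset.mem_Ico.mpr ⟨le_rfl, by exact_mod_cast pow_pos hp.pos 2⟩, dvd_zero _⟩
  rw [e, Fintype.card_piFinset, Fin.prod_univ_four]
  simp only [Matrix.cons_val_zero, Matrix.cons_val_one, Matrix.cons_val]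
  rw [Finset.card_erase_of_mem h0, Finset.card_sdiff_of_subset hKI, card_multiples hp.pos,
    Int.card_Ico, sub_zero, Int.toNat_natCast]

theorem strictTrip_unique {p : ℕ} (hp : p.Prime) {f : CubicForm} {o o' : Option ℕ}
    (ho : o ∈ Finset.insertNone (Finset.range p)) (ho' : o' ∈ Finset.insertNone (Finset.range p))
    (h : StrictTrip (p : ℤ) (actMat f (colMat o)))
    (h' : (p : ℤ) ∣ (actMat f (colMat o')).a) : o = o' := by
  by_contra hne
  have hN : ¬ (p : ℤ) ∣ ((colMat o).adjugate * colMat o') 1 0 := by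
    rw [adjugate_mul_lower]
    have hp2 := hp.two_le
    cases o with
    | none =>
      cases o' with
      | none => exact absurd rfl hne
      | some t =>
        simp [colMat]
        exact fun hd => by have := Int.le_of_dvd one_pos hd; omega
    | some t =>
      cases o' with
      | none =>
        simp [colMat]
        exact fun hd => by have := Int.le_of_dvd one_pos hd; omega
      | some t' =>
        simp only [Finset.some_mem_insertNone, Finset.mem_range] at ho ho'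
        simp [colMat]
        intro hd
        apply hne
        have := Int.eq_zero_of_abs_lt_dvd hd (by rw [abs_lt]; omega)
        congr 1
        omega
  set g := actMat f (colMat o)
  set N := (colMat o).adjugate * colMat o'
  have he : actMat f (colMat o') = actMat g N := by
    rw [actMat_mul, ← Matrix.mul_assoc, Matrix.mul_adjugate, det_colMat, one_smul, Matrix.one_mul]
  rw [he] at h'
  obtain ⟨⟨⟨A, hA⟩, ⟨B, hB⟩, ⟨C, hC⟩⟩, -, hd⟩ := h
  obtain ⟨E, hE⟩ := h'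
  simp only [actMat, CubicForm.act, CubicForm.eval, Int.cast_id, hA, hB, hC] at hE
  have hP : Prime (p : ℤ) := Nat.prime_iff_prime_int.mp hp
  have : (p : ℤ) ∣ g.d * N 1 0 ^ 3 :=
    ⟨E - A * N 0 0 ^ 3 - B * N 0 0 ^ 2 * N 1 0 - C * N 0 0 * N 1 0 ^ 2, by linear_combination hE⟩
  exact (hP.dvd_or_dvd this).elim hd fun h => hN (hP.dvd_of_dvd_pow h)

theorem sharpBad_cases {p : ℕ} (hp : p.Prime) (f : CubicForm) :
    f ∈ sharpBad p ↔ f ∈ badAt p ∨
      ∃ o ∈ Finset.insertNone (Finset.range p), StrictTrip (p : ℤ) (actMat f (colMat o)) := by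
  constructor
  · rintro (h | h)
    · exact Or.inl h
    · obtain ⟨o, ho, ht⟩ := (mem_tripleAt_iff hp f).mp h
      by_cases hd : (p : ℤ) ∣ (actMat f (colMat o)).d
      · refine Or.inl (Or.inl ?_)
        have := allDvd_actMat (f := actMat f (colMat o)) ⟨ht.1, ht.2.1, ht.2.2, hd⟩
          (colMat o).adjugate
        rwa [actMat_adjugate (det_colMat o)] at this
      · by_cases ha : (p : ℤ) ^ 2 ∣ (actMat f (colMat o)).a
        · exact Or.inl ((mem_badAt_iff hp f).mpr (Or.inr ⟨o, ho, ha, ht.2.1⟩))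
        · exact Or.inr ⟨o, ho, ht, ha, hd⟩
  · rintro (h | ⟨o, ho, h⟩)
    · exact Or.inl h
    · exact Or.inr ((mem_tripleAt_iff hp f).mpr ⟨o, ho, h.1⟩)

theorem badAt_not_strict {p : ℕ} (hp : p.Prime) {f : CubicForm} {o : Option ℕ}
    (ho : o ∈ Finset.insertNone (Finset.range p))
    (h : StrictTrip (p : ℤ) (actMat f (colMat o))) : f ∉ badAt p := by
  intro hb
  rcases (mem_badAt_iff hp f).mp hb with hall | ⟨o', ho', ht⟩
  · exact h.2.2 (allDvd_actMat hall (colMat o)).2.2.2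
  · obtain rfl := strictTrip_unique hp ho ho' h ((dvd_pow_self _ two_ne_zero).trans ht.1)
    exact h.2.1 ht.1

/-- **The local count**: `2 p⁶ - p⁴` residues modulo `p²`. -/
theorem card_residues_sharpBad {p : ℕ} (hp : p.Prime) :
    (residues (p ^ 2) (sharpBad p)).card + p ^ 4 = 2 * p ^ 6 := by
  set P := Finset.insertNone (Finset.range p)
  set R := fun o => residues (p ^ 2) {f | StrictTrip (p : ℤ) (actMat f (colMat o))}
  have he : residues (p ^ 2) (sharpBad p) = residues (p ^ 2) (badAt p) ∪ P.biUnion R := by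
    ext v
    simp only [Finset.mem_union, Finset.mem_biUnion, R, mem_residues, Set.mem_ofPred_eq,
      sharpBad_cases hp]
    constructor
    · rintro ⟨hb, h | ⟨o, ho, h⟩⟩
      · exact Or.inl ⟨hb, h⟩
      · exact Or.inr ⟨o, ho, hb, h⟩
    · rintro (⟨hb, h⟩ | ⟨o, ho, hb, h⟩)
      · exact ⟨hb, Or.inl h⟩
      · exact ⟨hb, Or.inr ⟨o, ho, h⟩⟩
  have hd : Disjoint (residues (p ^ 2) (badAt p)) (P.biUnion R) := by
    rw [Finset.disjoint_biUnion_right]
    intro o ho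
    refine Finset.disjoint_left.mpr fun v h1 h2 => ?_
    exact badAt_not_strict hp ho (mem_residues.mp h2).2 (mem_residues.mp h1).2
  have hR : ∀ o ∈ P, (R o).card = (p - 1) * p * p * (p ^ 2 - p) := fun o _ => by
    rw [← card_strictTrip hp]
    refine card_moved (P := StrictTrip (p : ℤ)) (pow_pos hp.pos 2)
      (fun f g h hf => strictTrip_congr ?_ hf) o
    simpa using h
  rw [he, Finset.card_union_of_disjoint hd, Finset.card_biUnion, Finset.sum_const_nat hR,
    Finset.card_insertNone, Finset.card_range]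
  · have h1 := card_residues_badAt hp
    obtain ⟨q, rfl⟩ : ∃ q, p = q + 1 := ⟨p - 1, by have := hp.pos; omega⟩
    simp only [Nat.add_sub_cancel]
    rw [show (q + 1) ^ 2 - (q + 1) = (q + 1) * q by
      rw [pow_two, Nat.mul_succ, Nat.add_sub_cancel]] at *
    nlinarith [h1]
  · intro o ho o' ho' hne
    refine Finset.disjoint_left.mpr fun v h1 h2 => hne ?_
    exact strictTrip_unique hp ho ho' (mem_residues.mp h1).2 (mem_residues.mp h2).2.1.1

theorem disc_of_dblAt {p : ℤ} {f : CubicForm} (h : DblAt p f) : p ^ 2 ∣ f.disc := by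
  obtain ⟨⟨A, hA⟩, ⟨B, hB⟩, h3⟩ := h
  have e : f.disc + 4 * f.a * f.c ^ 3 = p ^ 2 * (B ^ 2 * f.c ^ 2 - 4 * p * B ^ 3 * f.d -
      27 * A ^ 2 * f.d ^ 2 + 18 * A * B * f.c * f.d) := by
    simp only [CubicForm.disc, hA, hB]; ring
  have h4 : p ^ 2 ∣ 4 * f.a * f.c ^ 3 := by
    rcases h3 with ⟨k, hk⟩ | ⟨k, hk⟩
    · exact ⟨4 * k * f.c ^ 3, by rw [hk]; ring⟩
    · exact ⟨4 * f.a * p * k ^ 3, by rw [hk]; ring⟩
  exact (dvd_add_left h4).mp ⟨_, e⟩

theorem exists_double_root {F : Type} [Field F] (h2 : (2 : F) ≠ 0) (h3 : (3 : F) ≠ 0)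
    {a b c d : F} (hab : ¬ (a = 0 ∧ b = 0))
    (hd : b ^ 2 * c ^ 2 - 4 * a * c ^ 3 - 4 * b ^ 3 * d - 27 * a ^ 2 * d ^ 2 +
      18 * a * b * c * d = 0) :
    ∃ r, a * r ^ 3 + b * r ^ 2 + c * r + d = 0 ∧ 3 * a * r ^ 2 + 2 * b * r + c = 0 := by
  by_cases ha : a = 0
  · subst ha
    have hb : b ≠ 0 := fun h => hab ⟨rfl, h⟩
    have hq : c ^ 2 - 4 * b * d = 0 :=
      (mul_eq_zero.mp (by linear_combination hd : b ^ 2 * (c ^ 2 - 4 * b * d) = 0)).resolve_left
        (pow_ne_zero 2 hb)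
    refine ⟨-c / (2 * b), ?_, ?_⟩
    · field_simp; linear_combination (-2 * b ^ 2) * hq
    · field_simp; ring
  by_cases hh : b ^ 2 - 3 * a * c = 0
  · have hs : 2 * b ^ 3 - 9 * a * b * c + 27 * a ^ 2 * d = 0 := by
      refine pow_eq_zero_iff two_ne_zero |>.mp ?_
      linear_combination 4 * (b ^ 2 - 3 * a * c) ^ 2 * hh - 27 * a ^ 2 * hd
    refine ⟨-b / (3 * a), ?_, ?_⟩
    · field_simp; linear_combination hs
    · field_simp; linear_combination -hh
  · obtain ⟨h, he⟩ : ∃ h, h = b ^ 2 - 3 * a * c := ⟨_, rfl⟩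
    rw [← he] at hh
    refine ⟨(9 * a * d - b * c) / (2 * h), ?_, ?_⟩
    · field_simp
      subst he
      linear_combination -(27 * a ^ 2 * d - 9 * a * b * c + 2 * b ^ 3) * hd
    · field_simp
      subst he
      linear_combination -9 * a * hd

/-- For odd `p ≠ 3`, `p² ∣ disc` decides. -/
theorem sharpBad_iff_odd {p : ℕ} (hp : p.Prime) (h2 : p ≠ 2) (h3 : p ≠ 3) (f : CubicForm) :
    f ∈ sharpBad p ↔ (p : ℤ) ^ 2 ∣ f.disc := by
  rw [mem_sharpBad_iff hp]
  constructor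
  · rintro ⟨o, -, h⟩
    have := disc_of_dblAt h
    rwa [twisted_disc (f := f) ⟨colMat o, by rw [det_colMat]; exact isUnit_one, by
      rw [det_colMat, scale_one]⟩] at this
  · intro hd
    have := Fact.mk hp
    have hP : Prime (p : ℤ) := Nat.prime_iff_prime_int.mp hp
    obtain ⟨o, ho, ha, hb⟩ : ∃ o ∈ Finset.insertNone (Finset.range p),
        (p : ℤ) ∣ (actMat f (colMat o)).a ∧ (p : ℤ) ∣ (actMat f (colMat o)).b := by
      by_cases hab : ((f.a : ZMod p)) = 0 ∧ (f.b : ZMod p) = 0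
      · refine ⟨none, by simp, ?_⟩
        simp only [colMat, actMat_one, ← ZMod.intCast_zmod_eq_zero_iff_dvd]
        exact hab
      have hq : ∀ q : ℕ, q.Prime → p ≠ q → ((q : ℕ) : ZMod p) ≠ 0 := fun q hq hne h =>
        hne ((Nat.prime_dvd_prime_iff_eq hp hq).mp ((ZMod.natCast_eq_zero_iff q p).mp h))
      have hd' : ((f.disc : ℤ) : ZMod p) = 0 := (ZMod.intCast_zmod_eq_zero_iff_dvd _ _).mpr
        ((dvd_pow_self _ two_ne_zero).trans hd)
      simp only [CubicForm.disc] at hd'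
      push_cast at hd'
      obtain ⟨r, r1, r2⟩ := exists_double_root (by exact_mod_cast hq 2 Nat.prime_two h2)
        (by exact_mod_cast hq 3 Nat.prime_three h3) hab hd'
      refine ⟨some r.val, by simpa using r.val_lt, ?_, ?_⟩ <;>
        rw [← ZMod.intCast_zmod_eq_zero_iff_dvd] <;>
        simp [colMat, actMat, CubicForm.act, CubicForm.eval]
      · linear_combination r1
      · linear_combination -r2
    refine ⟨o, ho, ha, hb, ?_⟩
    set g := actMat f (colMat o)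
    have hg : g.disc = f.disc := twisted_disc ⟨colMat o, by rw [det_colMat]; exact isUnit_one, by
      rw [det_colMat, scale_one]⟩
    rw [← hg] at hd
    obtain ⟨A, hA⟩ := ha
    obtain ⟨B, hB⟩ := hb
    have e : f.disc + 4 * g.a * g.c ^ 3 = (p : ℤ) ^ 2 * (B ^ 2 * g.c ^ 2 -
        4 * p * B ^ 3 * g.d - 27 * A ^ 2 * g.d ^ 2 + 18 * A * B * g.c * g.d) := by
      rw [← hg]; simp only [CubicForm.disc, hA, hB]; ring
    have h4 : (p : ℤ) ^ 2 ∣ 4 * g.a * g.c ^ 3 := by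
      rw [hg] at hd
      exact (dvd_add_right hd).mp ⟨_, e⟩
    by_cases hc : (p : ℤ) ∣ g.c
    · exact Or.inr hc
    · refine Or.inl (hP.pow_dvd_of_dvd_mul_left 2 (a := 4) (fun h => ?_)
        (hP.pow_dvd_of_dvd_mul_right 2 (fun h => hc (hP.dvd_of_dvd_pow h)) h4))
      exact h2 ((Nat.prime_dvd_prime_iff_eq hp Nat.prime_two).mp
        (hp.dvd_of_dvd_pow (n := 2) (by exact_mod_cast h)))

/-- The condition at the three points mod `2`. -/
def TwoPts (a b c d : ℤ) : Prop :=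
  (a % 2 = 0 ∧ b % 2 = 0 ∧ (a % 4 = 0 ∨ c % 2 = 0)) ∨
    (d % 2 = 0 ∧ c % 2 = 0 ∧ (d % 4 = 0 ∨ b % 2 = 0)) ∨
    ((a + b + c + d) % 2 = 0 ∧ (3 * a + 2 * b + c) % 2 = 0 ∧
      ((a + b + c + d) % 4 = 0 ∨ (3 * a + b) % 2 = 0))

theorem twoPts_table : ∀ a ∈ List.range 8, ∀ b ∈ List.range 8, ∀ c ∈ List.range 8,
    ∀ d ∈ List.range 8, ((CubicForm.disc ⟨a, b, c, d⟩ % 16 = 0 ∨
      CubicForm.disc ⟨a, b, c, d⟩ % 16 = 4) ↔ TwoPts a b c d) := by
  unfold TwoPts CubicForm.disc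
  decide +kernel

theorem disc_mod_sixteen (a b c d k : ℤ) :
    (⟨a + 8 * k, b, c, d⟩ : CubicForm).disc % 16 = (⟨a, b, c, d⟩ : CubicForm).disc % 16 ∧
      (⟨a, b + 8 * k, c, d⟩ : CubicForm).disc % 16 = (⟨a, b, c, d⟩ : CubicForm).disc % 16 := by
  constructor <;> refine Int.modEq_iff_dvd.mpr (dvd_sub_comm.mp ?_)
  · exact ⟨-2 * k * c ^ 3 - 27 * k * (a + 4 * k) * d ^ 2 + 9 * k * b * c * d, by
      simp only [CubicForm.disc]; ring⟩
  · exact ⟨k * (b + 4 * k) * c ^ 2 - d * (6 * b ^ 2 * k + 48 * b * k ^ 2 + 128 * k ^ 3) +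
      9 * k * a * c * d, by simp only [CubicForm.disc]; ring⟩

theorem disc_reverse (a b c d : ℤ) :
    (⟨a, b, c, d⟩ : CubicForm).disc = (⟨d, c, b, a⟩ : CubicForm).disc := by
  simp only [CubicForm.disc]; ring

/-- At `2` the discriminant modulo `16` decides. -/
theorem sharpBad_iff_two (f : CubicForm) :
    f ∈ sharpBad 2 ↔ f.disc % 16 = 0 ∨ f.disc % 16 = 4 := by
  obtain ⟨a, b, c, d⟩ := f
  have h1 : (⟨a, b, c, d⟩ : CubicForm).disc % 16 =
      (⟨a % 8, b % 8, c % 8, d % 8⟩ : CubicForm).disc % 16 := by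
    conv_lhs => rw [← Int.emod_add_mul_ediv a 8, ← Int.emod_add_mul_ediv b 8]
    rw [(disc_mod_sixteen _ _ _ _ _).1, (disc_mod_sixteen _ _ _ _ _).2, disc_reverse]
    conv_lhs => rw [← Int.emod_add_mul_ediv d 8, ← Int.emod_add_mul_ediv c 8]
    rw [(disc_mod_sixteen _ _ _ _ _).1, (disc_mod_sixteen _ _ _ _ _).2, disc_reverse]
  have hr : ∀ x : ℤ, (x % 8).toNat ∈ List.range 8 ∧ ((x % 8).toNat : ℤ) = x % 8 := fun x =>
    ⟨by simp only [List.mem_range]; omega, by omega⟩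
  have ht := twoPts_table _ (hr a).1 _ (hr b).1 _ (hr c).1 _ (hr d).1
  simp only [(hr a).2, (hr b).2, (hr c).2, (hr d).2] at ht
  rw [h1, ht, mem_sharpBad_iff Nat.prime_two]
  have hs : Finset.insertNone (Finset.range 2) = {none, some 0, some 1} := by decide
  simp only [hs, Finset.mem_insert, Finset.mem_singleton, exists_eq_or_imp, exists_eq_left,
    TwoPts, DblAt, colMat, actMat, CubicForm.act, CubicForm.eval]
  simp only [Matrix.of_apply, Matrix.cons_val', Matrix.cons_val_zero, Matrix.cons_val_one,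
    Matrix.cons_val_fin_one, Matrix.one_apply, Fin.zero_eq_one_iff, Fin.one_eq_zero_iff]
  norm_num
  omega

/-- The forms `(a, 3b, 3c, d)` with reduced discriminant not divisible by `9`. -/
def goodThree : Set CubicForm := {f | ∃ g, f = tri g ∧ ¬ (9 : ℤ) ∣ redDisc g}

theorem invariant_goodThree : ∀ f g, Twisted f g → f ∈ goodThree → g ∈ goodThree := by
  rintro f h e ⟨g, rfl, hg⟩
  obtain ⟨g', rfl, -⟩ := twisted_tri e
  refine ⟨g', rfl, ?_⟩
  have := twisted_disc e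
  rw [disc_tri, disc_tri] at this
  rwa [show redDisc g' = redDisc g by linarith]

theorem redDisc_congr {g g' : CubicForm} (h : FormCongr 9 g g') :
    (9 : ℤ) ∣ redDisc g ↔ (9 : ℤ) ∣ redDisc g' := by
  have e : ∀ x y : ℤ, 9 ∣ x - y → ((x : ZMod 9) = y) := fun x y hxy =>
    ((ZMod.intCast_eq_intCast_iff_dvd_sub y x 9).mpr hxy).symm
  have hz : ∀ x : ℤ, (9 : ℤ) ∣ x ↔ (x : ZMod 9) = 0 := fun x =>
    (ZMod.intCast_zmod_eq_zero_iff_dvd x 9).symm
  rw [hz, hz, redDisc, redDisc, cast_rDisc, cast_rDisc, e _ _ h.1, e _ _ h.2.1, e _ _ h.2.2.1,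
    e _ _ h.2.2.2]

theorem periodic_goodThree : PeriodicSet 27 goodThree := by
  rintro v w h ⟨g, hg, h9⟩
  simp only [mkForm, tri, CubicForm.mk.injEq] at hg
  obtain ⟨k0, hk0⟩ := h 0
  obtain ⟨k1, hk1⟩ := h 1
  obtain ⟨k2, hk2⟩ := h 2
  obtain ⟨k3, hk3⟩ := h 3
  push_cast at hk0 hk1 hk2 hk3
  refine ⟨⟨g.a - 27 * k0, g.b - 9 * k1, g.c - 9 * k2, g.d - 27 * k3⟩, ?_, ?_⟩
  · ext <;> simp [mkForm, tri] <;> omega
  · refine fun h9' => h9 ((redDisc_congr ⟨⟨3 * k0, ?_⟩, ⟨k1, ?_⟩, ⟨k2, ?_⟩, ⟨3 * k3, ?_⟩⟩).mpr h9')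
    all_goals simp only; ring

/-- The good residues modulo `9`. -/
def goodNine : Finset ((ℕ × ℕ) × (ℕ × ℕ)) :=
  ((Finset.range 9 ×ˢ Finset.range 9) ×ˢ (Finset.range 9 ×ˢ Finset.range 9)).filter fun x =>
    rDisc (x.1.1 : ℤ) x.1.2 x.2.1 x.2.2 % 9 ≠ 0

theorem card_goodNine : goodNine.card = 5184 := by
  unfold goodNine rDisc
  decide +kernel

attribute [local irreducible] goodNine residues in
theorem card_goodThree : (residues 27 goodThree).card = 46656 := by
  rw [show 46656 = ((Finset.range 3 ×ˢ Finset.range 3) ×ˢ goodNine).card by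
    rw [Finset.card_product, Finset.card_product, card_goodNine]; rfl]
  refine Finset.card_bij' (fun v _ => (((v 0).toNat / 9, (v 3).toNat / 9),
      (((v 0).toNat % 9, (v 1).toNat / 3), ((v 2).toNat / 3, (v 3).toNat % 9))))
    (fun x _ => ![((9 * x.1.1 + x.2.1.1 : ℕ) : ℤ), ((3 * x.2.1.2 : ℕ) : ℤ),
      ((3 * x.2.2.1 : ℕ) : ℤ), ((9 * x.1.2 + x.2.2.2 : ℕ) : ℤ)]) ?_ ?_ ?_ ?_
  · intro v hv
    obtain ⟨hb, g, hg, h9⟩ := mem_residues.mp hv
    simp only [Finset.mem_Ico] at hb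
    have := hb 0; have := hb 1; have := hb 2; have := hb 3
    simp only [mkForm, tri, CubicForm.mk.injEq] at hg
    obtain ⟨e0, e1, e2, e3⟩ := hg
    simp only [goodNine, Finset.mem_product, Finset.mem_range, Finset.mem_filter]
    refine ⟨⟨by omega, by omega⟩, ⟨⟨by omega, by omega⟩, by omega, by omega⟩, ?_⟩
    intro hz
    refine h9 ((redDisc_congr (g' := ⟨(((v 0).toNat % 9 : ℕ) : ℤ), (((v 1).toNat / 3 : ℕ) : ℤ),
      (((v 2).toNat / 3 : ℕ) : ℤ), (((v 3).toNat % 9 : ℕ) : ℤ)⟩) ⟨?_, ?_, ?_, ?_⟩).mpr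
        (Int.dvd_of_emod_eq_zero hz))
    all_goals simp only; omega
  · intro x hx
    simp only [goodNine, Finset.mem_product, Finset.mem_range, Finset.mem_filter] at hx
    obtain ⟨⟨h1, h2⟩, ⟨⟨h3, h4⟩, h5, h6⟩, h7⟩ := hx
    refine mem_residues.mpr ⟨fun i => ?_, ⟨((9 * x.1.1 + x.2.1.1 : ℕ) : ℤ), x.2.1.2, x.2.2.1,
      ((9 * x.1.2 + x.2.2.2 : ℕ) : ℤ)⟩, ?_, fun h => h7 ?_⟩
    · fin_cases i <;> simp only [Finset.mem_Ico] <;> simp <;> omega
    · ext <;> simp [mkForm, tri]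
    · exact Int.emod_eq_zero_of_dvd ((redDisc_congr (g' := ⟨x.2.1.1, x.2.1.2, x.2.2.1, x.2.2.2⟩)
        ⟨⟨x.1.1, by push_cast; ring⟩, ⟨0, by ring⟩, ⟨0, by ring⟩,
          ⟨x.1.2, by push_cast; ring⟩⟩).mp h)
  · intro v hv
    obtain ⟨hb, g, hg, -⟩ := mem_residues.mp hv
    simp only [Finset.mem_Ico] at hb
    have := hb 0; have := hb 1; have := hb 2; have := hb 3
    simp only [mkForm, tri, CubicForm.mk.injEq] at hg
    funext i
    fin_cases i <;> simp <;> omega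
  · intro x hx
    simp only [goodNine, Finset.mem_product, Finset.mem_range, Finset.mem_filter] at hx
    ext <;> simp <;> omega

end FA.ThreeTorsion
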