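import Fermat.Agent.ThreeTorsion.Cubes
import Fermat.Agent.CubicFormCount.Classes
import Mathlib.RingTheory.DedekindDomain.Ideal.Lemmas
import Mathlib.RingTheory.Int.Basic

/-!
# Triple forms and ideals whose cube is principal

Classes of triple forms of reduced discriminant `D` under `SL₂ (ℤ)` correspond to classes of pairs
`(I, δ)` with `I³ = (δ)` and `N δ > 0`; forms with a rational zero give the trivial pair, and the
mirror image of a form gives the inverse pair.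
-/

set_option autoImplicit false

noncomputable section

open FA.Thue FA.DeloneFaddeev Module
open scoped Pointwise

namespace FA.ThreeTorsion

namespace QData

variable {O : Type} [CommRing O] (Q : QData O)

/-- An ideal with a generator of positive norm of its cube. -/
def IsPair (z : Ideal O × O) : Prop :=
  z.2 ≠ 0 ∧ z.1 ^ 3 = Ideal.span {z.2} ∧ 0 < Q.nrm z.2

/-- Equivalence of pairs. -/
def PairRel (y z : Ideal O × O) : Prop :=
  ∃ κ μ : O, κ ≠ 0 ∧ μ ≠ 0 ∧ Ideal.span {μ} * y.1 = Ideal.span {κ} * z.1 ∧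
    μ ^ 3 * y.2 = κ ^ 3 * z.2

/-- The pair of a triple form. -/
def psi (g : CubicForm) : Ideal O × O := (pairIdeal (Q.q0 g) (Q.q1 g), Q.q0 g ^ 2)

theorem pairRel_refl [Nontrivial O] (z : Ideal O × O) : PairRel z z :=
  ⟨1, 1, one_ne_zero, one_ne_zero, rfl, rfl⟩

theorem pairRel_symm {y z : Ideal O × O} (h : PairRel y z) : PairRel z y :=
  let ⟨κ, μ, h1, h2, h3, h4⟩ := h
  ⟨μ, κ, h2, h1, h3.symm, h4.symm⟩

theorem pairRel_trans [IsDomain O] {x y z : Ideal O × O} (h : PairRel x y) (h' : PairRel y z) :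
    PairRel x z := by
  obtain ⟨κ, μ, h1, h2, h3, h4⟩ := h
  obtain ⟨κ', μ', h1', h2', h3', h4'⟩ := h'
  refine ⟨κ * κ', μ * μ', mul_ne_zero h1 h1', mul_ne_zero h2 h2', ?_, ?_⟩
  · rw [← Ideal.span_singleton_mul_span_singleton, ← Ideal.span_singleton_mul_span_singleton,
      mul_comm (Ideal.span {μ}), mul_assoc, h3, ← mul_assoc, mul_comm (Ideal.span {μ'}), mul_assoc,
      h3', ← mul_assoc]
  · linear_combination μ' ^ 3 * h4 + κ ^ 3 * h4'

theorem span_mul_pair (l α β : O) :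
    Ideal.span {l} * pairIdeal α β = pairIdeal (l * α) (l * β) := by
  rw [pairIdeal, pairIdeal, Ideal.span_mul_span', Set.singleton_mul, Set.image_pair]

theorem oc_zero : Q.oc (0 : O) = 0 := by simpa using Q.oc_intCast 0

theorem oc_one : Q.oc (1 : O) = 0 := by simpa using Q.oc_intCast 1

theorem nrm_ne_zero [IsDomain O] [Module.Free ℤ O] [Module.Finite ℤ O] {x : O} (hx : x ≠ 0) :
    Q.nrm x ≠ 0 := by
  rw [← Q.norm_eq_nrm]
  exact Algebra.norm_ne_zero_iff.mpr hx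

theorem oc_comb (A B C E : ℤ) (x y z u : O) :
    Q.oc ((A : O) * x + (B : O) * y + (C : O) * z + (E : O) * u) =
      A * Q.oc x + B * Q.oc y + C * Q.oc z + E * Q.oc u := by
  simp only [← zsmul_eq_mul, oc, map_add, map_smul, Finsupp.add_apply, Finsupp.smul_apply,
    smul_eq_mul]

theorem det2_comb (α β : O) (p q r s : ℤ) :
    Q.det2 ((p : O) * α + (r : O) * β) ((q : O) * α + (s : O) * β) =
      (p * s - q * r) * Q.det2 α β := by
  rw [det2, det2, (Q.coord_combination α β p r).1, (Q.coord_combination α β p r).2,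
    (Q.coord_combination α β q s).1, (Q.coord_combination α β q s).2]
  ring

theorem det2_scale (l α β : O) : Q.det2 (l * α) (l * β) = Q.nrm l * Q.det2 α β := by
  simp only [det2, nrm, (Q.mul_coeff l α).1, (Q.mul_coeff l α).2, (Q.mul_coeff l β).1,
    (Q.mul_coeff l β).2]
  ring

theorem frame_scale [IsDomain O] [Module.Free ℤ O] [Module.Finite ℤ O] {α β δ : O}
    {x : Fin 4 → O} (h : Q.Frame α β δ x) {l : O} (hl : l ≠ 0) :
    Q.Frame (l * α) (l * β) (l ^ 3 * δ) x := by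
  obtain ⟨h0, h1, h2, h3, hd, hN⟩ := h
  refine ⟨by rw [mul_assoc, h0]; ring, by rw [mul_assoc, h1]; ring, by rw [mul_assoc, h2]; ring,
    by rw [mul_assoc, h3]; ring, by rw [Q.det2_scale]; exact mul_ne_zero (Q.nrm_ne_zero hl) hd, ?_⟩
  rw [Q.nrm_mul, Q.nrm_pow, Q.det2_scale, hN]
  ring

/-- The moved frame. -/
def moveFrame (p q r s : ℤ) (x : Fin 4 → O) : Fin 4 → O :=
  ![((p ^ 3 : ℤ) : O) * x 0 + ((3 * p ^ 2 * r : ℤ) : O) * x 1 + ((3 * p * r ^ 2 : ℤ) : O) * x 2 +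
      ((r ^ 3 : ℤ) : O) * x 3,
    ((p ^ 2 * q : ℤ) : O) * x 0 + ((p ^ 2 * s + 2 * p * q * r : ℤ) : O) * x 1 +
      ((q * r ^ 2 + 2 * p * r * s : ℤ) : O) * x 2 + ((r ^ 2 * s : ℤ) : O) * x 3,
    ((p * q ^ 2 : ℤ) : O) * x 0 + ((q ^ 2 * r + 2 * p * q * s : ℤ) : O) * x 1 +
      ((p * s ^ 2 + 2 * q * r * s : ℤ) : O) * x 2 + ((r * s ^ 2 : ℤ) : O) * x 3,
    ((q ^ 3 : ℤ) : O) * x 0 + ((3 * q ^ 2 * s : ℤ) : O) * x 1 + ((3 * q * s ^ 2 : ℤ) : O) * x 2 +
      ((s ^ 3 : ℤ) : O) * x 3]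

theorem formOf_moveFrame (p q r s : ℤ) (x : Fin 4 → O) :
    Q.formOf (moveFrame p q r s x) = triMove (Q.formOf x) p q r s := by
  ext <;> simp only [formOf, moveFrame, triMove] <;> exact Q.oc_comb _ _ _ _ _ _ _ _

theorem frame_move {α β δ : O} {x : Fin 4 → O} (h : Q.Frame α β δ x) {p q r s : ℤ}
    (h1 : p * s - q * r = 1) :
    Q.Frame ((p : O) * α + (r : O) * β) ((q : O) * α + (s : O) * β) δ (moveFrame p q r s x) := by
  obtain ⟨e0, e1, e2, e3, hd, hN⟩ := h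
  refine ⟨?_, ?_, ?_, ?_, by rw [Q.det2_comb, h1, one_mul]; exact hd,
    by rw [Q.det2_comb, h1, one_mul]; exact hN⟩
  all_goals simp [moveFrame]
  · linear_combination (p : O) ^ 3 * e0 + 3 * (p : O) ^ 2 * r * e1 + 3 * (p : O) * r ^ 2 * e2 +
      (r : O) ^ 3 * e3
  · linear_combination (p : O) ^ 2 * q * e0 + ((p : O) ^ 2 * s + 2 * p * q * r) * e1 +
      ((q : O) * r ^ 2 + 2 * p * r * s) * e2 + (r : O) ^ 2 * s * e3
  · linear_combination (p : O) * q ^ 2 * e0 + ((q : O) ^ 2 * r + 2 * p * q * s) * e1 +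
      ((p : O) * s ^ 2 + 2 * q * r * s) * e2 + (r : O) * s ^ 2 * e3
  · linear_combination (q : O) ^ 3 * e0 + 3 * (q : O) ^ 2 * s * e1 + 3 * (q : O) * s ^ 2 * e2 +
      (s : O) ^ 3 * e3

theorem pairIdeal_move (α β : O) {p q r s : ℤ} (h1 : p * s - q * r = 1) :
    pairIdeal ((p : O) * α + (r : O) * β) ((q : O) * α + (s : O) * β) = pairIdeal α β := by
  have h : ((p : O) * s - q * r) = 1 := by exact_mod_cast congrArg (fun x : ℤ => (x : O)) h1
  refine le_antisymm ?_ ?_ <;> rw [pairIdeal, pairIdeal, Ideal.span_le] <;>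
    rintro z (rfl | rfl) <;> rw [SetLike.mem_coe, Ideal.mem_span_pair]
  · exact ⟨_, _, rfl⟩
  · exact ⟨_, _, rfl⟩
  · exact ⟨s, -r, by linear_combination z * h⟩
  · exact ⟨-q, p, by linear_combination z * h⟩

theorem frame_unique [IsDomain O] [Module.Free ℤ O] [Module.Finite ℤ O] {α β δ : O}
    {x y : Fin 4 → O} (hx : Q.Frame α β δ x) (hy : Q.Frame α β δ y) : x = y := by
  have hδ : δ ≠ 0 := fun h => by
    have := hx.2.2.2.2.2
    rw [h] at this
    exact pow_ne_zero 3 hx.2.2.2.2.1 (this.symm.trans (by simpa using Q.nrm_intCast 0))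
  funext i
  refine mul_left_cancel₀ hδ ?_
  fin_cases i
  · exact hx.1.trans hy.1.symm
  · exact hx.2.1.trans hy.2.1.symm
  · exact hx.2.2.1.trans hy.2.2.1.symm
  · exact hx.2.2.2.1.trans hy.2.2.2.1.symm

theorem rel_of_frame [IsDomain O] [Module.Free ℤ O] [Module.Finite ℤ O]
    (hsq : ¬ IsSquare Q.disc) {α β δ : O} {x : Fin 4 → O} (h : Q.Frame α β δ x) :
    PairRel (pairIdeal α β, δ) (Q.psi (Q.formOf x)) := by
  obtain ⟨-, hx⟩ := Q.frame_eq hsq h
  obtain ⟨h0, h1, -, -, hd, hN⟩ := h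
  have hα := Q.det2_ne_zero_left hd
  have hδ : δ ≠ 0 := fun e => pow_ne_zero 3 hα (by rw [← h0, e, zero_mul])
  have x0 : x 0 = Q.q0 (Q.formOf x) := congrFun hx 0
  have x1 : x 1 = Q.q1 (Q.formOf x) := congrFun hx 1
  rw [x0] at h0
  rw [x1] at h1
  refine ⟨δ, α ^ 2, hδ, pow_ne_zero 2 hα, ?_, ?_⟩
  · simp only [psi]
    rw [span_mul_pair, span_mul_pair, h0, h1]
    ring_nf
  · simp only [psi]
    linear_combination -δ * (δ * Q.q0 (Q.formOf x) + α ^ 3) * h0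

section

variable [Module.Free ℤ O] [Module.Finite ℤ O] [IsDedekindDomain O]

theorem absNorm_span (x : O) : Ideal.absNorm (Ideal.span {x}) = (Q.nrm x).natAbs := by
  rw [Ideal.absNorm_span_singleton, Q.norm_eq_nrm]

omit [Module.Finite ℤ O] in
theorem eq_of_le_of_absNorm {J K : Ideal O} (h : J ≤ K)
    (he : Ideal.absNorm J = Ideal.absNorm K) (h0 : Ideal.absNorm K ≠ 0) : J = K := by
  obtain ⟨L, rfl⟩ := Ideal.dvd_iff_le.mpr h
  rw [map_mul, mul_eq_left₀ h0, Ideal.absNorm_eq_one_iff] at he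
  rw [he, Ideal.mul_top]

omit [Module.Free ℤ O] [Module.Finite ℤ O] [IsDedekindDomain O] in
theorem frame_cube_le {α β δ : O} {x : Fin 4 → O} (h : Q.Frame α β δ x) :
    pairIdeal α β ^ 3 ≤ Ideal.span {δ} := by
  obtain ⟨h0, h1, h2, h3, -, -⟩ := h
  have d0 : δ ∣ α ^ 3 := ⟨_, h0.symm⟩
  have d1 : δ ∣ α ^ 2 * β := ⟨_, h1.symm⟩
  have d2 : δ ∣ α * β ^ 2 := ⟨_, h2.symm⟩
  have d3 : δ ∣ β ^ 3 := ⟨_, h3.symm⟩
  rw [pow_succ, pow_two, pairIdeal, Ideal.span_mul_span', Ideal.span_mul_span', Ideal.span_le]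
  intro z hz
  simp only [Set.mem_mul, Set.mem_insert_iff, Set.mem_singleton_iff] at hz
  obtain ⟨_, ⟨a, ha, b, hb, rfl⟩, c, hc, rfl⟩ := hz
  rw [SetLike.mem_coe, Ideal.mem_span_singleton]
  rcases ha with rfl | rfl <;> rcases hb with rfl | rfl <;> rcases hc with rfl | rfl
  all_goals first
    | (convert d1 using 1; ring1)
    | (convert d2 using 1; ring1)
    | (convert d3 using 1; ring1)
    | (convert d0 using 1; ring1)

omit [Module.Free ℤ O] [Module.Finite ℤ O] in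
theorem ideal_cube_inj {I J : Ideal O} (hI : I ≠ 0) (hJ : J ≠ 0) (e : I ^ 3 = J ^ 3) : I = J := by
  have h := congrArg UniqueFactorizationMonoid.normalizedFactors e
  rw [UniqueFactorizationMonoid.normalizedFactors_pow,
    UniqueFactorizationMonoid.normalizedFactors_pow] at h
  exact associated_iff_eq.mp
    ((UniqueFactorizationMonoid.associated_iff_normalizedFactors_eq_normalizedFactors hI hJ).mpr
      (nsmul_right_injective three_ne_zero h))

variable {g h : CubicForm}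

theorem absNorm_psi (hsq : ¬ IsSquare Q.disc) (hD : redDisc g = Q.disc) :
    Ideal.absNorm (Q.psi g).1 = ((hessP g).natAbs) ^ 2 := by
  have hP : hessP g ≠ 0 := hessP_ne_zero (hD ▸ hsq)
  have := Q.absNorm_pairIdeal (Q.omega_mem_q0 hD) (Q.omega_mem_q1 hD)
    (by rw [Q.det2_q01 hD]; exact pow_ne_zero _ hP)
  rw [Q.det2_q01 hD, Int.abs_eq_natAbs, Int.natAbs_pow] at this
  exact_mod_cast this

theorem isPair_psi (hsq : ¬ IsSquare Q.disc) (hD : redDisc g = Q.disc) : Q.IsPair (Q.psi g) := by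
  have hP : hessP g ≠ 0 := hessP_ne_zero (hD ▸ hsq)
  have hn : Q.nrm (Q.q0 g ^ 2) = hessP g ^ 6 := by rw [Q.nrm_pow, Q.nrm_q0 hD]; ring
  have hq : Q.q0 g ^ 2 ≠ 0 := fun e => pow_ne_zero 6 hP
    (by rw [← hn, e]; simpa using Q.nrm_intCast 0)
  refine ⟨hq, ?_, by show 0 < Q.nrm (Q.q0 g ^ 2); rw [hn]; positivity⟩
  refine eq_of_le_of_absNorm (Q.frame_cube_le (Q.frame_q hD hP)) ?_ ?_
  · rw [map_pow, Q.absNorm_psi hsq hD]
    show _ = Ideal.absNorm (Ideal.span {Q.q0 g ^ 2})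
    rw [Q.absNorm_span, hn, Int.natAbs_pow, ← pow_mul]
  · show Ideal.absNorm (Ideal.span {Q.q0 g ^ 2}) ≠ 0
    rw [Q.absNorm_span, hn, Int.natAbs_ne_zero]
    positivity

theorem psi_move (hsq : ¬ IsSquare Q.disc) (hD : redDisc g = Q.disc) (e : TriEquiv g h) :
    PairRel (Q.psi g) (Q.psi h) := by
  obtain ⟨p, q, r, s, h1, rfl⟩ := e
  have hP : hessP g ≠ 0 := hessP_ne_zero (hD ▸ hsq)
  have hf := Q.frame_move (Q.frame_q hD hP) h1
  have hrel := Q.rel_of_frame hsq hf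
  rw [pairIdeal_move _ _ h1, Q.formOf_moveFrame] at hrel
  have e : Q.formOf ![Q.q0 g, Q.q1 g, Q.q2 g, Q.q3 g] = g := by
    ext <;> simp [formOf, oc_q0, oc_q1, oc_q2, oc_q3]
  rwa [e] at hrel

theorem psi_inj (hsq : ¬ IsSquare Q.disc) (hg : redDisc g = Q.disc) (hh : redDisc h = Q.disc)
    (e : PairRel (Q.psi g) (Q.psi h)) : TriEquiv g h := by
  obtain ⟨κ, μ, hκ, hμ, hI, hδ⟩ := e
  simp only [psi] at hI hδ
  rw [span_mul_pair, span_mul_pair] at hI
  have hPg : hessP g ≠ 0 := hessP_ne_zero (hg ▸ hsq)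
  have hPh : hessP h ≠ 0 := hessP_ne_zero (hh ▸ hsq)
  have fg := Q.frame_scale (Q.frame_q hg hPg) hμ
  have fh := Q.frame_scale (Q.frame_q hh hPh) hκ
  rw [← hδ] at fh
  have hom : ∀ v, Q.omega * v ∈ pairSpan (Q.q0 g) (Q.q1 g) →
      Q.omega * (μ * v) ∈ pairSpan (μ * Q.q0 g) (μ * Q.q1 g) := fun v hv => by
    obtain ⟨x, y, hxy⟩ := mem_pairSpan.mp hv
    exact mem_pairSpan.mpr ⟨x, y, by linear_combination μ * hxy⟩
  have hmem : ∀ z ∈ pairIdeal (κ * Q.q0 h) (κ * Q.q1 h),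
      z ∈ pairSpan (μ * Q.q0 g) (μ * Q.q1 g) := fun z hz => by
    rw [← hI] at hz
    exact (Q.pairIdeal_coe (hom _ (Q.omega_mem_q0 hg)) (hom _ (Q.omega_mem_q1 hg)) z).mp hz
  obtain ⟨p, r, hp⟩ := mem_pairSpan.mp (hmem _ (Ideal.subset_span (Set.mem_insert _ _)))
  obtain ⟨q, s, hq⟩ := mem_pairSpan.mp
    (hmem _ (Ideal.subset_span (Set.mem_insert_of_mem _ (Set.mem_singleton _))))
  have h1 : p * s - q * r = 1 := by
    have hd : Q.det2 (κ * Q.q0 h) (κ * Q.q1 h) = Q.det2 (μ * Q.q0 g) (μ * Q.q1 g) := by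
      have := fg.2.2.2.2.2
      rw [fh.2.2.2.2.2] at this
      exact (Odd.pow_inj (by decide : Odd 3)).mp this
    rw [← hp, ← hq, Q.det2_comb] at hd
    exact (mul_eq_right₀ fg.2.2.2.2.1).mp hd
  have fm := Q.frame_move fg h1
  rw [hp, hq] at fm
  have e := congrArg Q.formOf (Q.frame_unique fh fm)
  rw [Q.formOf_moveFrame] at e
  refine ⟨p, q, r, s, h1, ?_⟩
  calc h = Q.formOf ![Q.q0 h, Q.q1 h, Q.q2 h, Q.q3 h] := by
        ext <;> simp [formOf, oc_q0, oc_q1, oc_q2, oc_q3]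
    _ = triMove (Q.formOf ![Q.q0 g, Q.q1 g, Q.q2 g, Q.q3 g]) p q r s := e
    _ = triMove g p q r s := by simp [formOf, oc_q0, oc_q1, oc_q2, oc_q3]

theorem exists_frame {I : Ideal O} {δ : O} (hz : Q.IsPair (I, δ)) :
    ∃ α β x, Q.Frame α β δ x ∧ pairIdeal α β = I := by
  obtain ⟨hδ, hI, hN⟩ := hz
  simp only at hδ hI hN
  have hI0 : I ≠ ⊥ := fun e => hδ (Ideal.span_singleton_eq_bot.mp (by rw [← hI, e]; simp))
  set bI := Ideal.selfBasis Q.b I hI0
  have hnorm : (Q.det2 (bI 0 : O) (bI 1 : O)).natAbs = Ideal.absNorm I := by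
    rw [← Ideal.natAbs_det_basis_change Q.b I bI, Basis.det_apply, Matrix.det_fin_two]
    congr 1
    simp [Basis.toMatrix_apply, det2, rc, oc]
    ring
  have hcube : Ideal.absNorm I ^ 3 = (Q.nrm δ).natAbs := by
    rw [← map_pow, hI, Q.absNorm_span]
  have hspan : ∀ z ∈ I, ∃ x y : ℤ, (x : O) * (bI 0 : O) + (y : O) * (bI 1 : O) = z := by
    intro z hz
    refine ⟨bI.repr ⟨z, hz⟩ 0, bI.repr ⟨z, hz⟩ 1, ?_⟩
    have := congrArg (fun w : I => (w : O)) (bI.sum_repr ⟨z, hz⟩)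
    simp only [Fin.sum_univ_two, Submodule.coe_add] at this
    change bI.repr ⟨z, hz⟩ 0 • (bI 0 : O) + bI.repr ⟨z, hz⟩ 1 • (bI 1 : O) = z at this
    rw [zsmul_eq_mul, zsmul_eq_mul] at this
    exact this
  obtain ⟨α, β, hα, hβ, hd, hgen⟩ : ∃ α β : O, α ∈ I ∧ β ∈ I ∧
      Q.det2 α β = (Ideal.absNorm I : ℤ) ∧ ∀ z ∈ I, ∃ x y : ℤ, (x : O) * α + (y : O) * β = z := by
    rcases Int.natAbs_eq (Q.det2 (bI 0 : O) (bI 1 : O)) with h | h <;> rw [hnorm] at h
    · exact ⟨_, _, (bI 0).2, (bI 1).2, h, hspan⟩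
    · refine ⟨_, _, (bI 1).2, (bI 0).2, ?_, fun z hz => ?_⟩
      · simp only [det2] at h ⊢
        linarith
      · obtain ⟨x, y, e⟩ := hspan z hz
        exact ⟨y, x, by rw [← e]; ring⟩
  have hmon : ∀ a b c : O, a ∈ I → b ∈ I → c ∈ I → ∃ y, δ * y = a * b * c :=
      fun a b c ha hb hc => by
    have : a * b * c ∈ I ^ 3 := by
      rw [pow_succ, pow_two]; exact Ideal.mul_mem_mul (Ideal.mul_mem_mul ha hb) hc
    rw [hI, Ideal.mem_span_singleton'] at this
    obtain ⟨y, hy⟩ := this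
    exact ⟨y, by rw [← hy]; ring⟩
  obtain ⟨y0, e0⟩ := hmon α α α hα hα hα
  obtain ⟨y1, e1⟩ := hmon α α β hα hα hβ
  obtain ⟨y2, e2⟩ := hmon α β β hα hβ hβ
  obtain ⟨y3, e3⟩ := hmon β β β hβ hβ hβ
  refine ⟨α, β, ![y0, y1, y2, y3], ⟨?_, ?_, ?_, ?_, ?_, ?_⟩, le_antisymm ?_ fun z hz => ?_⟩
  · show δ * y0 = _; rw [e0]; ring
  · show δ * y1 = _; rw [e1]; ring
  · show δ * y2 = _; rw [e2]; ring
  · show δ * y3 = _; rw [e3]; ring
  · rw [hd, Int.natCast_ne_zero]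
    exact fun e => hI0 (Ideal.absNorm_eq_zero_iff.mp e)
  · rw [hd, ← Nat.cast_pow, hcube, Int.natAbs_of_nonneg hN.le]
  · rw [pairIdeal, Ideal.span_le]
    rintro z (rfl | rfl) <;> assumption
  · obtain ⟨x, y, e⟩ := hgen z hz
    exact Ideal.mem_span_pair.mpr ⟨x, y, e⟩

theorem psi_surj (hsq : ¬ IsSquare Q.disc) {z : Ideal O × O} (hz : Q.IsPair z) :
    ∃ g, redDisc g = Q.disc ∧ PairRel z (Q.psi g) := by
  obtain ⟨α, β, x, hf, hI⟩ := Q.exists_frame (I := z.1) (δ := z.2) hz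
  refine ⟨_, (Q.frame_eq hsq hf).1, ?_⟩
  have := Q.rel_of_frame hsq hf
  rwa [hI] at this

theorem trivial_iff (hsq : ¬ IsSquare Q.disc) (hD : redDisc g = Q.disc) :
    PairRel (Q.psi g) (⊤, 1) ↔ ¬ (tri g).Anisotropic := by
  constructor
  · intro e hA
    have hf : Q.Frame 1 Q.omega 1 ![1, Q.omega, Q.omega ^ 2, Q.omega ^ 3] := by
      have h1 : Q.nrm (1 : O) = 1 := by simpa using Q.nrm_intCast 1
      have h2 : Q.det2 1 Q.omega = 1 := by
        simp [det2, Q.oc_one, show Q.rc (1 : O) = 1 by simpa using Q.rc_intCast 1]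
      refine ⟨by simp, by simp, by simp, by simp, by rw [h2]; exact one_ne_zero,
        by rw [h1, h2, one_pow]⟩
    have hrel := Q.rel_of_frame hsq hf
    have htop : pairIdeal (1 : O) Q.omega = ⊤ :=
      Ideal.eq_top_of_isUnit_mem _ (Ideal.subset_span (Set.mem_insert _ _)) isUnit_one
    rw [htop] at hrel
    have hequiv := Q.psi_inj hsq hD (Q.frame_eq hsq hf).1 (pairRel_trans e hrel)
    have hA' := FA.CubicFormCount.twisted_anisotropic (twisted_of_triEquiv hequiv) hA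
    exact hA'.a_ne_zero (by simp [tri, formOf, Q.oc_one])
  · intro hA
    simp only [CubicForm.Anisotropic, not_forall] at hA
    obtain ⟨X, Y, h0, hne⟩ := hA
    obtain ⟨p, r, hco, hpr⟩ : ∃ p r : ℤ, Int.gcd p r = 1 ∧ (tri g).eval p r = (0 : ℤ) := by
      have hpos := Int.gcd_pos_iff.mpr (show X ≠ 0 ∨ Y ≠ 0 by tauto)
      obtain ⟨X', Y', hco, hX, hY⟩ := Int.exists_gcd_one hpos
      refine ⟨X', Y', hco, ?_⟩
      have hk : (Int.gcd X Y : ℤ) ≠ 0 := by exact_mod_cast hpos.ne'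
      generalize ((Int.gcd X Y : ℕ) : ℤ) = k at hX hY hk
      subst hX hY
      refine (mul_eq_zero.mp (?_ : k ^ 3 * (tri g).eval X' Y' = 0)).resolve_left
        (pow_ne_zero _ hk)
      rw [← h0]
      simp only [CubicForm.eval, Int.cast_id]
      ring
    obtain ⟨s, q, hb⟩ : ∃ s q : ℤ, p * s - q * r = 1 := by
      refine ⟨Int.gcdA p r, -Int.gcdB p r, ?_⟩
      have := Int.gcd_eq_gcd_ab p r
      rw [hco] at this
      push_cast at this
      linarith
    set g' := triMove g p q r s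
    have hD' : redDisc g' = Q.disc := by rw [redDisc_triMove, hb]; simpa using hD
    have ha : g'.a = 0 := by
      rw [← hpr]; simp only [g', triMove, tri, CubicForm.eval, Int.cast_id]; ring
    refine pairRel_trans (Q.psi_move hsq hD ⟨p, q, r, s, hb, rfl⟩) ?_
    have hb0 : g'.b ≠ 0 := fun e => hessP_ne_zero (hD' ▸ hsq) (by simp [hessP, ha, e])
    have hq0 : Q.q0 g' = ((g'.b ^ 3 : ℤ) : O) := by
      rw [q0, elemOf, show (cubCov g').a = 2 * g'.b ^ 3 by simp [cubCov, cov0, ha], ha, mul_zero,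
        sub_zero, Int.mul_ediv_cancel_left _ two_ne_zero, Int.cast_zero, zero_mul, add_zero]
    have hP := Q.isPair_psi hsq hD'
    have := Q.charZero
    have hb' : ((g'.b : O)) ^ 2 ≠ 0 := pow_ne_zero _ (by exact_mod_cast hb0)
    refine ⟨(g'.b : O) ^ 2, 1, hb', one_ne_zero, ?_, ?_⟩
    · have e : (Q.psi g').1 ^ 3 = Ideal.span {(g'.b : O) ^ 2} ^ 3 := by
        rw [hP.2.1, Ideal.span_singleton_pow]
        simp only [psi, hq0]
        push_cast
        ring_nf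
      rw [Ideal.span_singleton_one, Ideal.top_mul, Ideal.mul_top]
      refine ideal_cube_inj (fun h => hP.1 ?_) (by simpa using hb0) e
      have h3 := hP.2.1
      rw [h, zero_pow three_ne_zero] at h3
      exact Ideal.span_singleton_eq_bot.mp h3.symm
    · rw [show (Q.psi g').2 = Q.q0 g' ^ 2 from rfl, hq0]
      push_cast
      ring

theorem mirror_a (g : CubicForm) : (mirror g).a = g.a := rfl

theorem mirror_b (g : CubicForm) : (mirror g).b = -g.b := rfl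

theorem mirror_c (g : CubicForm) : (mirror g).c = g.c := rfl

theorem mirror_d (g : CubicForm) : (mirror g).d = -g.d := rfl

theorem mirror_mul (hsq : ¬ IsSquare Q.disc) (hD : redDisc g = Q.disc) :
    (Q.psi g).1 * (Q.psi (mirror g)).1 = Ideal.span {((hessP g : ℤ) : O) ^ 2} := by
  have hD' : redDisc (mirror g) = Q.disc := by rw [redDisc_mirror, hD]
  have := Q.charZero
  have h2 := mul_ne_zero Q.two_ne Q.two_ne
  obtain ⟨k, hk⟩ := (Q.parity hD).2.2.2.2
  have hk' := congrArg (fun x : ℤ => (x : O)) hk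
  have H0 := Q.two_q0 hD
  have H1 := Q.two_q1 hD
  have M0 := Q.two_q0 hD'
  have M1 := Q.two_q1 hD'
  have hw : 2 * Q.omega = (Q.t : O) + Q.sqrtD := by rw [sqrtD]; ring
  have h := Q.sqrtD_sq' hD
  simp only [cubCov, cast_cov0, cast_cov1, mirror_a, mirror_b, mirror_c, mirror_d] at H0 H1 M0 M1
  push_cast [hessQ] at hk'
  simp only [cov0, cov1, rDisc, Int.cast_neg] at h H0 H1 M0 M1
  refine eq_of_le_of_absNorm ?_ ?_ ?_
  · simp only [psi, pairIdeal]
    rw [Ideal.span_mul_span', Ideal.span_le]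
    intro z hz
    simp only [Set.mem_mul, Set.mem_insert_iff, Set.mem_singleton_iff] at hz
    obtain ⟨a, ha, b, hb, rfl⟩ := hz
    rw [SetLike.mem_coe, Ideal.mem_span_singleton']
    rcases ha with rfl | rfl <;> rcases hb with rfl | rfl
    · refine ⟨((-hessP g : ℤ) : O), mul_left_cancel₀ h2 ?_⟩
      simp only [hessP]; push_cast
      linear_combination -(2 * Q.q0 (mirror g)) * H0 -
        ((2 * (g.b : O) ^ 3 - 3 * g.a * g.b * g.c + g.a ^ 2 * g.d) + g.a * Q.sqrtD) * M0 -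
        (g.a : O) ^ 2 * h
    · refine ⟨(k : O) - Q.omega, mul_left_cancel₀ h2 ?_⟩
      simp only [hessP]; push_cast
      linear_combination -(2 * Q.q1 (mirror g)) * H0 -
        ((2 * (g.b : O) ^ 3 - 3 * g.a * g.b * g.c + g.a ^ 2 * g.d) + g.a * Q.sqrtD) * M1 +
        (g.a : O) * g.b * h - 2 * (((g.b : O) ^ 2 - g.a * g.c) ^ 2) * (hw + hk')
    · refine ⟨((g.a * g.d - g.b * g.c + k : ℤ) : O) - Q.omega, mul_left_cancel₀ h2 ?_⟩
      simp only [hessP]; push_cast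
      linear_combination -(2 * Q.q0 (mirror g)) * H1 -
        (((g.b : O) ^ 2 * g.c - 2 * g.a * g.c ^ 2 + g.a * g.b * g.d) + g.b * Q.sqrtD) * M0 -
        (g.a : O) * g.b * h - 2 * (((g.b : O) ^ 2 - g.a * g.c) ^ 2) * (hw + hk')
    · refine ⟨((hessR g : ℤ) : O), mul_left_cancel₀ h2 ?_⟩
      simp only [hessP, hessR]; push_cast
      linear_combination -(2 * Q.q1 (mirror g)) * H1 -
        (((g.b : O) ^ 2 * g.c - 2 * g.a * g.c ^ 2 + g.a * g.b * g.d) + g.b * Q.sqrtD) * M1 +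
        (g.b : O) ^ 2 * h
  · rw [map_mul, Q.absNorm_psi hsq hD, Q.absNorm_psi hsq hD', Q.absNorm_span, Q.nrm_pow,
      Q.nrm_intCast, ← pow_mul, Int.natAbs_pow]
    simp [hessP, mirror]
    ring
  · rw [Q.absNorm_span, Q.nrm_pow, Q.nrm_intCast, Int.natAbs_ne_zero]
    exact pow_ne_zero _ (pow_ne_zero _ (hessP_ne_zero (hD ▸ hsq)))

theorem mirror_trivial (hsq : ¬ IsSquare Q.disc) (hD : redDisc g = Q.disc)
    (e : PairRel (Q.psi g) (Q.psi (mirror g))) : PairRel (Q.psi g) (⊤, 1) := by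
  have hD' : redDisc (mirror g) = Q.disc := by rw [redDisc_mirror, hD]
  obtain ⟨κ, μ, hκ, hμ, hI, hδ⟩ := e
  have hP := Q.isPair_psi hsq hD
  have := Q.charZero
  set m : O := ((hessP g : ℤ) : O) ^ 2
  have hm : m ≠ 0 := pow_ne_zero _ (by exact_mod_cast hessP_ne_zero (hD ▸ hsq))
  have hdd : (Q.psi g).2 * (Q.psi (mirror g)).2 = m ^ 3 := by
    have h0 : 2 * Q.q0 g * (2 * Q.q0 (mirror g)) = -4 * ((hessP g : ℤ) : O) ^ 3 := by
      rw [Q.two_q0 hD, Q.two_q0 hD']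
      have h := Q.sqrtD_sq' hD
      simp only [cubCov, cast_cov0, mirror_a, mirror_b, mirror_c, mirror_d, hessP]
      simp only [cov0, rDisc] at h ⊢
      push_cast at h ⊢
      linear_combination (g.a : O) ^ 2 * h
    refine mul_left_cancel₀ (pow_ne_zero 4 Q.two_ne) ?_
    simp only [psi, m]
    linear_combination (2 * Q.q0 g * (2 * Q.q0 (mirror g)) - 4 * ((hessP g : ℤ) : O) ^ 3) * h0
  refine ⟨μ * (Q.psi g).2, κ * m, mul_ne_zero hμ hP.1, mul_ne_zero hκ hm, ?_, ?_⟩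
  · show Ideal.span {κ * m} * (Q.psi g).1 = Ideal.span {μ * (Q.psi g).2} * ⊤
    rw [Ideal.mul_top, ← Ideal.span_singleton_mul_span_singleton,
      ← Ideal.span_singleton_mul_span_singleton, ← hP.2.1, pow_succ, pow_two,
      ← Q.mirror_mul hsq hD]
    calc Ideal.span {κ} * ((Q.psi g).1 * (Q.psi (mirror g)).1) * (Q.psi g).1
        = Ideal.span {κ} * (Q.psi (mirror g)).1 * (Q.psi g).1 * (Q.psi g).1 := by
          simp only [mul_comm, mul_left_comm]
      _ = _ := by rw [← hI]; simp only [mul_comm, mul_left_comm]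
  · show (κ * m) ^ 3 * (Q.psi g).2 = (μ * (Q.psi g).2) ^ 3 * 1
    linear_combination -κ ^ 3 * (Q.psi g).2 * hdd - (Q.psi g).2 ^ 2 * hδ

end

end QData

end FA.ThreeTorsion
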