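import Mathlib.RingTheory.Ideal.Norm.AbsNorm
import Mathlib.RingTheory.Norm.Defs
import Mathlib.RingTheory.DedekindDomain.Basic
import Mathlib.LinearAlgebra.Matrix.Determinant.Basic

/-!
# Quadratic rings with a basis `1, ω`

`ω² = t ω + n`, the discriminant is `D = t² + 4 n`, `w = 2 ω - t` squares to `D`, and an ideal with
`ℤ`-basis `α, β` has norm `|det (α, β)|`.
-/

set_option autoImplicit false

noncomputable section

open Module

namespace FA.ThreeTorsion

/-- A basis `1, ω` of a ring. -/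
structure QData (O : Type) [CommRing O] where
  /-- The basis. -/
  b : Basis (Fin 2) ℤ O
  h0 : b 0 = 1

namespace QData

variable {O : Type} [CommRing O] (Q : QData O)

/-- The second basis vector. -/
def omega : O := Q.b 1

/-- The coefficient of `1`. -/
def rc (x : O) : ℤ := Q.b.repr x 0

/-- The coefficient of `ω`. -/
def oc (x : O) : ℤ := Q.b.repr x 1

/-- The trace of `ω`. -/
def t : ℤ := Q.oc (Q.omega * Q.omega)

/-- Minus the norm of `ω`. -/
def n : ℤ := Q.rc (Q.omega * Q.omega)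

/-- The discriminant. -/
def disc : ℤ := Q.t ^ 2 + 4 * Q.n

theorem expand (x : O) : x = (Q.rc x : O) + (Q.oc x : O) * Q.omega := by
  conv_lhs => rw [← Q.b.sum_repr x, Fin.sum_univ_two, Q.h0]
  simp [rc, oc, omega, zsmul_eq_mul]

theorem coeff_of_eq {x : O} {a c : ℤ} (h : x = (a : O) + (c : O) * Q.omega) :
    Q.rc x = a ∧ Q.oc x = c := by
  have e : x = a • Q.b 0 + c • Q.b 1 := by
    rw [Q.h0, zsmul_eq_mul, zsmul_eq_mul, mul_one]; exact h
  rw [rc, oc, e, map_add, map_smul, map_smul, Q.b.repr_self, Q.b.repr_self]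
  constructor <;> simp

theorem ext' {x y : O} (h1 : Q.rc x = Q.rc y) (h2 : Q.oc x = Q.oc y) : x = y := by
  rw [Q.expand x, Q.expand y, h1, h2]

theorem omega_sq : Q.omega * Q.omega = (Q.n : O) + (Q.t : O) * Q.omega := Q.expand _

theorem mul_coeff (x y : O) :
    Q.rc (x * y) = Q.rc x * Q.rc y + Q.n * (Q.oc x * Q.oc y) ∧
      Q.oc (x * y) = Q.rc x * Q.oc y + Q.oc x * Q.rc y + Q.t * (Q.oc x * Q.oc y) := by
  refine Q.coeff_of_eq ?_
  conv_lhs => rw [Q.expand x, Q.expand y]
  push_cast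
  linear_combination ((Q.oc x : O) * Q.oc y) * Q.omega_sq

@[simp] theorem rc_intCast (k : ℤ) : Q.rc (k : O) = k :=
  (Q.coeff_of_eq (a := k) (c := 0) (by simp)).1

@[simp] theorem oc_intCast (k : ℤ) : Q.oc (k : O) = 0 :=
  (Q.coeff_of_eq (a := k) (c := 0) (by simp)).2

@[simp] theorem rc_omega : Q.rc Q.omega = 0 := (Q.coeff_of_eq (a := 0) (c := 1) (by simp)).1

@[simp] theorem oc_omega : Q.oc Q.omega = 1 := (Q.coeff_of_eq (a := 0) (c := 1) (by simp)).2

theorem intCast_inj (Q : QData O) {a c : ℤ} (h : (a : O) = (c : O)) : a = c := by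
  have h' := congrArg (QData.rc Q) h
  rwa [Q.rc_intCast, Q.rc_intCast] at h'

theorem nontrivial (Q : QData O) : Nontrivial O :=
  ⟨⟨0, 1, fun h => zero_ne_one (α := ℤ) (Q.intCast_inj (by push_cast; exact h))⟩⟩

theorem moduleFinite (Q : QData O) : Module.Finite ℤ O := Module.Finite.of_basis Q.b

theorem moduleFree (Q : QData O) : Module.Free ℤ O := Module.Free.of_basis Q.b

theorem charZero (Q : QData O) : CharZero O :=
  charZero_of_inj_zero fun k hk => by
    have : ((k : ℤ) : O) = ((0 : ℤ) : O) := by push_cast; exact hk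
    exact_mod_cast Q.intCast_inj this

/-- The conjugation. -/
def conj : O →+* O where
  toFun x := ((Q.rc x + Q.t * Q.oc x : ℤ) : O) - (Q.oc x : O) * Q.omega
  map_one' := by
    have h := Q.coeff_of_eq (x := (1 : O)) (a := 1) (c := 0) (by simp)
    rw [h.1, h.2]; simp
  map_mul' x y := by
    rw [(Q.mul_coeff x y).1, (Q.mul_coeff x y).2]
    push_cast
    linear_combination -((Q.oc x : O) * Q.oc y) * Q.omega_sq
  map_zero' := by
    have h := Q.coeff_of_eq (x := (0 : O)) (a := 0) (c := 0) (by simp)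
    rw [h.1, h.2]; simp
  map_add' x y := by
    have h := Q.coeff_of_eq (x := x + y) (a := Q.rc x + Q.rc y) (c := Q.oc x + Q.oc y)
      (by conv_lhs => rw [Q.expand x, Q.expand y]
          push_cast; ring)
    rw [h.1, h.2]
    push_cast
    ring

theorem conj_apply (x : O) :
    Q.conj x = ((Q.rc x + Q.t * Q.oc x : ℤ) : O) - (Q.oc x : O) * Q.omega := rfl

/-- The square root of the discriminant. -/
def sqrtD : O := 2 * Q.omega - (Q.t : O)

theorem sqrtD_sq : Q.sqrtD * Q.sqrtD = (Q.disc : O) := by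
  rw [sqrtD, disc]
  push_cast
  linear_combination 4 * Q.omega_sq

theorem conj_sqrtD : Q.conj Q.sqrtD = -Q.sqrtD := by
  have : Q.conj Q.omega = (Q.t : O) - Q.omega := by simp [conj_apply]
  rw [sqrtD, map_sub, map_mul, this, map_intCast, map_ofNat]
  ring

/-- The norm. -/
def nrm (x : O) : ℤ := Q.rc x ^ 2 + Q.t * Q.rc x * Q.oc x - Q.n * Q.oc x ^ 2

theorem nrm_eq (x : O) : (Q.nrm x : O) = x * Q.conj x := by
  conv_rhs => rw [conj_apply]; arg 1; rw [Q.expand x]
  rw [nrm]
  push_cast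
  linear_combination ((Q.oc x : O) ^ 2) * Q.omega_sq

theorem norm_eq_nrm (x : O) : Algebra.norm ℤ x = Q.nrm x := by
  rw [Algebra.norm_eq_matrix_det Q.b, Matrix.det_fin_two]
  have e : ∀ i j, Algebra.leftMulMatrix Q.b x i j = Q.b.repr (x * Q.b j) i := fun i j =>
    Algebra.leftMulMatrix_eq_repr_mul Q.b x i j
  simp only [e, Q.h0, mul_one]
  have h := Q.mul_coeff x Q.omega
  simp only [rc_omega, oc_omega] at h
  change Q.rc x * Q.oc (x * Q.omega) - Q.rc (x * Q.omega) * Q.oc x = _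
  rw [h.1, h.2, nrm]
  ring

theorem nrm_mul (x y : O) : Q.nrm (x * y) = Q.nrm x * Q.nrm y := by
  rw [← Q.norm_eq_nrm, ← Q.norm_eq_nrm, ← Q.norm_eq_nrm, map_mul]

theorem nrm_pow (x : O) (k : ℕ) : Q.nrm (x ^ k) = Q.nrm x ^ k := by
  rw [← Q.norm_eq_nrm, ← Q.norm_eq_nrm, map_pow]

@[simp] theorem nrm_intCast (k : ℤ) : Q.nrm (k : O) = k ^ 2 := by simp [nrm]

/-- The determinant of a pair. -/
def det2 (α β : O) : ℤ := Q.rc α * Q.oc β - Q.oc α * Q.rc β

theorem cross_eq (α β : O) :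
    α * Q.conj β - Q.conj α * β = -(Q.det2 α β : O) * Q.sqrtD := by
  rw [conj_apply, conj_apply, det2, sqrtD]
  conv_lhs => arg 1; arg 1; rw [Q.expand α]
  conv_lhs => arg 2; arg 2; rw [Q.expand β]
  push_cast
  ring

/-- The lattice of a pair. -/
def pairSpan (α β : O) : Submodule ℤ O := Submodule.span ℤ {α, β}

theorem mem_pairSpan {α β z : O} :
    z ∈ pairSpan α β ↔ ∃ x y : ℤ, (x : O) * α + (y : O) * β = z := by
  simp [pairSpan, Submodule.mem_span_pair, zsmul_eq_mul]

theorem coord_combination (α β : O) (x y : ℤ) :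
    Q.rc ((x : O) * α + (y : O) * β) = x * Q.rc α + y * Q.rc β ∧
      Q.oc ((x : O) * α + (y : O) * β) = x * Q.oc α + y * Q.oc β := by
  refine Q.coeff_of_eq ?_
  conv_lhs => rw [Q.expand α, Q.expand β]
  push_cast
  ring

theorem indep {α β : O} (h : Q.det2 α β ≠ 0) {x y : ℤ} (he : (x : O) * α + (y : O) * β = 0) :
    x = 0 ∧ y = 0 := by
  obtain ⟨e1, e2⟩ := Q.coord_combination α β x y
  have z := Q.coeff_of_eq (x := (0 : O)) (a := 0) (c := 0) (by simp)
  rw [he, z.1] at e1
  rw [he, z.2] at e2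
  rw [det2] at h
  constructor
  · refine (mul_eq_zero.mp (?_ : x * (Q.rc α * Q.oc β - Q.oc α * Q.rc β) = 0)).resolve_right h
    linear_combination Q.rc β * e2 - Q.oc β * e1
  · refine (mul_eq_zero.mp (?_ : y * (Q.rc α * Q.oc β - Q.oc α * Q.rc β) = 0)).resolve_right h
    linear_combination Q.oc α * e1 - Q.rc α * e2

theorem det2_ne_zero_left {α β : O} (h : Q.det2 α β ≠ 0) : α ≠ 0 := fun h0 =>
  one_ne_zero (Q.indep h (x := 1) (y := 0) (by simp [h0])).1

/-- The ideal of a pair. -/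
def pairIdeal (α β : O) : Ideal O := Ideal.span {α, β}

theorem pairIdeal_coe {α β : O} (hα : Q.omega * α ∈ pairSpan α β)
    (hβ : Q.omega * β ∈ pairSpan α β) (z : O) : z ∈ pairIdeal α β ↔ z ∈ pairSpan α β := by
  constructor
  · intro hz
    have hom : ∀ v ∈ pairSpan α β, Q.omega * v ∈ pairSpan α β := by
      intro v hv
      obtain ⟨x, y, rfl⟩ := mem_pairSpan.mp hv
      rw [mul_add, mul_left_comm, ← zsmul_eq_mul, mul_left_comm, ← zsmul_eq_mul]
      exact add_mem (Submodule.smul_mem _ _ hα) (Submodule.smul_mem _ _ hβ)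
    refine Submodule.span_induction (p := fun v _ => v ∈ pairSpan α β) ?_ (zero_mem _)
      (fun _ _ _ _ h1 h2 => add_mem h1 h2) ?_ hz
    · exact fun v hv => Submodule.subset_span hv
    · intro r v _ hv
      rw [smul_eq_mul, Q.expand r, add_mul, mul_assoc, ← zsmul_eq_mul, ← zsmul_eq_mul]
      exact add_mem (Submodule.smul_mem _ _ hv) (Submodule.smul_mem _ _ (hom v hv))
  · intro hz
    obtain ⟨x, y, rfl⟩ := mem_pairSpan.mp hz
    exact add_mem (Ideal.mul_mem_left _ _ (Ideal.subset_span (by simp)))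
      (Ideal.mul_mem_left _ _ (Ideal.subset_span (by simp)))

theorem absNorm_pairIdeal [IsDedekindDomain O] [Module.Free ℤ O] [Module.Finite ℤ O] {α β : O}
    (hα : Q.omega * α ∈ pairSpan α β) (hβ : Q.omega * β ∈ pairSpan α β)
    (hd : Q.det2 α β ≠ 0) :
    (Ideal.absNorm (pairIdeal α β) : ℤ) = |Q.det2 α β| := by
  have := Q.charZero
  have hmem : ∀ i, ![α, β] i ∈ pairIdeal α β := fun i => by
    fin_cases i <;> exact Ideal.subset_span (by simp)
  set v : Fin 2 → pairIdeal α β := fun i => ⟨![α, β] i, hmem i⟩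
  have hsum : ∀ c : Fin 2 → ℤ, (((∑ i, c i • v i : pairIdeal α β)) : O) =
      (c 0 : O) * α + (c 1 : O) * β := fun c => by
    simp [Fin.sum_univ_two, v, zsmul_eq_mul]
  have hli : LinearIndependent ℤ v := by
    rw [Fintype.linearIndependent_iff]
    intro c hc i
    have h := hsum c
    rw [hc, Submodule.coe_zero] at h
    obtain ⟨h0, h1⟩ := Q.indep hd h.symm
    fin_cases i <;> assumption
  have hsp : ⊤ ≤ Submodule.span ℤ (Set.range v) := by
    intro z _
    obtain ⟨x, y, hxy⟩ := mem_pairSpan.mp ((Q.pairIdeal_coe hα hβ _).mp z.2)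
    have : (∑ i, ![x, y] i • v i : pairIdeal α β) = z := Subtype.ext (by rw [hsum]; simpa using hxy)
    rw [← this]
    exact sum_mem fun i _ => Submodule.smul_mem _ _ (Submodule.subset_span ⟨i, rfl⟩)
  rw [← Ideal.natAbs_det_basis_change Q.b (pairIdeal α β) (Basis.mk hli hsp), Int.natCast_natAbs]
  congr 1
  rw [Basis.det_apply, Matrix.det_fin_two]
  simp [Basis.toMatrix_apply, v, det2, rc, oc]
  ring

end QData

end FA.ThreeTorsion
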