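import Fermat.Agent.CubicFields.Sieve
import Fermat.Agent.ThreeTorsion.Local
import Fermat.Agent.ThreeTorsion.Fields

/-!
# Forms of fundamental reduced discriminant and their local densities

`(a, 3b, 3c, d)` has fundamental reduced discriminant at every prime exactly when it lies in the
good set at `3` and avoids the sharp bad set at every other prime; the density is the product of
the local ones.
-/

set_option autoImplicit false

noncomputable section

open FA.Thue FA.DeloneFaddeev FA.CubicFormCount FA.CubicFields Filter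
open scoped Classical Topology Real

namespace FA.ThreeTorsion

/-- The forms `(a, 3b, 3c, d)` of fundamental reduced discriminant. -/
def fundForms : Set CubicForm := {f | ∃ g, f = tri g ∧ DiscGood (redDisc g)}

/-- The forms good at `3` and at the primes of `S`. -/
def goodSet (S : Finset ℕ) : Set CubicForm := {f | f ∈ goodThree ∧ ∀ p ∈ S, f ∉ sharpBad p}

theorem redDisc_mod_four (g : CubicForm) : redDisc g % 4 = 0 ∨ redDisc g % 4 = 1 := by
  rw [redDisc_eq_hess]
  rcases Int.even_or_odd (hessQ g) with ⟨j, hj⟩ | ⟨j, hj⟩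
  · left; rw [hj]; ring_nf; omega
  · right; rw [hj]; ring_nf; omega

theorem sharpBad_tri {p : ℕ} (hp : p.Prime) (h3 : p ≠ 3) (g : CubicForm) :
    tri g ∈ sharpBad p ↔ DiscBad p (redDisc g) := by
  by_cases h2 : p = 2
  · subst h2
    rw [sharpBad_iff_two, disc_tri]
    simp only [DiscBad, if_true]
    omega
  · rw [sharpBad_iff_odd hp h2 h3, disc_tri, DiscBad, if_neg h2]
    constructor
    · intro h
      have hco : IsCoprime ((p : ℤ) ^ 2) (-27) := by
        have : IsCoprime (p : ℤ) ((3 : ℕ) : ℤ) :=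
          Nat.isCoprime_iff_coprime.mpr ((Nat.coprime_primes hp Nat.prime_three).mpr h3)
        simpa using (this.pow (m := 2) (n := 3)).neg_right
      exact hco.dvd_of_dvd_mul_left h
    · exact fun h => Dvd.dvd.mul_left h _

theorem mem_fundForms {f : CubicForm} :
    f ∈ fundForms ↔ f ∈ goodThree ∧ ∀ p : ℕ, p.Prime → p ≠ 3 → f ∉ sharpBad p := by
  constructor
  · rintro ⟨g, rfl, -, hg⟩
    refine ⟨⟨g, rfl, fun h => hg 3 Nat.prime_three ?_⟩, fun p hp h3 hb =>
      hg p hp ((sharpBad_tri hp h3 g).mp hb)⟩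
    simpa [DiscBad] using h
  · rintro ⟨⟨g, rfl, h9⟩, h⟩
    refine ⟨g, rfl, redDisc_mod_four g, fun p hp hb => ?_⟩
    by_cases h3 : p = 3
    · subst h3
      exact h9 (by simpa [DiscBad] using hb)
    · exact h p hp h3 ((sharpBad_tri hp h3 g).mpr hb)

theorem fundForms_subset (S : Finset ℕ) (hS : ∀ p ∈ S, p.Prime ∧ p ≠ 3) :
    fundForms ⊆ goodSet S := fun _ hf =>
  ⟨(mem_fundForms.mp hf).1, fun p hp => (mem_fundForms.mp hf).2 p (hS p hp).1 (hS p hp).2⟩

theorem invariant_goodSet (S : Finset ℕ) :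
    ∀ f g, Twisted f g → f ∈ goodSet S → g ∈ goodSet S := fun f g h hf =>
  ⟨invariant_goodThree f g h hf.1, fun p hp hg =>
    hf.2 p hp (invariant_sharpBad p g f (twisted_symm h) hg)⟩

/-- The local factor. -/
def sharpFactor (p : ℕ) : ℝ := (1 - ((p : ℝ) ^ 2)⁻¹) ^ 2

theorem density_compl_sharpBad {p : ℕ} (hp : p.Prime) :
    density (p ^ 2) (sharpBad p)ᶜ = sharpFactor p := by
  have h1 := residues_compl_add (p ^ 2) (sharpBad p)
  have h2 := card_residues_sharpBad hp
  have hp0 : (p : ℝ) ≠ 0 := by exact_mod_cast hp.ne_zero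
  have e1 : (((residues (p ^ 2) (sharpBad p)ᶜ).card : ℝ)) + (residues (p ^ 2) (sharpBad p)).card =
      (((p : ℝ)) ^ 2) ^ 4 := by exact_mod_cast h1
  have e2 : ((residues (p ^ 2) (sharpBad p)).card : ℝ) + (p : ℝ) ^ 4 = 2 * (p : ℝ) ^ 6 := by
    exact_mod_cast h2
  rw [density, sharpFactor, eq_sub_of_add_eq e1, eq_sub_of_add_eq e2]
  push_cast
  field_simp
  ring

/-- The modulus. -/
def sharpModulus (S : Finset ℕ) : ℕ := 27 * ∏ p ∈ S, p ^ 2

theorem goodSet_facts (S : Finset ℕ) (hS : ∀ p ∈ S, p.Prime ∧ p ≠ 3) :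
    0 < sharpModulus S ∧ PeriodicSet (sharpModulus S) (goodSet S) ∧
      density (sharpModulus S) (goodSet S) = 64 / 729 * ∏ p ∈ S, sharpFactor p := by
  induction S using Finset.induction_on with
  | empty =>
    have h : goodSet ∅ = goodThree := by simp [goodSet]
    rw [h]
    simp only [sharpModulus, Finset.prod_empty, mul_one]
    refine ⟨by norm_num, periodic_goodThree, ?_⟩
    rw [density, card_goodThree]
    norm_num
  | insert p S hpS ih =>
    obtain ⟨h0, hper, hd⟩ := ih fun q hq => hS q (Finset.mem_insert_of_mem hq)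
    obtain ⟨hp, hp3⟩ := hS p (Finset.mem_insert_self p S)
    have hset : goodSet (insert p S) = (sharpBad p)ᶜ ∩ goodSet S := by
      ext f
      simp only [goodSet, Set.mem_inter_iff, Set.mem_compl_iff, Set.mem_ofPred_eq,
        Finset.forall_mem_insert]
      tauto
    have hmod : sharpModulus (insert p S) = p ^ 2 * sharpModulus S := by
      rw [sharpModulus, sharpModulus, Finset.prod_insert hpS, mul_left_comm]
    have hpp : 0 < p ^ 2 := pow_pos hp.pos 2
    have hcop : (p ^ 2).Coprime (sharpModulus S) := by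
      refine Nat.Coprime.mul_right ?_ (Nat.Coprime.prod_right fun q hq => Nat.Coprime.pow 2 2
        ((Nat.coprime_primes hp (hS q (Finset.mem_insert_of_mem hq)).1).mpr fun h => hpS (h ▸ hq)))
      exact Nat.Coprime.pow 2 3 ((Nat.coprime_primes hp Nat.prime_three).mpr hp3)
    have hb := periodic_compl (periodic_sharpBad p)
    refine ⟨by rw [hmod]; positivity, by rw [hmod, hset]; exact periodic_inter hb hper, ?_⟩
    rw [Finset.prod_insert hpS, mul_left_comm, ← hd, ← density_compl_sharpBad hp, hmod, hset,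
      density, density, density, card_residues_inter hpp h0 hcop hb hper]
    push_cast
    ring

/-- The primes below `Y` other than `3`. -/
def sievePrimes (Y : ℕ) : Finset ℕ := Y.primesBelow.erase 3

theorem mem_sievePrimes {Y p : ℕ} : p ∈ sievePrimes Y ↔ p ≠ 3 ∧ p < Y ∧ p.Prime := by
  simp [sievePrimes, Nat.mem_primesBelow]

theorem tendsto_goodSet_density :
    Tendsto (fun Y : ℕ => density (sharpModulus (sievePrimes Y)) (goodSet (sievePrimes Y))) atTop
      (𝓝 (4 / π ^ 4)) := by
  have h2 : (riemannZeta ((2 : ℕ) : ℂ)).re = π ^ 2 / 6 := by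
    rw [Nat.cast_ofNat, riemannZeta_two]; norm_cast
  have h := ((tendsto_eulerFactor (le_refl 2)).pow 2).mul_const (1 / 9 : ℝ)
  rw [h2, show ((π ^ 2 / 6)⁻¹) ^ 2 * (1 / 9 : ℝ) = 4 / π ^ 4 by field_simp; ring] at h
  refine h.congr' ?_
  filter_upwards [eventually_ge_atTop 4] with Y hY
  rw [(goodSet_facts _ fun p hp => ⟨(mem_sievePrimes.mp hp).2.2, (mem_sievePrimes.mp hp).1⟩).2.2]
  have h3 : 3 ∈ Y.primesBelow := Nat.mem_primesBelow.mpr ⟨by omega, Nat.prime_three⟩
  rw [sievePrimes, ← Finset.prod_pow, ← Finset.mul_prod_erase _ _ h3]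
  simp only [sharpFactor]
  norm_num
  ring

end FA.ThreeTorsion
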